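import Fermat.Agent.SelmerTW.Detect
import Fermat.Agent.Density.Places
import Fermat.Agent.Duality.SLevels

/-!
# The choice of Taylor–Wiles primes

Every non-zero class of `ad⁰ ρ ⊗ det ρ` unramified outside `T` is non-trivial at some prime
`q ≡ 1 (mod pⁿ)` with distinct Frobenius eigenvalues.
-/

set_option autoImplicit false

noncomputable section

open IntermediateField
open scoped Pointwise

namespace Fermat.Agent.SelmerTW

open Duality

section Cocycle

variable {M : Type} [AddCommGroup M] [DistribMulAction GalQ M] {z : GalQ → M}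
  (hz : ∀ g g', z (g * g') = g • z g' + z g)

include hz

theorem value_inv_add (g : GalQ) : g • z g⁻¹ + z g = 0 := by
  rw [← hz, mul_inv_cancel, cocycle_one hz]

/-- The elements where a cocycle agrees with a given coboundary form a subgroup. -/
def agreeSubgroup (a : M) : Subgroup GalQ where
  carrier := {g | z g = g • a - a}
  one_mem' := by
    show z 1 = (1 : GalQ) • a - a
    rw [cocycle_one hz, one_smul, sub_self]
  mul_mem' {g g'} hg hg' := by
    show z (g * g') = (g * g') • a - a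
    rw [hz, show z g' = g' • a - a from hg', show z g = g • a - a from hg, mul_smul, smul_sub]
    abel
  inv_mem' {g} hg := by
    show z g⁻¹ = g⁻¹ • a - a
    have h := value_inv_add hz g
    rw [show z g = g • a - a from hg] at h
    apply smul_left_cancel g
    rw [eq_neg_of_add_eq_zero_left h, smul_sub, smul_inv_smul]
    abel

/-- The coboundary at a conjugate element. -/
theorem coboundary_conj_eq {τ : GalQ} {a : M} (hτ : z τ = τ • a - a) (g : GalQ) :
    z (g * τ * g⁻¹) = (g * τ * g⁻¹) • (g • a - z g) - (g • a - z g) := by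
  rw [mul_assoc, hz, hz, hτ, show z g⁻¹ = -(g⁻¹ • z g) by
    apply smul_left_cancel g
    rw [eq_neg_of_add_eq_zero_left (value_inv_add hz g), smul_neg, smul_inv_smul]]
  simp only [mul_smul, smul_sub, smul_add, smul_neg, inv_smul_smul]
  abel

/-- Being a coboundary at an element is stable under conjugation. -/
theorem coboundary_at_conj {τ : GalQ} {a : M} (hτ : z τ = τ • a - a) (g : GalQ) :
    ∃ b, z (g * τ * g⁻¹) = (g * τ * g⁻¹) • b - b :=
  ⟨_, coboundary_conj_eq hz hτ g⟩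

/-- A cocycle vanishing on the inertia groups at the standard places vanishes on all of them. -/
theorem value_eq_zero_of_conj {A : ValuationSubring Qbar} (g : GalQ)
    (htriv : ∀ σ ∈ (g • A).inertiaSubgroupIn ℚ, ∀ x : M, σ • x = x)
    (h0 : ∀ σ ∈ A.inertiaSubgroupIn ℚ, z σ = 0) {σ : GalQ}
    (hσ : σ ∈ (g • A).inertiaSubgroupIn ℚ) : z σ = 0 := by
  have hi : g⁻¹ * σ * g ∈ A.inertiaSubgroupIn ℚ := by
    have h := Gal.conj_mem_inertia hσ g⁻¹
    rwa [inv_inv, inv_smul_smul] at h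
  obtain ⟨b, hb⟩ := coboundary_at_conj hz (τ := g⁻¹ * σ * g) (a := 0)
    (by rw [h0 _ hi, smul_zero, sub_self]) g
  rwa [show g * (g⁻¹ * σ * g) * g⁻¹ = σ by group, htriv σ hσ, sub_self] at hb

/-- A cocycle with trivial restriction to all inertia groups outside a finite set of primes is
constant on a level unramified outside that set. -/
theorem isConst₁_galLevelsS [Finite M] {S : Finset Nat.Primes}
    (hc : Coh.IsConst₁ (galLevels ℚ Qbar) z) (hM : Coh.IsSmooth (galLevelsS S) M)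
    (h0 : ∀ q : Nat.Primes, q ∉ S → ∀ A : ValuationSubring Qbar, A.LiesOverPrime (q : ℕ) →
      ∀ σ ∈ A.inertiaSubgroupIn ℚ, z σ = 0) :
    Coh.IsConst₁ (galLevelsS S) z := by
  obtain ⟨V, hV, hVfix⟩ := hM.exists_fixing id
  obtain ⟨E, hE, hEV⟩ := hV
  obtain ⟨U, hU, hzU⟩ := hc
  let W : Subgroup GalQ :=
    { carrier := {s | (∀ x : M, s • x = x) ∧ z s = 0}
      one_mem' := ⟨one_smul _, cocycle_one hz⟩
      mul_mem' := fun {s t} hs ht => ⟨fun x => by rw [mul_smul, ht.1, hs.1],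
        by rw [hz, ht.2, hs.2, smul_zero, zero_add]⟩
      inv_mem' := fun {s} hs => ⟨fun x => by rw [inv_smul_eq_iff, hs.1], by
        have h := value_inv_add hz s
        rw [hs.2, add_zero, hs.1] at h
        exact h⟩ }
  have hW : (galLevelsS S).ok W := by
    refine galLevelsS_ok_of_inertia ((galLevels ℚ Qbar).mono ((galLevels ℚ Qbar).inf_ok hU
      (galLevels_ok_of_galLevelsS (S := S) ⟨E, hE, hEV⟩)) fun s hs => ⟨fun x => hVfix x s hs.2, ?_⟩)
      fun q hq A hA σ hσ => ⟨fun x => hVfix x σ (hEV (hE.2 q hq A hA hσ)), h0 q hq A hA σ hσ⟩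
    have h := hzU 1 s hs.1
    rwa [one_mul, cocycle_one hz] at h
  exact ⟨W, hW, fun g s hs => by rw [hz, hs.2, smul_zero, zero_add]⟩

end Cocycle

section Regular

variable {k : Type} [Field k]

theorem trace_pow_sq_eq_four (h2 : (2 : k) ≠ 0) {x : Mat2 k} (hdet : x.det = 1)
    (htr : x.trace ^ 2 = 4) (j : ℕ) : (x ^ j).trace ^ 2 = 4 := by
  set c := x.trace / 2 with hc
  set D := x - c • (1 : Mat2 k) with hD
  have h4 : (4 : k) ≠ 0 := by
    rw [show (4 : k) = 2 * 2 by norm_num]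
    exact mul_ne_zero h2 h2
  have hDD : D * D = 0 := by
    rw [hD, sub_half_trace_sq h2, htr, hdet, div_self h4, sub_self, zero_smul]
  have hpow : ∀ j : ℕ, ∃ b : k, x ^ j = c ^ j • (1 : Mat2 k) + b • D := by
    intro j
    induction j with
    | zero => exact ⟨0, by rw [pow_zero, pow_zero, one_smul, zero_smul, add_zero]⟩
    | succ j ih =>
      obtain ⟨b, hb⟩ := ih
      refine ⟨c ^ j + b * c, ?_⟩
      rw [pow_succ, hb, show x = c • (1 : Mat2 k) + D by rw [hD]; abel, Matrix.add_mul,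
        Matrix.mul_add, Matrix.mul_add, Matrix.smul_mul, Matrix.smul_mul, Matrix.smul_mul,
        Matrix.smul_mul, Matrix.mul_smul, Matrix.mul_smul, Matrix.one_mul, Matrix.one_mul,
        Matrix.mul_one, hDD, smul_zero, add_zero, smul_smul, smul_smul, ← pow_succ, add_smul]
      abel
  obtain ⟨b, hb⟩ := hpow j
  have hDt : D.trace = 0 := trace_sub_half h2 x
  have hcc : c * c = 1 := by
    rw [hc, div_mul_div_comm, ← sq, htr, div_eq_one_iff_eq (mul_ne_zero h2 h2)]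
    norm_num
  rw [hb, Matrix.trace_add, Matrix.trace_smul, Matrix.trace_smul, hDt, smul_zero, add_zero,
    Matrix.trace_one, Fintype.card_fin, smul_eq_mul, Nat.cast_ofNat, mul_pow, ← pow_mul, mul_comm j,
    pow_mul, sq c, hcc, one_pow, one_mul]
  norm_num

end Regular

variable {p : ℕ} [Fact p.Prime] {k : Type} [Field k] [Finite k] [CharP k p]
  {ρ : GalQ →* GL (Fin 2) k}

omit [Finite k] [CharP k p] in
/-- The level of the kernel of `ρ`. -/
theorem IsTWImage.ok_ker (h : IsTWImage p ρ) : (galLevels ℚ Qbar).ok ρ.ker := by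
  obtain ⟨L, hL, h1⟩ := h.finite
  exact ⟨L, hL, fun σ hσ => h1 σ ((mem_fixingSubgroup_iff L σ).1 hσ)⟩

theorem ok_cycKer {m : ℕ} (hm : m ≠ 0) : (galLevels ℚ Qbar).ok (cycKer m) := by
  have : NeZero m := ⟨hm⟩
  obtain ⟨ζ, hζ⟩ := HasEnoughRootsOfUnity.exists_primitiveRoot Qbar m
  refine ⟨ℚ⟮ζ⟯, adjoin.finiteDimensional ((hζ.isIntegral (Nat.pos_of_ne_zero hm)).tower_top),
    fun σ hσ μ hμ => ?_⟩
  obtain ⟨i, -, rfl⟩ := hζ.eq_pow_of_pow_eq_one hμ
  rw [map_pow, (mem_fixingSubgroup_iff _ σ).1 hσ ζ (mem_adjoin_simple_self ℚ ζ)]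

/-- A prime detects a cocycle when it is not a coboundary at any Frobenius element. -/
def IsDetectedAt (z : GalQ → AdTw ρ) (ℓ : ℕ) : Prop :=
  ∀ A : ValuationSubring Qbar, A.LiesOverPrime ℓ → ∀ τ : GalQ, A.IsFrobeniusAt τ ℓ →
    ∀ a, z τ ≠ τ • a - a

variable (ρ) in
/-- A Taylor–Wiles prime at level `pⁿ⁺¹`. -/
def IsTWPrime (n ℓ : ℕ) : Prop :=
  ℓ.Prime ∧ p ^ (n + 1) ∣ ℓ - 1 ∧ ∀ A : ValuationSubring Qbar, A.LiesOverPrime ℓ →
    ∀ τ : GalQ, A.IsFrobeniusAt τ ℓ →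
      τ ∈ cycKer p ∧ (ρ τ).val.trace ^ 2 ≠ 4 * (ρ τ).val.det

/-- **A prime detecting one class.** -/
theorem IsTWImage.exists_prime (h : IsTWImage p ρ) {z : GalQ → AdTw ρ}
    (hz : ∀ g g', z (g * g') = g • z g' + z g) (hc : Coh.IsConst₁ (galLevels ℚ Qbar) z)
    (hne : ∀ a, ∃ g, z g ≠ g • a - a) (n : ℕ) (used : Finset ℕ) :
    ∃ ℓ, ℓ ∉ used ∧ IsTWPrime (p := p) ρ n ℓ ∧ IsDetectedAt z ℓ := by
  classical
  have hp : p.Prime := Fact.out
  have h2 := two_ne_zero_of_odd (k := k) p h.odd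
  obtain ⟨σ, hσ, htr, hzσ⟩ := h.exists_tw_element hz hne n
  set m := p ^ (n + 1)
  have hm0 : m ≠ 0 := pow_ne_zero _ hp.ne_zero
  have hle : cycKer m ≤ cycKer p := cycKer_le (dvd_pow_self p n.succ_ne_zero)
  obtain ⟨U, hU, hzU⟩ := hc
  obtain ⟨W, hW, hWn, hWle⟩ := (galLevels ℚ Qbar).exists_normal
    ((galLevels ℚ Qbar).inf_ok ((galLevels ℚ Qbar).inf_ok hU h.ok_ker) (ok_cycKer hm0))
  obtain ⟨E, hE, hEW⟩ := hW
  have := hE
  set N := IntermediateField.normalClosure ℚ E Qbar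
  have : Normal ℚ N := normalClosure.normal ℚ E Qbar
  have : FiniteDimensional ℚ N := normalClosure.is_finiteDimensional ℚ E Qbar
  have hNle : N.fixingSubgroup ≤ W :=
    (IntermediateField.fixingSubgroup_antitone E.le_normalClosure).trans hEW
  have hNker : ∀ {τ τ' : GalQ}, AlgEquiv.restrictNormalHom N τ = AlgEquiv.restrictNormalHom N τ' →
      ∃ s, τ' = τ * s ∧ ρ s = 1 ∧ s ∈ cycKer m ∧ z s = 0 := by
    intro τ τ' e
    have hs : τ⁻¹ * τ' ∈ N.fixingSubgroup := by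
      rw [← IntermediateField.restrictNormalHom_ker N, MonoidHom.mem_ker, map_mul, map_inv]
      exact inv_mul_eq_one.2 e
    obtain ⟨⟨hsU, hsρ⟩, hsc⟩ := hWle (hNle hs)
    refine ⟨τ⁻¹ * τ', (mul_inv_cancel_left τ τ').symm, hsρ, hsc, ?_⟩
    have h1 := hzU 1 _ hsU
    rwa [one_mul, cocycle_one hz] at h1
  obtain ⟨ℓ, hℓ, hℓS, hℓN⟩ := Density.exists_prime_zpowers_restrict_eq N σ (insert p used)
  simp only [Finset.mem_insert, not_or] at hℓS
  -- everything is inherited by the Frobenius elements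
  have key : ∀ A : ValuationSubring Qbar, A.LiesOverPrime ℓ → ∀ τ : GalQ, A.IsFrobeniusAt τ ℓ →
      τ ∈ cycKer m ∧ (ρ τ).val.trace ^ 2 ≠ 4 ∧ ∀ a, z τ ≠ τ • a - a := by
    intro A hA τ hτ
    obtain ⟨g, hg⟩ := (hℓN A hA).2 τ hτ
    set τ' := g * τ * g⁻¹ with hτ'
    have : Finite (N ≃ₐ[ℚ] N) := inferInstance
    obtain ⟨j, hj⟩ := mem_powers_iff_mem_zpowers.2
      (hg ▸ Subgroup.mem_zpowers (AlgEquiv.restrictNormalHom N σ) :
        AlgEquiv.restrictNormalHom N σ ∈ Subgroup.zpowers (AlgEquiv.restrictNormalHom N τ'))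
    obtain ⟨i, hi⟩ := mem_powers_iff_mem_zpowers.2
      (hg ▸ Subgroup.mem_zpowers (AlgEquiv.restrictNormalHom N τ') :
        AlgEquiv.restrictNormalHom N τ' ∈ Subgroup.zpowers (AlgEquiv.restrictNormalHom N σ))
    obtain ⟨s, hs, hsρ, hsc, hzs⟩ :=
      hNker (τ := τ' ^ j) (τ' := σ) ((map_pow _ _ _).trans hj)
    obtain ⟨s', hs', -, hs'c, -⟩ :=
      hNker (τ := σ ^ i) (τ' := τ') ((map_pow _ _ _).trans hi)
    have hτ'c : τ' ∈ cycKer m := hs' ▸ mul_mem (pow_mem hσ i) hs'c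
    have hτc : τ ∈ cycKer m := by
      have := (cycKer_normal m).conj_mem τ' hτ'c g⁻¹
      rwa [hτ', show g⁻¹ * (g * τ * g⁻¹) * g⁻¹⁻¹ = τ by group] at this
    refine ⟨hτc, fun e => htr ?_, fun a ha => ?_⟩
    · have e' : (ρ τ').val.trace ^ 2 = 4 := by
        rwa [hτ', map_mul, map_mul, map_inv, Units.val_mul, Units.val_mul,
          Matrix.trace_units_conj]
      rw [hs, map_mul, hsρ, mul_one, map_pow, Units.val_pow_eq_pow_val]
      exact trace_pow_sq_eq_four h2 (h.det_eq_one (hle hτ'c)) e' j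
    · obtain ⟨b, hb⟩ := coboundary_at_conj hz ha g
      have hpow : τ' ^ j ∈ agreeSubgroup hz b := pow_mem hb j
      refine hzσ b ?_
      rw [hs, hz, hzs, smul_zero, zero_add, hpow, mul_smul, smul_eq_self_of_map_eq_one hsρ]
  obtain ⟨A, hA⟩ := Gal.exists_liesOverPrime (L := Qbar) hℓ
  obtain ⟨τ, hτ⟩ := Gal.exists_isFrobeniusAt hℓ hA
  have : NeZero m := ⟨hm0⟩
  obtain ⟨ζ, hζ⟩ := HasEnoughRootsOfUnity.exists_primitiveRoot Qbar m
  have hℓm : ¬ ℓ ∣ m := fun hd =>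
    hℓS.1 ((Nat.prime_dvd_prime_iff_eq hℓ hp).1 (hℓ.dvd_of_dvd_pow hd))
  have h1 : ((ℓ : ℕ) : ZMod m) = ((1 : ℕ) : ZMod m) := by
    refine natCast_eq_of_pow_eq hζ ?_
    rw [pow_one, ← Gal.apply_rootOfUnity_of_isFrobeniusAt hτ hℓ hA hℓm hζ.pow_eq_one]
    exact (key A hA τ hτ).1 ζ hζ.pow_eq_one
  refine ⟨ℓ, hℓS.2, ⟨hℓ, (Nat.modEq_iff_dvd' hℓ.one_le).1
    ((ZMod.natCast_eq_natCast_iff _ _ _).1 h1.symm), fun A hA τ hτ => ?_⟩,
    fun A hA τ hτ => (key A hA τ hτ).2.2⟩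
  obtain ⟨hτc, hτtr, -⟩ := key A hA τ hτ
  exact ⟨hle hτc, by rw [h.det_eq_one (hle hτc), mul_one]; exact hτtr⟩

/-- **One prime for each class.** -/
theorem IsTWImage.exists_primes (h : IsTWImage p ρ) {ι : Type} (s : Finset ι)
    (z : ι → GalQ → AdTw ρ) (hz : ∀ i g g', z i (g * g') = g • z i g' + z i g)
    (hc : ∀ i, Coh.IsConst₁ (galLevels ℚ Qbar) (z i))
    (hne : ∀ i, ∀ a, ∃ g, z i g ≠ g • a - a) (n : ℕ) (T : Finset ℕ) :
    ∃ Q : Finset ℕ, Q.card = s.card ∧ Disjoint Q T ∧ (∀ ℓ ∈ Q, IsTWPrime (p := p) ρ n ℓ) ∧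
      ∀ i ∈ s, ∃ ℓ ∈ Q, IsDetectedAt (z i) ℓ := by
  classical
  induction s using Finset.induction_on with
  | empty => exact ⟨∅, rfl, Finset.disjoint_empty_left T, by simp, by simp⟩
  | insert i s hi ih =>
    obtain ⟨Q, hQc, hQT, hQp, hQd⟩ := ih
    obtain ⟨ℓ, hℓ, hℓp, hℓd⟩ := h.exists_prime (hz i) (hc i) (hne i) n (T ∪ Q)
    rw [Finset.mem_union, not_or] at hℓ
    refine ⟨insert ℓ Q, ?_, ?_, ?_, ?_⟩
    · rw [Finset.card_insert_of_notMem hℓ.2, Finset.card_insert_of_notMem hi, hQc]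
    · exact Finset.disjoint_insert_left.2 ⟨hℓ.1, hQT⟩
    · exact Finset.forall_mem_insert _ _ _ |>.2 ⟨hℓp, hQp⟩
    · refine (Finset.forall_mem_insert _ _ _).2
        ⟨⟨ℓ, Finset.mem_insert_self _ _, hℓd⟩, fun j hj => ?_⟩
      obtain ⟨l, hl, hld⟩ := hQd j hj
      exact ⟨l, Finset.mem_insert_of_mem hl, hld⟩

end Fermat.Agent.SelmerTW

end
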