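import Fermat.Agent.SelmerTW.Count
import Fermat.Agent.SelmerTW.Primes
import Fermat.Agent.Duality.Base.Assembly

/-!
# Taylor–Wiles primes bound the framed tangent space

With one prime for each non-zero class of `ad⁰ ρ ⊗ det ρ` unramified outside `T`, the relative
framed tangent space has dimension at most `r + 2`.
-/

set_option autoImplicit false

noncomputable section

open scoped Pointwise

namespace Fermat.Agent.SelmerTW

open Duality

variable {p : ℕ} [Fact p.Prime] {k : Type} [Field k] {ρ : GalQ →* GL (Fin 2) k}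

/-- The relative framed tangent space: a cocycle with trace zero values, unramified outside `T ∪ Q`,
killed by the frame `β v` at the chosen place over `v ∈ T`. -/
structure IsFramedCocycle (ρ : GalQ →* GL (Fin 2) k) (T Q : Finset ℕ)
    (P : ℕ → ValuationSubring Qbar) (x : (GalQ → Mat2 k) × (ℕ → Mat2 k)) : Prop where
  trace_zero : ∀ σ, (x.1 σ).trace = 0
  frame_trace_zero : ∀ v, (x.2 v).trace = 0
  frame_support : ∀ v, v ∉ T → x.2 v = 0
  cocycle : ∀ σ τ, x.1 (σ * τ) = x.1 σ + conjAct ρ σ (x.1 τ)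
  locConst : ∃ L : IntermediateField ℚ Qbar, FiniteDimensional ℚ L ∧
    ∀ σ τ : GalQ, (∀ y ∈ L, τ y = y) → x.1 (σ * τ) = x.1 σ
  unramified : ∀ q : ℕ, q.Prime → q ∉ T → q ∉ Q → ∀ A : ValuationSubring Qbar,
    A.LiesOverPrime q → ∀ σ ∈ A.inertiaSubgroupIn ℚ, x.1 σ = 0
  local_zero : ∀ v ∈ T, ∀ σ ∈ (P v).decompositionSubgroup ℚ,
    x.1 σ + (conjAct ρ σ (x.2 v) - x.2 v) = 0

/-- Inertia at the standard place over `q` comes from local inertia. -/
theorem exists_local_lift_inertia (q : ℕ) [Fact q.Prime] {σ : GalQ}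
    (hσ : σ ∈ (padicPlace q).inertiaSubgroupIn ℚ) :
    ∃ d ∈ inertiaLoc q, localGaloisToGlobal q d = σ := by
  have h : σ ∈ (padicPlace q).decompositionSubgroup ℚ := ((Gal.mem_inertia_iff _ σ).1 hσ).1
  rw [← Places.range_localGaloisToGlobal] at h
  obtain ⟨d, rfl⟩ := h
  exact ⟨d, hσ, rfl⟩

section Linear

theorem isFramedCocycle_zero (T Q : Finset ℕ) (P : ℕ → ValuationSubring Qbar) :
    IsFramedCocycle ρ T Q P 0 :=
  ⟨fun _ => Matrix.trace_zero _ _, fun _ => Matrix.trace_zero _ _, fun _ _ => rfl,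
    fun σ _ => by simp [conjAct_zero],
    ⟨⊥, inferInstance, fun _ _ _ => rfl⟩, fun _ _ _ _ _ _ _ _ => rfl,
    fun _ _ σ _ => by simp [conjAct_zero]⟩

variable {T Q : Finset ℕ} {P : ℕ → ValuationSubring Qbar}
  {x y : (GalQ → Mat2 k) × (ℕ → Mat2 k)}

theorem IsFramedCocycle.add (hx : IsFramedCocycle ρ T Q P x) (hy : IsFramedCocycle ρ T Q P y) :
    IsFramedCocycle ρ T Q P (x + y) := by
  obtain ⟨L, hL, hxL⟩ := hx.locConst
  obtain ⟨L', hL', hyL⟩ := hy.locConst
  have := hL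
  have := hL'
  refine ⟨fun σ => ?_, fun v => ?_, fun v hv => ?_, fun σ τ => ?_,
    ⟨L ⊔ L', inferInstance, fun σ τ hτ => ?_⟩, fun q hq h1 h2 A hA σ hσ => ?_, fun v hv σ hσ => ?_⟩
  · simp [Matrix.trace_add, hx.trace_zero, hy.trace_zero]
  · simp [Matrix.trace_add, hx.frame_trace_zero, hy.frame_trace_zero]
  · simp [hx.frame_support v hv, hy.frame_support v hv]
  · simp only [Prod.fst_add, Pi.add_apply, hx.cocycle, hy.cocycle, conjAct_add]
    abel
  · simp only [Prod.fst_add, Pi.add_apply]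
    rw [hxL σ τ fun z hz => hτ z ((le_sup_left : L ≤ L ⊔ L') hz),
      hyL σ τ fun z hz => hτ z ((le_sup_right : L' ≤ L ⊔ L') hz)]
  · simp [hx.unramified q hq h1 h2 A hA σ hσ, hy.unramified q hq h1 h2 A hA σ hσ]
  · have e1 := hx.local_zero v hv σ hσ
    have e2 := hy.local_zero v hv σ hσ
    simp only [Prod.fst_add, Prod.snd_add, Pi.add_apply, conjAct_add]
    calc x.1 σ + y.1 σ + (conjAct ρ σ (x.2 v) + conjAct ρ σ (y.2 v) - (x.2 v + y.2 v))
        = (x.1 σ + (conjAct ρ σ (x.2 v) - x.2 v)) + (y.1 σ + (conjAct ρ σ (y.2 v) - y.2 v)) := by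
          abel
      _ = 0 := by rw [e1, e2, add_zero]

theorem IsFramedCocycle.smul (c : k) (hx : IsFramedCocycle ρ T Q P x) :
    IsFramedCocycle ρ T Q P (c • x) := by
  obtain ⟨L, hL, hxL⟩ := hx.locConst
  refine ⟨fun σ => ?_, fun v => ?_, fun v hv => ?_, fun σ τ => ?_,
    ⟨L, hL, fun σ τ hτ => ?_⟩, fun q hq h1 h2 A hA σ hσ => ?_, fun v hv σ hσ => ?_⟩
  · simp [Matrix.trace_smul, hx.trace_zero]
  · simp [Matrix.trace_smul, hx.frame_trace_zero]
  · simp [hx.frame_support v hv]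
  · simp only [Prod.smul_fst, Pi.smul_apply, hx.cocycle, smul_add, conjAct_smul]
  · simp only [Prod.smul_fst, Pi.smul_apply, hxL σ τ hτ]
  · simp [hx.unramified q hq h1 h2 A hA σ hσ]
  · simp only [Prod.smul_fst, Prod.smul_snd, Pi.smul_apply, conjAct_smul]
    rw [← smul_sub, ← smul_add, hx.local_zero v hv σ hσ, smul_zero]

theorem isFramedCocycle_sum {m : ℕ} {x : Fin m → (GalQ → Mat2 k) × (ℕ → Mat2 k)}
    (hx : ∀ i, IsFramedCocycle ρ T Q P (x i)) (a : Fin m → k) (s : Finset (Fin m)) :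
    IsFramedCocycle ρ T Q P (∑ i ∈ s, a i • x i) := by
  classical
  induction s using Finset.induction_on with
  | empty => simpa using isFramedCocycle_zero T Q P
  | insert i s hi ih => rw [Finset.sum_insert hi]; exact ((hx i).smul (a i)).add ih

end Linear

variable [Finite k] [CharP k p] (h : IsTWImage p ρ)

include h

/-- Invariants of the dual vanish. -/
theorem IsTWImage.vcard_inv_dual :
    EulerChar.vcard p (Coh.inv GalQ (Coh.HomMod (AdTw ρ) (Mu p Qbar))) = 0 := by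
  have : Subsingleton (Coh.inv GalQ (Coh.HomMod (AdTw ρ) (Mu p Qbar))) := by
    suffices h0 : ∀ f : Coh.inv GalQ (Coh.HomMod (AdTw ρ) (Mu p Qbar)), f = 0 from
      ⟨fun a b => (h0 a).trans (h0 b).symm⟩
    intro f
    obtain ⟨A, hA⟩ := (dualAdd_bijective ρ p h.odd).2 f.1
    have hA0 : A.1 = 0 := h.fixed A.1 A.2 fun σ _ => by
      have h1 : dualAdd ρ p ⟨conjAct ρ σ A.1, mem_sl0.2 (by rw [trace_conjAct]; exact A.2)⟩ =
          dualAdd ρ p A := by
        show dualHom ρ p (conjAct ρ σ A.1) = dualHom ρ p A.1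
        rw [← smul_dualHom ρ p h.cycloDet, show dualHom ρ p A.1 = f.1 from hA, f.2 σ]
      exact congrArg Subtype.val ((dualAdd_bijective ρ p h.odd).1 h1)
    refine Subtype.ext ?_
    rw [← hA, show A = 0 from Subtype.ext hA0, map_zero]
    rfl
  exact EulerChar.vcard_subsingleton p _

omit h [CharP k p] in
theorem vcard_sl0 : EulerChar.vcard p (AdTw ρ) = 3 * EulerChar.vcard p k := by
  have e : AdTw ρ ≃ k × k × k :=
    { toFun := fun x => (x.mat 0 0, x.mat 0 1, x.mat 1 0)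
      invFun := fun a => AdTw.mk !![a.1, a.2.1; a.2.2, -a.1] (by simp [Matrix.trace_fin_two])
      left_inv := fun x => AdTw.ext' (by
        have ht := x.trace_mat
        rw [Matrix.trace_fin_two] at ht
        ext i j
        fin_cases i <;> fin_cases j <;> simp
        linear_combination -ht)
      right_inv := fun a => by simp }
  rw [EulerChar.vcard_congr p e, EulerChar.vcard_prod, EulerChar.vcard_prod]
  ring

/-- The codimension of the part fixed by complex conjugation. -/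
theorem IsTWImage.le_dminus :
    EulerChar.vcard p k ≤ EulerChar.dminus p complexConjugation (AdTw ρ) := by
  have h2 := two_ne_zero_of_odd (k := k) p h.odd
  set C := (ρ complexConjugation).val with hC
  have hsq : C * C = 1 := by
    rw [hC, ← Units.val_mul, ← map_mul, complexConjugation_mul_self, map_one, Units.val_one]
  have hdet : C.det = -1 := by
    rw [hC, h.cycloDet, ← ZMod.cast_natCast' (R := k)]
    have e : (ExtCitation.cycloExp p complexConjugation : ZMod p) = -1 := by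
      have h1 := EulerChar.complexConjugation_smul_Mu (EulerChar.muZMod.symm (1 : ZMod p))
      rw [smul_Mu_eq_cycloExp] at h1
      have h2 := congrArg EulerChar.muZMod h1
      rwa [map_nsmul, map_neg, AddEquiv.apply_symm_apply, nsmul_one] at h2
    rw [e, ← ZMod.castHom_apply (m := p) (h := dvd_refl p) (R := k), map_neg, map_one]
  have hCinv : (ρ complexConjugation⁻¹).val = C := by
    rw [inv_eq_of_mul_eq_one_right complexConjugation_mul_self]
  have htC : C.trace = 0 := by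
    have e : C * C = C.trace • C - C.det • (1 : Mat2 k) := by
      ext i j
      fin_cases i <;> fin_cases j <;>
        simp [Matrix.mul_apply, Fin.sum_univ_two, Matrix.trace_fin_two, Matrix.det_fin_two] <;> ring
    rw [hsq, hdet, neg_smul, sub_neg_eq_add, one_smul, right_eq_add] at e
    rcases smul_eq_zero.1 e with e | e
    · exact e
    · rw [e, Matrix.mul_zero] at hsq
      exact absurd hsq zero_ne_one
  let Φ : AdTw ρ →+ k := AddMonoidHom.mk' (fun x => (C * x.mat).trace)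
    fun x y => by rw [AdTw.mat_add, Matrix.mul_add, Matrix.trace_add]
  have hΦ : Function.Surjective Φ := fun y => by
    refine ⟨AdTw.mk ((y / 2) • C) (by rw [Matrix.trace_smul, htC, smul_zero]), ?_⟩
    show (C * ((y / 2) • C)).trace = y
    rw [Matrix.mul_smul, hsq, Matrix.trace_smul, Matrix.trace_one, Fintype.card_fin, smul_eq_mul,
      Nat.cast_ofNat, div_mul_cancel₀ _ h2]
  have hfix : EulerChar.fixAt complexConjugation (AdTw ρ) ≤ Φ.ker := fun x hx => by
    have e := congrArg AdTw.mat (hx : complexConjugation • x = x)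
    rw [mat_smul, ← hC, hdet, conjAct, hCinv, ← hC, neg_smul, one_smul] at e
    show (C * x.mat).trace = 0
    have e2 : (C * x.mat).trace = -(C * x.mat).trace := by
      conv_lhs => rw [← e, Matrix.mul_neg, Matrix.trace_neg]
      rw [← Matrix.mul_assoc, ← Matrix.mul_assoc, hsq, Matrix.one_mul, Matrix.trace_mul_comm]
    have e3 : (2 : k) * (C * x.mat).trace = 0 := by linear_combination e2
    exact (mul_eq_zero.1 e3).resolve_left h2
  have e1 := EulerChar.vcard_eq_ker_add_range p Φ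
  rw [EulerChar.vcard_range_of_surjective p Φ hΦ] at e1
  have e2 : EulerChar.vcard p (EulerChar.fixAt complexConjugation (AdTw ρ)) ≤
      EulerChar.vcard p Φ.ker :=
    vcard_le_of_natCard_le (fun x => Subtype.ext (adTw_torsion ρ p x.1))
      (fun x => Subtype.ext (adTw_torsion ρ p x.1))
      (Nat.card_le_card_of_injective _ (AddSubgroup.inclusion_injective hfix))
  unfold EulerChar.dminus
  linarith

/-- The part fixed by an element of `cycKer p` with distinct eigenvalues is a line. -/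
theorem IsTWImage.vcard_fixAt_le (q : ℕ) [Fact q.Prime] {φ : GalLoc q}
    (hφ : localGaloisToGlobal q φ ∈ cycKer p)
    (htr : (ρ (localGaloisToGlobal q φ)).val.trace ^ 2 ≠ 4) :
    EulerChar.vcard p (EulerChar.fixAt φ (AdTw ρ)) ≤ EulerChar.vcard p k := by
  have h2 := two_ne_zero_of_odd (k := k) p h.odd
  set g := localGaloisToGlobal q φ
  set D := (ρ g).val - ((ρ g).val.trace / 2) • (1 : Mat2 k) with hD
  have h4 : (4 : k) ≠ 0 := by
    rw [show (4 : k) = 2 * 2 by norm_num]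
    exact mul_ne_zero h2 h2
  set δ := (ρ g).val.trace ^ 2 / 4 - (ρ g).val.det with hδ
  have hδ0 : δ ≠ 0 := by
    rw [hδ, h.det_eq_one hφ, sub_ne_zero, Ne, div_eq_one_iff_eq h4]
    exact htr
  have hDD : D * D = δ • (1 : Mat2 k) := sub_half_trace_sq h2 _
  have hDt : D.trace = 0 := trace_sub_half h2 _
  refine vcard_le_of_natCard_le (fun x => Subtype.ext (adTw_torsion ρ p x.1))
    (fun y => by rw [nsmul_eq_mul, CharP.cast_eq_zero, zero_mul]) ?_
  refine Nat.card_le_card_of_injective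
    (fun x : EulerChar.fixAt φ (AdTw ρ) => (D * x.1.mat).trace) fun x y hxy => ?_
  have hmain : ∀ a : AdTw ρ, φ • a = a → (D * a.mat).trace = 0 → a = 0 := fun a ha ht => by
    have e := congrArg AdTw.mat ha
    rw [show φ • a = g • a from rfl, h.smul_mat_of_mem hφ, conjAct_eq_self_iff] at e
    have hcomm : D * a.mat = a.mat * D := by
      rw [hD, Matrix.sub_mul, Matrix.mul_sub, e, Matrix.smul_mul, Matrix.mul_smul, Matrix.one_mul,
        Matrix.mul_one]
    have hat := a.trace_mat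
    have hpolar : D * a.mat + a.mat * D = (D * a.mat).trace • (1 : Mat2 k) := by
      rw [Matrix.trace_fin_two] at hat hDt
      have ha11 : a.mat 1 1 = -a.mat 0 0 := by linear_combination hat
      have hD11 : D 1 1 = -D 0 0 := by linear_combination hDt
      ext i j
      fin_cases i <;> fin_cases j <;>
        simp [Matrix.mul_apply, Fin.sum_univ_two, Matrix.trace_fin_two, ha11, hD11] <;> ring
    rw [← hcomm, ht, zero_smul, ← two_smul k, smul_eq_zero, or_iff_right h2] at hpolar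
    refine AdTw.ext' ?_
    have e3 : (D * D) * a.mat = 0 := by rw [Matrix.mul_assoc, hpolar, Matrix.mul_zero]
    rw [hDD, Matrix.smul_mul, Matrix.one_mul, smul_eq_zero, or_iff_right hδ0] at e3
    exact e3
  refine Subtype.ext (sub_eq_zero.1 (hmain (x.1 - y.1) ?_ ?_))
  · rw [smul_sub, show φ • x.1 = x.1 from x.2, show φ • y.1 = y.1 from y.2]
  · rw [AdTw.mat_sub, Matrix.mul_sub, Matrix.trace_sub, sub_eq_zero]
    exact hxy

omit [Fact p.Prime] [Finite k] [CharP k p] h in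
/-- A class which is unramified at the standard place over `q` is trivial on all inertia over
`q`. -/
theorem value_inertia_zero_of_unramified {T : Finset ℕ}
    (hunr : ∀ q : ℕ, q.Prime → q ∉ T → ∀ A : ValuationSubring Qbar, A.LiesOverPrime q →
      ∀ σ ∈ A.inertiaSubgroupIn ℚ, ρ σ = 1)
    {q : ℕ} [Fact q.Prime] (hqT : q ∉ T) {z : GalQ → AdTw ρ}
    (hz : ∀ g g', z (g * g') = g • z g' + z g)
    (h0 : ∀ d : GalLoc q, d ∈ inertiaLoc q → z (localGaloisToGlobal q d) = 0)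
    {A : ValuationSubring Qbar} (hA : A.LiesOverPrime q) {σ : GalQ}
    (hσ : σ ∈ A.inertiaSubgroupIn ℚ) : z σ = 0 := by
  obtain ⟨g, rfl⟩ := Gal.exists_smul_eq_of_liesOverPrime (Fact.out : q.Prime)
    (Places.liesOverPrime_padicPlace q) hA
  refine value_eq_zero_of_conj hz g
    (fun τ hτ x => smul_eq_self_of_map_eq_one (hunr q Fact.out hqT _ hA τ hτ) x)
    (fun τ hτ => ?_) hσ
  obtain ⟨d, hd, rfl⟩ := exists_local_lift_inertia q hτ
  exact h0 d hd

omit h in
/-- The primes in a finite set of natural numbers. -/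
theorem exists_primesFinset (T : Finset ℕ) (hT : ∀ q ∈ T, q.Prime) :
    ∃ T₀ : Finset Nat.Primes, ∀ q : Nat.Primes, q ∈ T₀ ↔ (q : ℕ) ∈ T := by
  classical
  let f : {x // x ∈ T} → Nat.Primes := fun q => ⟨q.1, hT q.1 q.2⟩
  refine ⟨T.attach.image f, fun q => ⟨fun hq => ?_, fun hq => ?_⟩⟩
  · obtain ⟨a, -, rfl⟩ := Finset.mem_image.1 hq
    exact a.2
  · exact Finset.mem_image.2 ⟨⟨q.1, hq⟩, Finset.mem_attach _ _, rfl⟩

omit [Finite k] [CharP k p] in
/-- Smoothness for levels unramified outside a set containing `T`. -/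
theorem IsTWImage.isSmooth {T : Finset ℕ}
    (hunr : ∀ q : ℕ, q.Prime → q ∉ T → ∀ A : ValuationSubring Qbar, A.LiesOverPrime q →
      ∀ σ ∈ A.inertiaSubgroupIn ℚ, ρ σ = 1)
    {S : Finset Nat.Primes} (hS : ∀ q : Nat.Primes, (q : ℕ) ∈ T → q ∈ S) :
    Coh.IsSmooth (galLevelsS S) (AdTw ρ) :=
  isSmooth_galLevelsS (fun x => ⟨ρ.ker, h.ok_ker, fun _ hs => smul_eq_self_of_map_eq_one hs x⟩)
    fun q hq A hA g hg x =>
      smul_eq_self_of_map_eq_one (hunr q q.2 (fun hqT => hq (hS q hqT)) A hA g hg) x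

omit [Finite k] [CharP k p] in
/-- The inertia condition for the local module. -/
theorem IsTWImage.isUnramModule {T : Finset ℕ}
    (hunr : ∀ q : ℕ, q.Prime → q ∉ T → ∀ A : ValuationSubring Qbar, A.LiesOverPrime q →
      ∀ σ ∈ A.inertiaSubgroupIn ℚ, ρ σ = 1) (q : ℕ) [Fact q.Prime] (hqT : q ∉ T) :
    IsUnramModule q (AdTw ρ) :=
  ⟨fun x => ⟨ρ.ker.comap (localGaloisToGlobal q), compat_localGaloisToGlobal q _ h.ok_ker,
      fun _ hs => smul_eq_self_of_map_eq_one hs x⟩,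
    fun _ hd x => smul_eq_self_of_map_eq_one
      (hunr q Fact.out hqT _ (Places.liesOverPrime_padicPlace q) _ hd) x⟩

/-- **The framed tangent space** is bounded by a Selmer group, the trace zero matrices and the
local invariants. -/
theorem framed_bound (T Q : Finset ℕ) (hT : ∀ q ∈ T, q.Prime) (P : ℕ → ValuationSubring Qbar)
    (hP : ∀ v ∈ T, (P v).LiesOverPrime v) {S : Finset Nat.Primes} [Nonempty ↥S]
    (hY : Coh.IsSmooth (galLevelsS S) (Coh.HomMod (AdTw ρ) (Mu p Qbar)))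
    (hTS : ∀ q : Nat.Primes, (q : ℕ) ∈ T → q ∈ S)
    (hQS : ∀ q : Nat.Primes, (q : ℕ) ∈ Q → q ∈ S) (T' : Finset ↥S)
    (memT : ∀ q : ↥S, q ∈ T' ↔ (q.1 : ℕ) ∈ T) (Q' : Finset ↥S)
    (memQ : ∀ q : ↥S, q ∈ Q' ↔ (q.1 : ℕ) ∈ Q)
    (B : AddSubgroup (Coh.H1 (galLevelsS S) (Coh.HomMod (AdTw ρ) (Mu p Qbar))))
    (hB : ∀ y, (∀ q ∈ T', locY (fun _ _ _ => rfl) q y = 0) →
      (∀ q, q ∉ T' → q ∉ Q' → locY (fun _ _ _ => rfl) q y ∈
        unrCl (q.1 : ℕ) (DualLoc p (AdTw ρ) q)) → y ∈ B)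
    {m : ℕ} (x : Fin m → (GalQ → Mat2 k) × (ℕ → Mat2 k))
    (hx : ∀ i, IsFramedCocycle ρ T Q P (x i)) (hli : LinearIndependent k x) :
    (m : ℤ) * EulerChar.vcard p k ≤
      EulerChar.vcard p B + 3 * EulerChar.vcard p k + ∑ q ∈ T', locTerm p (AdTw ρ) q := by
  classical
  have : NeZero p := ⟨(Fact.out : p.Prime).ne_zero⟩
  have : Finite (Coh.HomMod (AdTw ρ) (Mu p Qbar)) := Finite.of_injective _ DFunLike.coe_injective
  have : ∀ q : ↥S, Finite (DualLoc p (AdTw ρ) q) := fun q =>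
    haveI : Finite (MuLoc p q) := Finite.of_equiv _ (muEquiv (q.1 : ℕ)).toEquiv
    Finite.of_injective _ DFunLike.coe_injective
  have hinj : ∀ {A A' : Mat2 k}, A.trace = 0 → A'.trace = 0 →
      dualHom ρ p A = dualHom ρ p A' → A = A' := fun hA hA' e =>
    congrArg Subtype.val ((dualAdd_bijective ρ p h.odd).1 (a₁ := ⟨_, hA⟩) (a₂ := ⟨_, hA'⟩) e)
  let X : (Fin m → k) → (GalQ → Mat2 k) × (ℕ → Mat2 k) := fun a => ∑ i, a i • x i
  have hX : ∀ a, IsFramedCocycle ρ T Q P (X a) := fun a => isFramedCocycle_sum hx a _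
  have hXinj : Function.Injective X := fun a a' e =>
    funext (Fintype.linearIndependent_iffₛ.mp hli a a' e)
  have hXadd : ∀ a a', X (a + a') = X a + X a' := fun a a' => by
    simp only [X, Pi.add_apply, add_smul, Finset.sum_add_distrib]
  let y : (Fin m → k) → GalQ → Coh.HomMod (AdTw ρ) (Mu p Qbar) :=
    fun a g => dualHom ρ p ((X a).1 g)
  have hdual0 : dualHom ρ p (0 : Mat2 k) = 0 := map_zero (dualAdd ρ p)
  have hy : ∀ a g g', y a (g * g') = g • y a g' + y a g := fun a g g' => by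
    show dualHom ρ p ((X a).1 (g * g')) =
      g • dualHom ρ p ((X a).1 g') + dualHom ρ p ((X a).1 g)
    rw [(hX a).cocycle, dualHom_add, smul_dualHom ρ p h.cycloDet, add_comm]
  have hyS : ∀ a, Coh.IsConst₁ (galLevelsS S) (y a) := fun a => by
    obtain ⟨L, hL, hxL⟩ := (hX a).locConst
    refine isConst₁_galLevelsS (hy a) ⟨L.fixingSubgroup, ⟨L, hL, le_rfl⟩, fun g s hs =>
      congrArg (dualHom ρ p) (hxL g s ((IntermediateField.mem_fixingSubgroup_iff L s).1 hs))⟩ hY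
      fun q hq A hA σ hσ => ?_
    show dualHom ρ p ((X a).1 σ) = 0
    rw [(hX a).unramified q q.2 (fun hc => hq (hTS q hc)) (fun hc => hq (hQS q hc)) A hA σ hσ]
    exact hdual0
  let Φ : (Fin m → k) →+ Coh.H1 (galLevelsS S) (Coh.HomMod (AdTw ρ) (Mu p Qbar)) :=
    Coh.H1.mk.comp (AddMonoidHom.mk' (fun a => ⟨y a, Coh.mem_Z1.2 ⟨hyS a, hy a⟩⟩) fun a a' =>
      Subtype.ext (funext fun g => by
        show dualHom ρ p ((X (a + a')).1 g) = _
        rw [hXadd, Prod.fst_add, Pi.add_apply, dualHom_add]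
        rfl))
  -- the places
  have hprime : ∀ q : ↥S, Fact (q.1 : ℕ).Prime := fun q => ⟨q.1.2⟩
  have hplace : ∀ q : ↥S, q ∈ T' → ∃ g : GalQ, P (q.1 : ℕ) = g • padicPlace (q.1 : ℕ) :=
    fun q hq => by
      obtain ⟨g, hg⟩ := Gal.exists_smul_eq_of_liesOverPrime q.1.2
        (Places.liesOverPrime_padicPlace (q.1 : ℕ)) (hP _ ((memT q).1 hq))
      exact ⟨g, hg.symm⟩
  choose! h₀ hh₀ using hplace
  have hdec : ∀ q ∈ T', ∀ d : GalLoc (q.1 : ℕ),
      h₀ q * localGaloisToGlobal (q.1 : ℕ) d * (h₀ q)⁻¹ ∈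
        (P (q.1 : ℕ)).decompositionSubgroup ℚ := fun q hq d => by
    have hd := localGaloisToGlobal_mem_decompositionSubgroup (q.1 : ℕ) d
    show _ • P (q.1 : ℕ) = P (q.1 : ℕ)
    rw [hh₀ q hq, mul_smul, mul_smul, inv_smul_smul,
      show localGaloisToGlobal (q.1 : ℕ) d • padicPlace (q.1 : ℕ) = _ from hd]
  have hrange : Φ.range ≤ B := by
    rintro _ ⟨a, rfl⟩
    refine hB _ (fun q hq => ?_) fun q hqT hqQ => ?_
    · refine Coh.H1.mk_eq_zero.2 ⟨dualEmb q ((h₀ q)⁻¹ • dualHom ρ p (-(X a).2 (q.1 : ℕ)) -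
        y a (h₀ q)⁻¹), fun d => ?_⟩
      have hτ : y a (h₀ q * locφ S q d * (h₀ q)⁻¹) =
          (h₀ q * locφ S q d * (h₀ q)⁻¹) • dualHom ρ p (-(X a).2 (q.1 : ℕ)) -
            dualHom ρ p (-(X a).2 (q.1 : ℕ)) := by
        have e := (hX a).local_zero (q.1 : ℕ) ((memT q).1 hq) _ (hdec q hq d)
        rw [smul_dualHom ρ p h.cycloDet, eq_sub_iff_add_eq]
        refine (dualHom_add ρ p _ _).symm.trans (congrArg (dualHom ρ p) ?_)
        rw [eq_neg_of_add_eq_zero_left e, ← neg_one_smul k ((X a).2 _), conjAct_smul, neg_one_smul,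
          neg_one_smul]
        abel
      have hc := coboundary_conj_eq (hy a) hτ (h₀ q)⁻¹
      rw [show (h₀ q)⁻¹ * (h₀ q * locφ S q d * (h₀ q)⁻¹) * (h₀ q)⁻¹⁻¹ = locφ S q d by group] at hc
      show dualEmb q (y a (locφ S q d)) = _
      rw [hc, map_sub, isEquivariant_dualEmb (fun _ _ _ => rfl) q d]
    · refine ⟨_, fun d hd => ?_, rfl⟩
      show dualEmb q (dualHom ρ p ((X a).1 (localGaloisToGlobal (q.1 : ℕ) d))) = 0
      rw [(hX a).unramified _ q.1.2 (fun hc => hqT ((memT q).2 hc))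
        (fun hc => hqQ ((memQ q).2 hc)) _ (Places.liesOverPrime_padicPlace _) _ hd]
      exact (congrArg (dualEmb q) hdual0).trans (map_zero _)
  -- the kernel
  have hker : ∀ a : Φ.ker, ∃ A : sl0 k, ∀ g, (X a.1).1 g = conjAct ρ g A.1 - A.1 := fun a => by
    obtain ⟨b, hb⟩ := Coh.H1.mk_eq_zero.1 (a.2 : Φ a.1 = 0)
    obtain ⟨A, rfl⟩ := (dualAdd_bijective ρ p h.odd).2 b
    refine ⟨A, fun g => hinj ((hX a.1).trace_zero g)
      (by rw [Matrix.trace_sub, trace_conjAct, sub_self]) ?_⟩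
    show y a.1 g = _
    rw [show y a.1 g = g • dualHom ρ p A.1 - dualHom ρ p A.1 from hb g,
      smul_dualHom ρ p h.cycloDet, sub_eq_iff_eq_add, ← dualHom_add, sub_add_cancel]
  choose A hA using hker
  let W : Φ.ker → ↥S → Mat2 k := fun a q =>
    conjAct ρ (h₀ q)⁻¹ ((X a.1).2 (q.1 : ℕ) + (A a).1)
  have hWtr : ∀ a q, (W a q).trace = 0 := fun a q => by
    show (conjAct ρ _ _).trace = 0
    rw [trace_conjAct, Matrix.trace_add, (hX a.1).frame_trace_zero, mem_sl0.1 (A a).2, add_zero]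
  have hW : ∀ a, ∀ q ∈ T',
      dualEmb q (dualHom ρ p (W a q)) ∈ Coh.inv (GalLoc (q.1 : ℕ)) (DualLoc p (AdTw ρ) q) :=
    fun a q hq d => by
      rw [← isEquivariant_dualEmb (fun _ _ _ => rfl) q d, smul_dualHom ρ p h.cycloDet]
      refine congrArg (fun M => dualEmb q (dualHom ρ p M)) ?_
      have e := (hX a.1).local_zero (q.1 : ℕ) ((memT q).1 hq) _ (hdec q hq d)
      rw [hA a] at e
      show conjAct ρ (localGaloisToGlobal (q.1 : ℕ) d) (conjAct ρ (h₀ q)⁻¹ _) =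
        conjAct ρ (h₀ q)⁻¹ _
      rw [← conjAct_mul, show localGaloisToGlobal (q.1 : ℕ) d * (h₀ q)⁻¹ =
        (h₀ q)⁻¹ * (h₀ q * localGaloisToGlobal (q.1 : ℕ) d * (h₀ q)⁻¹) by group, conjAct_mul]
      refine congrArg _ (sub_eq_zero.1 (Eq.trans ?_ e))
      rw [conjAct_add]
      abel
  let Θ : Φ.ker → sl0 k × (∀ q : T', Coh.inv (GalLoc (q.1.1 : ℕ)) (DualLoc p (AdTw ρ) q.1)) :=
    fun a => (A a, fun q => ⟨_, hW a q.1 q.2⟩)
  have hΘ : Function.Injective Θ := fun a a' e => by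
    have eA : A a = A a' := congrArg Prod.fst e
    refine Subtype.ext (hXinj (Prod.ext (funext fun g => by rw [hA, hA, eA]) (funext fun v => ?_)))
    by_cases hv : v ∈ T
    · let q : ↥S := ⟨⟨v, hT v hv⟩, hTS ⟨v, hT v hv⟩ hv⟩
      have hq : q ∈ T' := (memT q).2 hv
      have e1 : dualEmb q (dualHom ρ p (W a q)) = dualEmb q (dualHom ρ p (W a' q)) :=
        congrArg Subtype.val (congrFun (congrArg Prod.snd e) ⟨q, hq⟩)
      have e2 : dualHom ρ p (W a q) = dualHom ρ p (W a' q) := Coh.HomMod.ext fun z =>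
        (muEmb_bijective (p := p) (q.1 : ℕ)).1 (DFunLike.congr_fun e1 z)
      have e3 := congrArg (conjAct ρ (h₀ q)) (hinj (hWtr a q) (hWtr a' q) e2)
      simp only [W, ← conjAct_mul, mul_inv_cancel, conjAct_one, eA] at e3
      exact add_right_cancel e3
    · rw [(hX a.1).frame_support v hv, (hX a'.1).frame_support v hv]
  have : Finite (Coh.H1 (galLevelsS S) (Coh.HomMod (AdTw ρ) (Mu p Qbar))) :=
    finite_H1_galLevelsS hY
  have hpk : ∀ c : k, p • c = 0 := fun c => by rw [nsmul_eq_mul, CharP.cast_eq_zero, zero_mul]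
  have e0 := EulerChar.vcard_eq_ker_add_range p Φ
  have e1 : EulerChar.vcard p (Fin m → k) = (m : ℤ) * EulerChar.vcard p k := by
    rw [EulerChar.vcard_pi, Finset.sum_const, Finset.card_univ, Fintype.card_fin, nsmul_eq_mul]
  have hpA : ∀ M : sl0 k, p • M = 0 := fun M => adTw_torsion ρ p M
  have e2 : EulerChar.vcard p Φ.ker ≤ EulerChar.vcard p
      (sl0 k × (∀ q : T', Coh.inv (GalLoc (q.1.1 : ℕ)) (DualLoc p (AdTw ρ) q.1))) :=
    vcard_le_of_natCard_le (fun a => Subtype.ext (funext fun i => hpk _))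
      (fun z => Prod.ext (hpA _) (funext fun q => Subtype.ext (Coh.HomMod.torsion torsion_Mu _)))
      (Nat.card_le_card_of_injective Θ hΘ)
  rw [EulerChar.vcard_prod, EulerChar.vcard_pi,
    show EulerChar.vcard p (sl0 k) = _ from vcard_sl0 (ρ := ρ),
    Finset.sum_coe_sort T' (fun q => locTerm p (AdTw ρ) q)] at e2
  have e3 : EulerChar.vcard p Φ.range ≤ EulerChar.vcard p B :=
    vcard_le_of_natCard_le
      (fun b => Subtype.ext (Coh.H1.torsion (Coh.HomMod.torsion torsion_Mu) _))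
      (fun b => Subtype.ext (Coh.H1.torsion (Coh.HomMod.torsion torsion_Mu) _))
      (Nat.card_le_card_of_injective _ (AddSubgroup.inclusion_injective hrange))
  linarith

/-- **Taylor–Wiles primes bound the framed tangent space.** -/
theorem exists_tw_primes_of_image (T : Finset ℕ) (hT : ∀ q ∈ T, q.Prime) (hpT : p ∈ T)
    (hunr : ∀ q : ℕ, q.Prime → q ∉ T → ∀ A : ValuationSubring Qbar, A.LiesOverPrime q →
      ∀ σ ∈ A.inertiaSubgroupIn ℚ, ρ σ = 1)
    (P : ℕ → ValuationSubring Qbar) (hP : ∀ v ∈ T, (P v).LiesOverPrime v) :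
    ∃ r : ℕ, ∀ n : ℕ, ∃ Q : Finset ℕ, Q.card = r ∧ Disjoint Q T ∧
      (∀ q ∈ Q, q.Prime ∧ p ^ (n + 1) ∣ q - 1 ∧
        ∀ A : ValuationSubring Qbar, A.LiesOverPrime q → ∀ σ : GalQ, A.IsFrobeniusAt σ q →
          (ρ σ).val.trace ^ 2 ≠ 4 * (ρ σ).val.det) ∧
      ∀ (m : ℕ) (x : Fin m → (GalQ → Mat2 k) × (ℕ → Mat2 k)),
        (∀ i, IsFramedCocycle ρ T Q P (x i)) → LinearIndependent k x → m ≤ r + 2 := by
  classical
  have hp : p.Prime := Fact.out
  obtain ⟨T₀, hT₀⟩ := exists_primesFinset T hT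
  have hsm₀ := h.isSmooth hunr (S := T₀) fun q hq => (hT₀ q).2 hq
  have := finite_H1_galLevelsS hsm₀
  let nz := {a : Coh.H1 (galLevelsS T₀) (AdTw ρ) // a ≠ 0}
  have : Fintype nz := Fintype.ofFinite _
  refine ⟨Fintype.card nz, fun n => ?_⟩
  have hrep : ∀ a : nz, ∃ z : Coh.Z1 (galLevelsS T₀) (AdTw ρ), Coh.H1.mk z = a.1 := fun a =>
    Coh.H1.mk_surjective a.1
  choose z hz using hrep
  have hzc : ∀ a : nz, ∀ g g', (z a : GalQ → AdTw ρ) (g * g') =
      g • (z a : GalQ → AdTw ρ) g' + (z a : GalQ → AdTw ρ) g := fun a => (Coh.mem_Z1.mp (z a).2).2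
  have hne : ∀ a : nz, ∀ b, ∃ g, (z a : GalQ → AdTw ρ) g ≠ g • b - b := fun a b => by
    by_contra hcon
    push Not at hcon
    exact a.2 ((hz a).symm.trans (Coh.H1.mk_eq_zero.2 ⟨b, hcon⟩))
  obtain ⟨Q, hQc, hQT, hQp, hQd⟩ := h.exists_primes (Finset.univ : Finset nz)
    (fun a => (z a : GalQ → AdTw ρ)) hzc
    (fun a => by
      obtain ⟨U, hU, hzU⟩ := (z a).2.1
      exact ⟨U, galLevels_ok_of_galLevelsS hU, hzU⟩) hne n T
  refine ⟨Q, hQc, hQT, fun q hq => ⟨(hQp q hq).1, (hQp q hq).2.1,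
    fun A hA σ hσ => ((hQp q hq).2.2 A hA σ hσ).2⟩, fun m x hx hli => ?_⟩
  -- a big set of primes
  obtain ⟨Q₀, hQ₀⟩ := exists_primesFinset Q fun q hq => (hQp q hq).1
  set K : Subgroup GalQ := ρ.ker ⊓ cycKer p
  have : K.Normal := inferInstance
  have hμK : ∀ s ∈ K, ∀ ζ : Mu p Qbar, s • ζ = ζ := fun s hs ζ => by
    refine muVal_injective (Additive.toMul.injective (Units.ext ?_))
    show s (((muVal ζ).toMul : Qbarˣ) : Qbar) = _
    exact hs.2 _ (by
      rw [← Units.val_pow_eq_pow_val, ← toMul_nsmul, nsmul_muVal, toMul_zero, Units.val_one])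
  obtain ⟨S₀, hS₀⟩ := EulerChar.exists_isBigFor
    ((galLevels ℚ Qbar).inf_ok h.ok_ker (ok_cycKer hp.ne_zero)) hμK
  set S := S₀ ∪ (T₀ ∪ Q₀)
  have hbig : EulerChar.IsBigFor p S K := hS₀ S Finset.subset_union_left
  have : Nonempty ↥S := ⟨⟨_, hbig.mem⟩⟩
  obtain ⟨I⟩ := nonempty_globalInputs h.odd S hbig.mem
  have hTS : ∀ q : Nat.Primes, (q : ℕ) ∈ T → q ∈ S := fun q hq =>
    Finset.mem_union_right _ (Finset.mem_union_left _ ((hT₀ q).2 hq))
  have hQS : ∀ q : Nat.Primes, (q : ℕ) ∈ Q → q ∈ S := fun q hq =>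
    Finset.mem_union_right _ (Finset.mem_union_right _ ((hQ₀ q).2 hq))
  have hX : Coh.IsSmooth (galLevelsS S) (AdTw ρ) := h.isSmooth hunr hTS
  have hloc : IsLocalAction (S := S) (AdTw ρ) := fun q d y => rfl
  let T' : Finset ↥S := Finset.univ.filter fun q => (q.1 : ℕ) ∈ T
  let Q' : Finset ↥S := Finset.univ.filter fun q => (q.1 : ℕ) ∈ Q
  have memT : ∀ q : ↥S, q ∈ T' ↔ (q.1 : ℕ) ∈ T := fun q => by simp [T']
  have memQ : ∀ q : ↥S, q ∈ Q' ↔ (q.1 : ℕ) ∈ Q := fun q => by simp [Q']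
  have hTQ : Disjoint T' Q' := Finset.disjoint_left.2 fun q hq hq' =>
    Finset.disjoint_left.1 hQT ((memQ q).1 hq') ((memT q).1 hq)
  choose φ hφ using fun q : ↥S => exists_local_frobenius (q.1 : ℕ)
  let Y := Coh.HomMod (AdTw ρ) (Mu p Qbar)
  let B : AddSubgroup (Coh.H1 (galLevelsS S) Y) :=
    { carrier := {y | (∀ q ∈ T', locY hloc q y = 0) ∧
        ∀ q, q ∉ T' → q ∉ Q' → locY hloc q y ∈ unrCl (q.1 : ℕ) (DualLoc p (AdTw ρ) q)}
      zero_mem' := ⟨fun q _ => map_zero _, fun q _ _ => by rw [map_zero]; exact zero_mem _⟩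
      add_mem' := fun {a b} ha hb =>
        ⟨fun q hq => by rw [map_add, ha.1 q hq, hb.1 q hq, add_zero],
          fun q h1 h2 => by rw [map_add]; exact add_mem (ha.2 q h1 h2) (hb.2 q h1 h2)⟩
      neg_mem' := fun {a} ha => ⟨fun q hq => by rw [map_neg, ha.1 q hq, neg_zero],
        fun q h1 h2 => by rw [map_neg]; exact neg_mem (ha.2 q h1 h2)⟩ }
  have hkerA : ∀ a : Coh.H1 (galLevelsS S) (AdTw ρ), (∀ q ∈ Q', locX hloc q a = 0) →
      (∀ q, q ∉ T' → q ∉ Q' → locX hloc q a ∈ unrCl (q.1 : ℕ) (AdTw ρ)) → a = 0 := by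
    intro a haQ haE
    obtain ⟨w, rfl⟩ := Coh.H1.mk_surjective a
    have hwc := (Coh.mem_Z1.mp w.2).2
    have hwconst : Coh.IsConst₁ (galLevels ℚ Qbar) (w : GalQ → AdTw ρ) := by
      obtain ⟨U, hU, hwU⟩ := w.2.1
      exact ⟨U, galLevels_ok_of_galLevelsS hU, hwU⟩
    have hw₀ : Coh.IsConst₁ (galLevelsS T₀) (w : GalQ → AdTw ρ) := by
      refine isConst₁_galLevelsS hwc hwconst hsm₀ fun q hq A hA σ hσ => ?_
      have hqT : (q : ℕ) ∉ T := fun hc => hq ((hT₀ q).2 hc)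
      by_cases hqS : q ∈ S
      · have : Fact (q : ℕ).Prime := ⟨q.2⟩
        refine value_inertia_zero_of_unramified hunr hqT hwc (fun d hd => ?_) hA hσ
        have hu : locX hloc ⟨q, hqS⟩ (Coh.H1.mk w) ∈ unrCl (q : ℕ) (AdTw ρ) := by
          by_cases hQ : (q : ℕ) ∈ Q
          · rw [haQ ⟨q, hqS⟩ ((memQ _).2 hQ)]
            exact zero_mem _
          · exact haE ⟨q, hqS⟩ (fun hc => hqT ((memT _).1 hc)) fun hc => hQ ((memQ _).1 hc)
        exact (mk_mem_unrCl_iff (h.isUnramModule hunr (q : ℕ) hqT) _).1 hu d hd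
      · obtain ⟨U, ⟨E, hE, hEU⟩, hwU⟩ := w.2.1
        have h1 := hwU 1 σ (hEU (hE.2 q hqS A hA hσ))
        rwa [one_mul, cocycle_one hwc] at h1
    let w₀ : Coh.Z1 (galLevelsS T₀) (AdTw ρ) := ⟨w, hw₀, w.2.2⟩
    by_contra hne'
    have hnz : Coh.H1.mk w₀ ≠ 0 := fun e => by
      obtain ⟨b, hb⟩ := Coh.H1.mk_eq_zero.1 e
      exact hne' (Coh.H1.mk_eq_zero.2 ⟨b, hb⟩)
    obtain ⟨ℓ, hℓ, hdet⟩ := hQd ⟨_, hnz⟩ (Finset.mem_univ _)
    obtain ⟨b, hb⟩ := Coh.H1.mk_eq_mk.1 (hz ⟨_, hnz⟩)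
    let q : Nat.Primes := ⟨ℓ, (hQp ℓ hℓ).1⟩
    have h0 := haQ ⟨q, hQS q hℓ⟩ ((memQ _).2 hℓ)
    obtain ⟨c, hc⟩ := Coh.H1.mk_eq_zero.1 ((Coh.H1.map_mk _ _ w).symm.trans h0)
    have : Fact ℓ.Prime := ⟨(hQp ℓ hℓ).1⟩
    refine hdet _ (Places.liesOverPrime_padicPlace ℓ) _ (hφ ⟨q, hQS q hℓ⟩) (c + b) ?_
    have hcv : (w : GalQ → AdTw ρ) (locφ S ⟨q, hQS q hℓ⟩ (φ ⟨q, hQS q hℓ⟩)) =
        locφ S ⟨q, hQS q hℓ⟩ (φ ⟨q, hQS q hℓ⟩) • c - c := hc _
    rw [hb]
    show (w : GalQ → AdTw ρ) _ + _ = _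
    rw [hcv, smul_add]
    abel
  have hcount := count_le h.odd I hbig hloc hX (fun s hs y => smul_eq_self_of_map_eq_one hs.1 y)
    (adTw_torsion ρ p) T' Q' hTQ
    (fun q hq => ⟨fun e => hq ((memT q).2 (e.symm ▸ hpT)),
      h.isUnramModule hunr _ fun hc => hq ((memT q).2 hc)⟩)
    φ (fun q _ => hφ q) (fun _ => ⊥) (fun q _ => inferInstance) B
    (fun y hy q hq => AddSubgroup.mem_bot.2 (hy.1 q hq)) (fun y hy q h1 h2 => hy.2 q h1 h2)
    fun a _ h2 h3 => hkerA a h2 h3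
  -- the bound on the right hand side
  set f := EulerChar.vcard p k with hf
  have hbot : ∑ q ∈ T', EulerChar.vcard p
      ((⊥ : AddSubgroup (LocH1 q (DualLoc p (AdTw ρ) q))) : Type) = 0 :=
    Finset.sum_eq_zero fun q _ => EulerChar.vcard_subsingleton p _
  have hfix : ∑ q ∈ Q', EulerChar.vcard p (EulerChar.fixAt (φ q) (AdTw ρ)) ≤
      (Fintype.card nz : ℤ) * f := by
    calc _ ≤ ∑ _q ∈ Q', f := Finset.sum_le_sum fun q hq => by
          obtain ⟨hc, ht⟩ := (hQp _ ((memQ q).1 hq)).2.2 _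
            (Places.liesOverPrime_padicPlace (q.1 : ℕ)) _ (hφ q)
          refine h.vcard_fixAt_le (q.1 : ℕ) hc ?_
          rwa [h.det_eq_one hc, mul_one] at ht
      _ = (Q'.card : ℤ) * f := by rw [Finset.sum_const, nsmul_eq_mul]
      _ ≤ _ := by
          refine mul_le_mul_of_nonneg_right ?_ (Int.natCast_nonneg _)
          rw [← Finset.card_univ, ← hQc]
          exact_mod_cast Finset.card_le_card_of_injOn (fun q : ↥S => (q.1 : ℕ))
            (fun q hq => (memQ q).1 hq) fun q _ q' _ e => Subtype.ext (Subtype.ext e)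
  rw [hbot, h.vcard_inv_dual] at hcount
  have hdm := h.le_dminus
  -- the kernel
  have hframe := framed_bound h T Q hT P hP (Coh.HomMod.isSmooth hX I.smooth) hTS
    hQS T' memT Q' memQ B
    (fun y hy hy' => ⟨hy, hy'⟩) x hx hli
  have hfpos : 0 < f := by
    have hdvd : p ∣ Nat.card k := by
      have e : addOrderOf (1 : k) = p := CharP.eq k (CharP.addOrderOf_one k) ‹CharP k p›
      rw [← e]
      exact addOrderOf_dvd_natCard _
    rw [hf, EulerChar.vcard]
    exact_mod_cast one_le_padicValNat_of_dvd Nat.card_pos.ne' hdvd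
  have hle : (m : ℤ) * f ≤ ((Fintype.card nz : ℤ) + 2) * f := by linarith
  exact_mod_cast le_of_mul_le_mul_right hle hfpos

end Fermat.Agent.SelmerTW

end
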