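import Fermat.Agent.Duality.Coh.Reduction
import Fermat.Agent.Duality.Coh.Projection

/-!
# Non-degeneracy of the cup product in degree one
-/

set_option autoImplicit false

noncomputable section

namespace Fermat.Agent.SelmerTW

open Duality.Coh

variable {G : Type} [Group G] {𝓛 : Levels G} {C : Type} [AddCommGroup C] [DistribMulAction G C]
  {T : Type} [AddCommGroup T] {p : ℕ} [Fact p.Prime] {ι : H2 𝓛 C →+ T} {Λ : Type} [AddCommGroup Λ]
  [DistribMulAction G Λ] {M : Type} [AddCommGroup M] [DistribMulAction G M] [Finite M]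

omit [Finite M] in
/-- Some functional is non-zero on a given non-zero element. -/
theorem exists_hom_ne_zero {V : Type} [AddCommGroup V] (hV : ∀ v : V, p • v = 0) {v : V}
    (hv : v ≠ 0) : ∃ f : V →+ ZMod p, f v ≠ 0 := by
  let : Module (ZMod p) V := AddCommGroup.zmodModule hV
  obtain ⟨χ, hχ⟩ := exists_hom_factor (p := p) hV (ZModModule.char_nsmul_eq_zero p)
    ((LinearMap.toSpanSingleton (ZMod p) _ v).toAddMonoidHom)
    (AddMonoidHom.id (ZMod p)) fun k hk => by
      have hk' : k • v = 0 := hk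
      rcases smul_eq_zero.mp hk' with h | h
      · exact h
      · exact absurd h hv
  refine ⟨χ, fun h => one_ne_zero (α := ZMod p) ?_⟩
  have h1 := hχ 1
  rw [show (LinearMap.toSpanSingleton (ZMod p) _ v).toAddMonoidHom 1 = v from one_smul _ v, h] at h1
  exact h1.symm

/-- **A class of `Hom(M, C)` pairing trivially with all classes of `M` is zero.** -/
theorem theta₁_separates (hC : IsSmooth 𝓛 C) (hpC : ∀ c : C, p • c = 0)
    (hpT : ∀ t : T, p • t = 0) (u : ZMod p →+ T) (hu : u 1 ≠ 0)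
    (base : IsDualityBase (p := p) ι Λ) (hM : IsSmooth 𝓛 M)
    (hpM : ∀ m : M, p • m = 0) {x : H1 𝓛 (HomMod M C)} (hx : x ≠ 0) :
    ∃ a : H1 𝓛 M, ι (cup₁₁ (P := HomMod.eval) isPairing_eval hM x a) ≠ 0 := by
  have : Finite Λ := Nat.finite_of_card_ne_zero (base.card_eq ▸ (Fact.out : p.Prime).ne_zero)
  obtain ⟨K, hK, hKn, hKM, hKΛ⟩ := exists_normal_fixing hM base.smooth
  have := hKn
  have := 𝓛.finiteIndex hK
  have : Finite (G ⧸ K) := inferInstance
  let P : Sylow p (G ⧸ K) := default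
  let H : Subgroup G := (P : Subgroup (G ⧸ K)).comap (QuotientGroup.mk' K)
  have hKH : K ≤ H := fun s hs => by
    show (s : G ⧸ K) ∈ (P : Subgroup (G ⧸ K))
    rw [(QuotientGroup.eq_one_iff s).mpr hs]
    exact one_mem _
  have hH : 𝓛.ok H := 𝓛.mono hK hKH
  let := 𝓛.fintypeQuot hH
  have hidx : ¬ p ∣ Fintype.card (G ⧸ H) := by
    rw [← Nat.card_eq_fintype_card, ← Subgroup.index_eq_card,
      Subgroup.index_comap_of_surjective _ (QuotientGroup.mk'_surjective K)]
    exact P.not_dvd_index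
  have : (K.subgroupOf H).Normal := Subgroup.normal_subgroupOf
  have hN : IsPGroup p (H ⧸ K.subgroupOf H) := fun x => by
    obtain ⟨h, rfl⟩ := QuotientGroup.mk_surjective x
    obtain ⟨k, hk⟩ := P.isPGroup' ⟨((h : G) : G ⧸ K), h.2⟩
    refine ⟨k, ?_⟩
    rw [← QuotientGroup.mk_pow, QuotientGroup.eq_one_iff, Subgroup.mem_subgroupOf,
      ← QuotientGroup.eq_one_iff, Subgroup.coe_pow, QuotientGroup.mk_pow]
    exact congrArg Subtype.val hk
  have hfixΛ : ∀ (h : H) (l : Λ), h • l = l := by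
    intro h l
    rcases subsingleton_or_nontrivial Λ with hs | hs
    · exact Subsingleton.elim _ _
    have hpΛ : ∀ l : Λ, p • l = 0 := fun l => by rw [← base.card_eq]; exact card_nsmul_eq_zero'
    obtain ⟨l₀, hl₀, hfix⟩ := exists_fixed_ne_zero (K.subgroupOf H) hN
      (fun s hs m => hKΛ (s : G) hs m) hpΛ
    obtain ⟨k, rfl⟩ := mem_zmultiples_of_prime_card base.card_eq hl₀ (g' := l)
    show h • (k • l₀) = k • l₀
    rw [show h • (k • l₀) = k • (h • l₀) from map_zsmul (DistribSMul.toAddMonoidHom Λ (h : G)) k l₀,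
      hfix h]
  obtain ⟨-, hsurj⟩ := theta_devissage (iotaSub ι H hH) (hC.restrictSubgroup H) hpC hpT base.card_eq
    (base.smooth.restrictSubgroup H) hfixΛ (base.injective H hH hfixΛ)
    (base.surjective H hH _ hfixΛ) (K.subgroupOf H) hN (Nat.card M) (M := M) rfl
    (hM.restrictSubgroup H) hpM fun s hs m => hKM (s : G) hs m
  have hres : res₁ H x ≠ 0 := fun h => hx (by
    have h1 := cor₁_res₁ H hH x
    rw [h, map_zero] at h1
    have hco : (Fintype.card (G ⧸ H)).Coprime p :=
      ((Fact.out : p.Prime).coprime_iff_not_dvd.mpr hidx).symm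
    have hord := Nat.dvd_gcd (addOrderOf_dvd_of_nsmul_eq_zero h1.symm)
      (addOrderOf_dvd_of_nsmul_eq_zero (H1.torsion (HomMod.torsion hpC) x))
    rwa [hco.gcd_eq_one, Nat.dvd_one, AddMonoid.addOrderOf_eq_one_iff] at hord)
  obtain ⟨f, hf⟩ := exists_hom_ne_zero (p := p) (V := H1 (𝓛.restrict H) (HomMod M C))
    (fun v => H1.torsion (HomMod.torsion hpC) v) hres
  obtain ⟨a, ha⟩ := hsurj (u.comp f)
  refine ⟨cor₁ H hH a, fun h0 => ?_⟩
  have h1 := DFunLike.congr_fun ha (res₁ H x)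
  have h2 : u (f (res₁ H x)) = 0 := h1.symm.trans
    ((congrArg ι (cor₂_cup₁₁_res (P := HomMod.eval (A := M) (C := C)) isPairing_eval H hH hM
      (hM.restrictSubgroup H) x a)).trans h0)
  refine hu ?_
  rw [show u 1 = u (((f (res₁ H x))⁻¹).val • f (res₁ H x)) by
    rw [nsmul_eq_mul, ZMod.natCast_zmod_val, inv_mul_cancel₀ hf], map_nsmul, h2, smul_zero]

end Fermat.Agent.SelmerTW

end
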