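import Fermat.Agent.EulerChar.Formula
import Fermat.Agent.SelmerTW.Separation

/-!
# The twisted adjoint module and its dual

`AdTw ρ` is the module of trace zero matrices with the action `ad ρ ⊗ det ρ`; the trace form
identifies `Hom(AdTw ρ, μ_p)` with `ad⁰ ρ`.
-/

set_option autoImplicit false

noncomputable section

open Matrix

namespace Fermat.Agent.SelmerTW

open Duality

variable (k : Type) [Field k]

/-- Two by two matrices. -/
abbrev Mat2 : Type := Matrix (Fin 2) (Fin 2) k

/-- Trace zero matrices. -/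
def sl0 : AddSubgroup (Mat2 k) := (traceAddMonoidHom (Fin 2) k).ker

variable {k}

theorem mem_sl0 {M : Mat2 k} : M ∈ sl0 k ↔ M.trace = 0 := Iff.rfl

/-- Conjugation by a representation. -/
def conjAct (ρ : GalQ →* GL (Fin 2) k) (σ : GalQ) (M : Mat2 k) : Mat2 k :=
  (ρ σ).val * M * (ρ σ⁻¹).val

variable (ρ : GalQ →* GL (Fin 2) k)

theorem val_mul_val_inv (σ : GalQ) : (ρ σ).val * (ρ σ⁻¹).val = 1 := by
  rw [← Units.val_mul, ← map_mul, mul_inv_cancel, map_one, Units.val_one]

theorem val_inv_mul_val (σ : GalQ) : (ρ σ⁻¹).val * (ρ σ).val = 1 := by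
  rw [← Units.val_mul, ← map_mul, inv_mul_cancel, map_one, Units.val_one]

theorem conjAct_one (M : Mat2 k) : conjAct ρ 1 M = M := by
  simp [conjAct]

theorem conjAct_mul (σ τ : GalQ) (M : Mat2 k) :
    conjAct ρ (σ * τ) M = conjAct ρ σ (conjAct ρ τ M) := by
  simp only [conjAct, map_mul, _root_.mul_inv_rev, Units.val_mul, Matrix.mul_assoc]

theorem conjAct_add (σ : GalQ) (M N : Mat2 k) :
    conjAct ρ σ (M + N) = conjAct ρ σ M + conjAct ρ σ N := by
  simp only [conjAct, Matrix.mul_add, Matrix.add_mul]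

theorem conjAct_sub (σ : GalQ) (M N : Mat2 k) :
    conjAct ρ σ (M - N) = conjAct ρ σ M - conjAct ρ σ N := by
  simp only [conjAct, Matrix.mul_sub, Matrix.sub_mul]

theorem conjAct_zero (σ : GalQ) : conjAct ρ σ 0 = 0 := by simp [conjAct]

theorem conjAct_smul (σ : GalQ) (c : k) (M : Mat2 k) :
    conjAct ρ σ (c • M) = c • conjAct ρ σ M := by
  simp only [conjAct, Matrix.mul_smul, Matrix.smul_mul]

theorem trace_conjAct (σ : GalQ) (M : Mat2 k) : (conjAct ρ σ M).trace = M.trace := by
  rw [conjAct, trace_mul_comm, ← Matrix.mul_assoc, val_inv_mul_val, Matrix.one_mul]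

theorem trace_conjAct_mul (σ : GalQ) (M N : Mat2 k) :
    (conjAct ρ σ M * conjAct ρ σ N).trace = (M * N).trace := by
  rw [show conjAct ρ σ M * conjAct ρ σ N = conjAct ρ σ (M * N) by
    simp only [conjAct, Matrix.mul_assoc]
    rw [← Matrix.mul_assoc (ρ σ⁻¹).val (ρ σ).val, val_inv_mul_val, Matrix.one_mul]]
  exact trace_conjAct ρ σ _

theorem conjAct_eq_self_iff (σ : GalQ) (M : Mat2 k) :
    conjAct ρ σ M = M ↔ (ρ σ).val * M = M * (ρ σ).val := by
  refine ⟨fun h => ?_, fun h => ?_⟩
  · conv_rhs => rw [← h, conjAct, Matrix.mul_assoc, val_inv_mul_val, Matrix.mul_one]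
  · rw [conjAct, h, Matrix.mul_assoc, val_mul_val_inv, Matrix.mul_one]

/-- The twisted adjoint module. -/
def AdTw (_ρ : GalQ →* GL (Fin 2) k) : Type := sl0 k

instance adTwAddCommGroup : AddCommGroup (AdTw ρ) := inferInstanceAs (AddCommGroup (sl0 k))

instance adTwFinite [Finite k] : Finite (AdTw ρ) := inferInstanceAs (Finite (sl0 k))

variable {ρ}

/-- The underlying matrix. -/
def AdTw.mat (x : AdTw ρ) : Mat2 k := (x : sl0 k).1

/-- A trace zero matrix as an element. -/
def AdTw.mk (M : Mat2 k) (h : M.trace = 0) : AdTw ρ := (⟨M, h⟩ : sl0 k)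

@[simp] theorem AdTw.mat_mk (M : Mat2 k) (h : M.trace = 0) :
    (AdTw.mk M h : AdTw ρ).mat = M := rfl

theorem AdTw.trace_mat (x : AdTw ρ) : x.mat.trace = 0 := (x : sl0 k).2

theorem AdTw.ext' {x y : AdTw ρ} (h : x.mat = y.mat) : x = y := Subtype.ext h

@[simp] theorem AdTw.mat_zero : (0 : AdTw ρ).mat = 0 := rfl

@[simp] theorem AdTw.mat_add (x y : AdTw ρ) : (x + y).mat = x.mat + y.mat := rfl

@[simp] theorem AdTw.mat_sub (x y : AdTw ρ) : (x - y).mat = x.mat - y.mat := rfl

@[simp] theorem AdTw.mat_neg (x : AdTw ρ) : (-x).mat = -x.mat := rfl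

/-- The underlying matrix, as a homomorphism. -/
def AdTw.matHom : AdTw ρ →+ Mat2 k := AddMonoidHom.mk' AdTw.mat AdTw.mat_add

theorem AdTw.matHom_apply (x : AdTw ρ) : AdTw.matHom x = x.mat := rfl

variable (ρ)

instance adTwAction : DistribMulAction GalQ (AdTw ρ) where
  smul σ x := AdTw.mk ((ρ σ).val.det • conjAct ρ σ x.mat)
    (by rw [trace_smul, trace_conjAct, x.trace_mat, smul_zero])
  one_smul x := AdTw.ext' (by
    show (ρ 1).val.det • conjAct ρ 1 x.mat = x.mat
    rw [conjAct_one, map_one, Units.val_one, det_one, one_smul])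
  mul_smul σ τ x := AdTw.ext' (by
    show (ρ (σ * τ)).val.det • conjAct ρ (σ * τ) x.mat =
      (ρ σ).val.det • conjAct ρ σ ((ρ τ).val.det • conjAct ρ τ x.mat)
    rw [conjAct_smul, smul_smul, conjAct_mul, map_mul, Units.val_mul, det_mul])
  smul_zero σ := AdTw.ext' (by
    show (ρ σ).val.det • conjAct ρ σ 0 = 0
    rw [conjAct_zero, smul_zero])
  smul_add σ x y := AdTw.ext' (by
    show (ρ σ).val.det • conjAct ρ σ (x.mat + y.mat) = _
    rw [conjAct_add, smul_add]
    rfl)

instance adTwLocalAction (q : ℕ) [Fact q.Prime] : DistribMulAction (GalLoc q) (AdTw ρ) :=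
  DistribMulAction.compHom _ (localGaloisToGlobal q)

theorem mat_smul (σ : GalQ) (x : AdTw ρ) :
    (σ • x).mat = (ρ σ).val.det • conjAct ρ σ x.mat := rfl

variable (p : ℕ) [Fact p.Prime] [CharP k p]

omit [Fact (Nat.Prime p)] in
theorem adTw_torsion (x : AdTw ρ) : p • x = 0 :=
  AdTw.ext' (by
    rw [← AdTw.matHom_apply, map_nsmul, ← Nat.cast_smul_eq_nsmul k, CharP.cast_eq_zero, zero_smul,
      AdTw.mat_zero])

theorem exists_theta : ∃ θ : k →+ ZMod p, θ 1 ≠ 0 :=
  exists_hom_ne_zero (fun x : k => by rw [nsmul_eq_mul, CharP.cast_eq_zero, zero_mul]) one_ne_zero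

/-- A fixed functional on `k`. -/
def thetaK : k →+ ZMod p := (exists_theta (k := k) p).choose

/-- The roots of unity attached to scalars. -/
def muK : k →+ Mu p Qbar := EulerChar.muZMod.symm.toAddMonoidHom.comp (thetaK p)

theorem exists_muK_ne_zero {x : k} (hx : x ≠ 0) : ∃ y, muK p (x * y) ≠ 0 := by
  refine ⟨x⁻¹, fun h => (exists_theta (k := k) p).choose_spec ?_⟩
  rw [mul_inv_cancel₀ hx] at h
  exact (map_eq_zero_iff _ EulerChar.muZMod.symm.injective).1 h

/-- The hypothesis that the determinant is the mod `p` cyclotomic character. -/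
def IsCycloDet : Prop := ∀ σ : GalQ, (ρ σ).val.det = (ExtCitation.cycloExp p σ : k)

/-- A trace zero matrix gives a homomorphism to the roots of unity. -/
def dualHom (A : Mat2 k) : Coh.HomMod (AdTw ρ) (Mu p Qbar) :=
  Coh.HomMod.of (AddMonoidHom.mk' (fun x => muK p (A * x.mat).trace) fun x y => by
    rw [AdTw.mat_add, Matrix.mul_add, trace_add, map_add])

theorem dualHom_apply (A : Mat2 k) (x : AdTw ρ) : dualHom ρ p A x = muK p (A * x.mat).trace := rfl

theorem dualHom_add (A B : Mat2 k) : dualHom ρ p (A + B) = dualHom ρ p A + dualHom ρ p B :=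
  Coh.HomMod.ext fun x => by
    rw [Coh.HomMod.add_apply, dualHom_apply, dualHom_apply, dualHom_apply, Matrix.add_mul,
      trace_add, map_add]

theorem muK_natCast_mul (a : ℕ) (z : k) : muK p ((a : k) * z) = a • muK p z := by
  rw [← nsmul_eq_mul, map_nsmul]

/-- Equivariance of the identification. -/
theorem smul_dualHom (hdet : IsCycloDet ρ p) (σ : GalQ) (A : Mat2 k) :
    σ • dualHom ρ p A = dualHom ρ p (conjAct ρ σ A) := Coh.HomMod.ext fun x => by
  rw [Coh.HomMod.smul_apply, dualHom_apply, dualHom_apply, mat_smul, smul_Mu_eq_cycloExp,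
    ← muK_natCast_mul, Matrix.mul_smul, trace_smul, smul_eq_mul, ← mul_assoc, ← hdet σ,
    ← det_mul, val_mul_val_inv, det_one, one_mul]
  congr 1
  rw [conjAct, conjAct, inv_inv, Matrix.mul_assoc (ρ σ).val, Matrix.mul_assoc (ρ σ).val,
    trace_mul_comm (ρ σ).val]
  simp only [Matrix.mul_assoc]

/-- The identification as a homomorphism. -/
def dualAdd : sl0 k →+ Coh.HomMod (AdTw ρ) (Mu p Qbar) :=
  AddMonoidHom.mk' (fun A => dualHom ρ p A.1) fun A B => dualHom_add ρ p A.1 B.1

theorem eq_zero_of_trace_mul {A : Mat2 k} (hA : A.trace = 0) (h2 : (2 : k) ≠ 0)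
    (h : ∀ B : Mat2 k, B.trace = 0 → (A * B).trace = 0) : A = 0 := by
  have h12 := h !![0, 0; 1, 0] (by simp [trace_fin_two])
  have h21 := h !![0, 1; 0, 0] (by simp [trace_fin_two])
  have h11 := h !![1, 0; 0, -1] (by simp [trace_fin_two])
  simp [trace_fin_two, Matrix.mul_apply, Fin.sum_univ_two] at h12 h21 h11 hA
  have ha : A 0 0 = 0 := by
    have : (2 : k) * A 0 0 = 0 := by linear_combination h11 + hA
    exact (mul_eq_zero.1 this).resolve_left h2
  have hd : A 1 1 = 0 := by linear_combination hA - ha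
  ext i j
  fin_cases i <;> fin_cases j <;> assumption

theorem two_ne_zero_of_odd (hp2 : p ≠ 2) : (2 : k) ≠ 0 := fun h => hp2
  ((Nat.prime_dvd_prime_iff_eq (Fact.out : p.Prime) Nat.prime_two).1
    ((CharP.cast_eq_zero_iff k p 2).1 (by exact_mod_cast h)))

/-- The trace form is perfect. -/
theorem dualAdd_bijective [Finite k] (hp2 : p ≠ 2) : Function.Bijective (dualAdd ρ p) := by
  have : NeZero p := ⟨(Fact.out : p.Prime).ne_zero⟩
  have : Finite (Coh.HomMod (AdTw ρ) (Mu p Qbar)) := Finite.of_injective _ DFunLike.coe_injective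
  have hinj : Function.Injective (dualAdd ρ p) := (injective_iff_map_eq_zero _).2 fun A hA =>
    Subtype.ext (eq_zero_of_trace_mul A.2 (two_ne_zero_of_odd p hp2) fun B hB => by
      by_contra hne
      obtain ⟨y, hy⟩ := exists_muK_ne_zero p hne
      refine hy ?_
      have h := DFunLike.congr_fun hA (AdTw.mk (y • B) (by rw [trace_smul, hB, smul_zero]))
      rw [show dualAdd ρ p A = dualHom ρ p A.1 from rfl, dualHom_apply, AdTw.mat_mk,
        Matrix.mul_smul, trace_smul, smul_eq_mul, mul_comm] at h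
      exact h)
  refine (Nat.bijective_iff_injective_and_card _).2 ⟨hinj, ?_⟩
  let e : Coh.HomMod (AdTw ρ) (Mu p Qbar) ≃ (AdTw ρ →+ ZMod p) :=
    { toFun := fun f => EulerChar.muZMod.toAddMonoidHom.comp f.toHom
      invFun := fun g => Coh.HomMod.of (EulerChar.muZMod.symm.toAddMonoidHom.comp g)
      left_inv := fun f => Coh.HomMod.ext fun x => EulerChar.muZMod.symm_apply_apply _
      right_inv := fun g => AddMonoidHom.ext fun x => EulerChar.muZMod.apply_symm_apply _ }
  rw [Nat.card_congr e, EulerChar.natCard_hom_zmod p _ (adTw_torsion ρ p)]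
  rfl

end Fermat.Agent.SelmerTW

end
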