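import Fermat.Agent.SelmerTW.LocalBound
import Fermat.Agent.SelmerTW.Separation

/-!
# The count of a Selmer group against the Euler characteristic formula

For a big finite set `S` of primes containing `T` and `Q`, and local conditions `L` at `T`, the
classes of `Hom(X, μ_p)` with the conditions `L` at `T`, arbitrary at `Q` and unramified elsewhere
are bounded by global duality, once the orthogonal conditions cut out no class of `X`.
-/

set_option autoImplicit false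

noncomputable section

namespace Fermat.Agent.SelmerTW

open Duality Duality.Coh EulerChar

variable {p : ℕ} [Fact p.Prime] {S : Finset Nat.Primes}
  {X : Type} [AddCommGroup X] [DistribMulAction GalQ X]
  [∀ q : ↥S, DistribMulAction (GalLoc (q.1 : ℕ)) X]

/-- Local roots of unity at a place of `S`. -/
abbrev MuLoc (p : ℕ) [Fact p.Prime] {S : Finset Nat.Primes} (q : ↥S) : Type :=
  Mu p (PadicAlgCl (q.1 : ℕ))

/-- Local classes at a place of `S`. -/
abbrev LocH1 {S : Finset Nat.Primes} (q : ↥S) (M : Type) [AddCommGroup M]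
    [DistribMulAction (GalLoc (q.1 : ℕ)) M] : Type :=
  H1 (galLevels ℚ_[(q.1 : ℕ)] (PadicAlgCl (q.1 : ℕ))) M

variable (p X) in
/-- The dual module at a place. -/
abbrev DualLoc (q : ↥S) : Type := HomMod X (MuLoc p q)

variable (X) in
/-- The compatibility of the local actions. -/
def IsLocalAction : Prop := ∀ (q : ↥S) (d : GalLoc (q.1 : ℕ)) (x : X), locφ S q d • x = d • x

omit [Fact p.Prime] in
theorem IsLocalAction.equiv (hloc : IsLocalAction (S := S) X) (q : ↥S) :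
    IsEquivariant (locφ S q) (AddMonoidHom.id X) := fun d x => hloc q d x

omit [Fact p.Prime] in
theorem IsLocalAction.smooth (hloc : IsLocalAction (S := S) X) (hX : IsSmooth (galLevelsS S) X)
    (q : ↥S) : IsSmooth (galLevels ℚ_[(q.1 : ℕ)] (PadicAlgCl (q.1 : ℕ))) X := fun x => by
  obtain ⟨U, hU, h⟩ := hX x
  exact ⟨U.comap (locφ S q), compat_localGaloisToGlobal_S (q.1 : ℕ) S U hU,
    fun s hs => (hloc q s x).symm.trans (h _ hs)⟩

/-- Localisation of the classes of `X`. -/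
def locX (hloc : IsLocalAction (S := S) X) (q : ↥S) : H1 (galLevelsS S) X →+ LocH1 q X :=
  H1.map (compat_localGaloisToGlobal_S (q.1 : ℕ) S) (hloc.equiv q)

/-- Composition with the embedding of the roots of unity. -/
def dualEmb (q : ↥S) : HomMod X (Mu p Qbar) →+ DualLoc p X q :=
  AddMonoidHom.mk' (fun f => HomMod.of ((muEmb (q.1 : ℕ)).comp f.toHom))
    fun _ _ => HomMod.ext fun _ => map_add (muEmb (q.1 : ℕ)) _ _

theorem isEquivariant_dualEmb (hloc : IsLocalAction (S := S) X) (q : ↥S) :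
    IsEquivariant (locφ S q) (dualEmb (p := p) (X := X) q) := fun d f => HomMod.ext fun x => by
  show muEmb (q.1 : ℕ) (locφ S q d • f ((locφ S q d)⁻¹ • x)) = d • muEmb (q.1 : ℕ) (f (d⁻¹ • x))
  rw [← map_inv, hloc, isEquivariant_muEmb]

/-- Localisation of the classes of the dual. -/
def locY (hloc : IsLocalAction (S := S) X) (q : ↥S) :
    H1 (galLevelsS S) (HomMod X (Mu p Qbar)) →+ LocH1 q (DualLoc p X q) :=
  H1.map (compat_localGaloisToGlobal_S (q.1 : ℕ) S) (isEquivariant_dualEmb hloc q)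

variable [Nonempty ↥S] [Finite X]

/-- The local pairing. -/
def locPair (I : GlobalInputs p S) (hloc : IsLocalAction (S := S) X)
    (hX : IsSmooth (galLevelsS S) X) (q : ↥S) :
    LocH1 q (DualLoc p X q) →+ LocH1 q X →+ ZMod p :=
  (AddMonoidHom.compHom (I.inv q)).comp
    (cup₁₁ (P := HomMod.eval) isPairing_eval (hloc.smooth hX q))

omit [Finite X] in
/-- **Reciprocity for cup products of global classes.** -/
theorem sum_locPair (I : GlobalInputs p S) (hloc : IsLocalAction (S := S) X)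
    (hX : IsSmooth (galLevelsS S) X) (y : H1 (galLevelsS S) (HomMod X (Mu p Qbar)))
    (a : H1 (galLevelsS S) X) :
    ∑ q : ↥S, locPair I hloc hX q (locY hloc q y) (locX hloc q a) = 0 := by
  obtain ⟨y, rfl⟩ := H1.mk_surjective y
  obtain ⟨a, rfl⟩ := H1.mk_surjective a
  let E := placeSeq (galLevelsS S) (locφ S) I.smooth
  let x := cup₁₁ (P := HomMod.eval) isPairing_eval hX (H1.mk y) (H1.mk a)
  have h0 : E.mapπ₂ (E.mapI₂ x) = 0 := by
    obtain ⟨z, hz⟩ := H2.mk_surjective x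
    rw [← hz]
    show H2.mk (Z2.map _ E.π_equiv (Z2.map _ E.i_equiv z)) = 0
    rw [← map_zero H2.mk]
    exact congrArg H2.mk (Subtype.ext (funext fun g => funext fun h => E.π_i _))
  have h1 := I.hι (E.mapI₂ x)
  rw [h0, map_zero, placeSum_apply] at h1
  refine Eq.trans (Finset.sum_congr rfl fun q _ => ?_) h1.symm
  show I.inv q _ = I.inv q _
  refine congrArg (I.inv q) (congrArg H2.mk (Subtype.ext (funext fun g => funext fun h => ?_)))
  show muEmb (q.1 : ℕ) ((y : GalQ → HomMod X (Mu p Qbar)) (locφ S q g)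
      (g • (a : GalQ → X) (locφ S q h))) =
    muEmb (q.1 : ℕ) ((1 : GalQ) • (y : GalQ → HomMod X (Mu p Qbar)) (locφ S q g)
      (locφ S q g • (a : GalQ → X) (locφ S q h)))
  rw [one_smul, hloc]

/-- **Local separation.** -/
theorem eq_zero_of_locPair (I : GlobalInputs p S) (hloc : IsLocalAction (S := S) X)
    (hX : IsSmooth (galLevelsS S) X) (hpX : ∀ x : X, p • x = 0) (q : ↥S)
    {y : LocH1 q (DualLoc p X q)} (h : ∀ a, locPair I hloc hX q y a = 0) : y = 0 := by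
  by_contra hy
  obtain ⟨a, ha⟩ := theta₁_separates (C := MuLoc p q) (ι := I.inv q)
    (Λ := Mu p (PadicAlgCl (q.1 : ℕ))) isSmooth_Mu torsion_Mu
    (ZModModule.char_nsmul_eq_zero p) (AddMonoidHom.id (ZMod p)) one_ne_zero (I.localBase q)
    (hloc.smooth hX q) hpX hy
  exact ha (h a)

/-- Unramified classes are orthogonal. -/
theorem unrCl_le_ker (I : GlobalInputs p S) (hloc : IsLocalAction (S := S) X)
    (hX : IsSmooth (galLevelsS S) X) {q : ↥S} (hqp : (q.1 : ℕ) ≠ p)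
    (hXq : IsUnramModule (q.1 : ℕ) X) {y : LocH1 q (DualLoc p X q)}
    (hy : y ∈ unrCl (q.1 : ℕ) (DualLoc p X q)) :
    unrCl (q.1 : ℕ) X ≤ (locPair I hloc hX q y).ker := by
  have : NeZero p := ⟨(Fact.out : p.Prime).ne_zero⟩
  have : Finite (MuLoc p q) := Finite.of_equiv _ (muEquiv (q.1 : ℕ)).toEquiv
  obtain ⟨c, hc, hcy⟩ := hy
  rintro x ⟨b, hb, hbx⟩
  have e := cup_unr_eq_zero (P := HomMod.eval (A := X) (C := MuLoc p q))
    (isPairing_eval (G := GalLoc (q.1 : ℕ))) hXq (isUnramModule_Mu (p := p) hqp) torsion_Mu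
      c b hc hb
  rw [hcy, hbx] at e
  exact (congrArg (I.inv q) e).trans (map_zero _)

variable (p X) in
/-- The local term of the Euler characteristic formula. -/
abbrev locTerm (q : ↥S) : ℤ := vcard p (Coh.inv (GalLoc (q.1 : ℕ)) (DualLoc p X q))

/-- **Lower bound for the classes of `X`**, improved by the locally trivial classes of the dual. -/
theorem le_vcard_H1 (hp2 : p ≠ 2) (I : GlobalInputs p S) {K : Subgroup GalQ} [K.Normal]
    (hbig : IsBigFor p S K) (hloc : IsLocalAction (S := S) X) (hX : IsSmooth (galLevelsS S) X)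
    (hfix : ∀ s ∈ K, ∀ x : X, s • x = x) (hpX : ∀ x : X, p • x = 0)
    (Z : AddSubgroup (H1 (galLevelsS S) (HomMod X (Mu p Qbar))))
    (hZ : ∀ y ∈ Z, ∀ q, locY hloc q y = 0) :
    ∑ q : ↥S, locTerm p X q + dminus p complexConjugation X + vcard p Z ≤
      vcard p (H1 (galLevelsS S) X) + vcard p (Coh.inv GalQ (HomMod X (Mu p Qbar))) := by
  have : NeZero p := ⟨(Fact.out : p.Prime).ne_zero⟩
  have : Finite (HomMod X (Mu p Qbar)) := Finite.of_injective _ DFunLike.coe_injective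
  have : ∀ q : ↥S, Finite (DualLoc p X q) := fun q =>
    haveI : Finite (MuLoc p q) := Finite.of_equiv _ (muEquiv (q.1 : ℕ)).toEquiv
    Finite.of_injective _ DFunLike.coe_injective
  have hdef := defect_galQ_eq_zero hp2 I hbig X hfix hpX
  have hD := isDualizing_of_inputs I
  have := hD.finite_hom X hX hpX
  let E := (placeSeq (galLevelsS S) (locφ S) I.smooth).postSeq (M := X) hX
    (exists_section_of_surjective (PlaceMod.torsion torsion_Mu)
      (PlaceQuot.torsion _ _ _ torsion_Mu) (placeProj_surjective _ _ _))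
  let iY : Coh.inv GalQ (HomMod X (Mu p Qbar)) →+
      Coh.inv GalQ (HomMod X (PlaceJ p S)) := invMap E.i_equiv
  let πY : Coh.inv GalQ (HomMod X (PlaceJ p S)) →+
      Coh.inv GalQ (HomMod X (PlaceC p S)) := invMap E.π_equiv
  have hJ : Finite (Coh.inv GalQ (HomMod X (PlaceJ p S))) := by
    refine Finite.of_injective (fun F (q : ↥S) (m : X) =>
      PlaceMod.val q 1 ((F : HomMod X (PlaceJ p S)) m)) fun F F' h => ?_
    refine Subtype.ext (HomMod.ext fun m => PlaceMod.ext fun i g => ?_)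
    rw [val_of_mem_inv F.2, val_of_mem_inv F'.2]
    exact congrFun (congrFun h i) (g • m)
  have e1 := vcard_eq_range_add_range p iY πY (fun F => Subtype.ext (E.π_i _)) fun F hF => by
    obtain ⟨f, hf⟩ := E.exact F.1 (congrArg Subtype.val hF)
    exact ⟨⟨f, fun g => E.i_inj (by rw [E.i_smul, hf]; exact F.2 g)⟩, Subtype.ext hf⟩
  have e2 : vcard p iY.range = vcard p (Coh.inv GalQ (HomMod X (Mu p Qbar))) :=
    vcard_range_of_injective p iY fun a b h => Subtype.ext (E.i_inj (congrArg Subtype.val h))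
  have e3 := vcard_eq_range_add_range p πY E.δ₀ (fun F => E.δ₀_π F.2) fun c hc => by
    obtain ⟨F, hF, he⟩ := E.exact_C₀ c hc
    exact ⟨⟨F, hF⟩, Subtype.ext he⟩
  have hZδ : Z ≤ E.δ₀.range := fun y hy => E.exact_A₁ y (eq_zero_of_homEv (D := fun q : ↥S =>
      GalLoc (q.1 : ℕ)) hloc hX (fun q => compat_localGaloisToGlobal_S (q.1 : ℕ) S)
    (fun q => isEquivariant_muEmb (p := p) (q.1 : ℕ)) (fun q => muEmb_bijective (q.1 : ℕ)) _
    fun q => by
      rw [← hZ y hy q]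
      obtain ⟨z, rfl⟩ := H1.mk_surjective y
      exact congrArg H1.mk (Subtype.ext (funext fun d => HomMod.ext fun m =>
        congrArg (muEmb (q.1 : ℕ)) (one_smul GalQ _))))
  have := finite_H1_galLevelsS (A := HomMod X (Mu p Qbar)) (HomMod.isSmooth hX I.smooth)
  have e6 : vcard p Z ≤ vcard p E.δ₀.range :=
    vcard_le_of_natCard_le (fun y => Subtype.ext (H1.torsion (HomMod.torsion torsion_Mu) _))
      (fun y => Subtype.ext (H1.torsion (HomMod.torsion torsion_Mu) _))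
      (Nat.card_le_card_of_injective _ (AddSubgroup.inclusion_injective hZδ))
  have hterm : ∀ q : ↥S, ∀ f : Coh.inv (GalLoc (q.1 : ℕ)) (DualLoc p X q),
      ∀ (d : GalLoc (q.1 : ℕ)) (x : X),
        (muEquiv (q.1 : ℕ)).symm ((f : DualLoc p X q) (locφ S q d • x)) =
          locφ S q d • (muEquiv (q.1 : ℕ)).symm ((f : DualLoc p X q) x) := fun q f d x => by
    refine (muEquiv (q.1 : ℕ)).injective ?_
    rw [AddEquiv.apply_symm_apply, hloc,
      show muEquiv (q.1 : ℕ) (locφ S q d • _) = d • muEquiv (q.1 : ℕ) _ from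
        isEquivariant_muEmb (q.1 : ℕ) d _, AddEquiv.apply_symm_apply,
      show (f : DualLoc p X q) (d • x) = d • (f : DualLoc p X q) x from
        HomMod.isEquivariant_of_mem_inv f.2 d x]
  let h : (∀ q : ↥S, Coh.inv (GalLoc (q.1 : ℕ)) (DualLoc p X q)) →
      Coh.inv GalQ (HomMod X (PlaceJ p S)) := fun f => homOfLocal hX
    (fun q => (muEquiv (q.1 : ℕ)).symm.toAddMonoidHom.comp (f q : DualLoc p X q).toHom)
    fun q d x => hterm q (f q) d x
  have hh : Function.Injective h := fun f f' e => funext fun q =>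
    Subtype.ext (HomMod.ext fun x => by
    have := congrArg (fun F : Coh.inv GalQ (HomMod X (PlaceJ p S)) =>
      PlaceMod.val q 1 ((F : HomMod X (PlaceJ p S)) x)) e
    have h1 : (muEquiv (q.1 : ℕ)).symm ((f q : DualLoc p X q) ((1 : GalQ) • x)) =
        (muEquiv (q.1 : ℕ)).symm ((f' q : DualLoc p X q) ((1 : GalQ) • x)) := this
    rw [one_smul] at h1
    exact (muEquiv (q.1 : ℕ)).symm.injective h1)
  have e4 : vcard p (∀ q : ↥S, Coh.inv (GalLoc (q.1 : ℕ)) (DualLoc p X q)) ≤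
      vcard p (Coh.inv GalQ (HomMod X (PlaceJ p S))) :=
    vcard_le_of_natCard_le (fun f => funext fun q => Subtype.ext (HomMod.torsion torsion_Mu _))
      (fun y => Subtype.ext (HomMod.torsion (PlaceMod.torsion torsion_Mu) _))
      (Nat.card_le_card_of_injective h hh)
  rw [vcard_pi] at e4
  have e5 : (0 : ℤ) ≤ vcard p (Coh.inv GalQ X) := Int.natCast_nonneg _
  rw [defect, chi] at hdef
  unfold locTerm
  linarith

section Orthogonal

omit [Nonempty ↥S] [Finite X]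

variable {A B : Type} [AddCommGroup A] [AddCommGroup B] [Finite A]
  {ι₁ ι₂ ι₃ : Type} [Fintype ι₁] [Fintype ι₂] [Fintype ι₃]
  {D₁ : ι₁ → Type} [∀ i, AddCommGroup (D₁ i)] [∀ i, Finite (D₁ i)]
  {D₂ : ι₂ → Type} [∀ i, AddCommGroup (D₂ i)] [∀ i, Finite (D₂ i)]
  {D₃ : ι₃ → Type} [∀ i, AddCommGroup (D₃ i)] [∀ i, Finite (D₃ i)]

omit [Finite A] in
theorem sum_apply_single {ι : Type} [Fintype ι] [DecidableEq ι] {D : ι → Type}
    [∀ i, AddCommGroup (D i)] (b : ∀ i, D i →+ ZMod p) (i : ι) (x : D i) :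
    ∑ j, b j (Pi.single i x j) = b i x := by
  rw [Finset.sum_eq_single i (fun j _ hj => by rw [Pi.single_eq_of_ne hj, map_zero])
    fun h => absurd (Finset.mem_univ i) h, Pi.single_eq_same]

omit [Fact p.Prime] [Finite A] in
theorem sum_split_eq_zero {ι : Type} [Fintype ι] [DecidableEq ι] (T Q : Finset ι)
    (h : Disjoint T Q) {M : Type} [AddCommMonoid M] (F : ι → M) (h0 : ∑ q, F q = 0) :
    ∑ q : {q // q ∈ T}, F q + ∑ q : {q // q ∈ Q}, F q +
      ∑ q : {q // q ∉ T ∧ q ∉ Q}, F q = 0 := by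
  rw [← h0, ← Finset.sum_add_sum_compl (T ∪ Q), Finset.sum_union h, Finset.sum_coe_sort T,
    Finset.sum_coe_sort Q, Finset.sum_subtype (p := fun q => q ∉ T ∧ q ∉ Q) (T ∪ Q)ᶜ
      (fun q => by simp)]

omit [Finite A] in
theorem vcard_hom_zmod {V : Type} [AddCommGroup V] [Finite V] (h : ∀ v : V, p • v = 0) :
    vcard p (V →+ ZMod p) = vcard p V := by
  rw [vcard, vcard, natCard_hom_zmod p V h]

omit [Fact p.Prime] [Finite A] in
theorem quot_nsmul {V : Type} [AddCommGroup V] (h : ∀ v : V, p • v = 0) {N : AddSubgroup V}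
    (x : V ⧸ N) : p • x = 0 := by
  obtain ⟨z, rfl⟩ := QuotientAddGroup.mk_surjective x
  rw [← QuotientAddGroup.mk_nsmul, h, QuotientAddGroup.mk_zero]

omit [Finite A] in
/-- Two groups orthogonal under a pairing, non-degenerate on each, are bounded by the ambient
product. -/
theorem vcard_add_le_of_orth (hpB : ∀ y : B, p • y = 0)
    (h₁ : ∀ i (x : D₁ i), p • x = 0) (h₂ : ∀ i (x : D₂ i), p • x = 0)
    (h₃ : ∀ i (x : D₃ i), p • x = 0)
    (a₁ : ∀ i, A →+ D₁ i) (a₂ : ∀ i, A →+ D₂ i) (a₃ : ∀ i, A →+ D₃ i)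
    (b₁ : ∀ i, B → D₁ i →+ ZMod p) (b₂ : ∀ i, B → D₂ i →+ ZMod p)
    (b₃ : ∀ i, B → D₃ i →+ ZMod p)
    (hA : ∀ a, (∀ i, a₁ i a = 0) → (∀ i, a₂ i a = 0) → (∀ i, a₃ i a = 0) → a = 0)
    (Z : AddSubgroup B) [Finite B]
    (hB : ∀ y y', (∀ i, b₁ i y = b₁ i y') → (∀ i, b₂ i y = b₂ i y') → (∀ i, b₃ i y = b₃ i y') →
      y - y' ∈ Z)
    (horth : ∀ y a, ∑ i, b₁ i y (a₁ i a) + ∑ i, b₂ i y (a₂ i a) + ∑ i, b₃ i y (a₃ i a) = 0) :
    vcard p A + vcard p B ≤
      ∑ i, vcard p (D₁ i) + ∑ i, vcard p (D₂ i) + ∑ i, vcard p (D₃ i) + vcard p Z := by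
  classical
  let D := (∀ i, D₁ i) × (∀ i, D₂ i) × (∀ i, D₃ i)
  let Φ : A →+ D := (AddMonoidHom.mk' (fun a => (fun i => a₁ i a, fun i => a₂ i a, fun i => a₃ i a))
    fun a a' => Prod.ext (funext fun i => map_add (a₁ i) a a')
      (Prod.ext (funext fun i => map_add (a₂ i) a a') (funext fun i => map_add (a₃ i) a a')))
  have hΦ : Function.Injective Φ := (injective_iff_map_eq_zero Φ).2 fun a ha => by
    obtain ⟨e1, e'⟩ := Prod.ext_iff.1 ha
    obtain ⟨e2, e3⟩ := Prod.ext_iff.1 e'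
    exact hA a (congrFun e1) (congrFun e2) (congrFun e3)
  let Ψ : B → D →+ ZMod p := fun y => AddMonoidHom.mk'
    (fun d => ∑ i, b₁ i y (d.1 i) + ∑ i, b₂ i y (d.2.1 i) + ∑ i, b₃ i y (d.2.2 i))
    fun d d' => by
      show ∑ i, b₁ i y (d.1 i + d'.1 i) + ∑ i, b₂ i y (d.2.1 i + d'.2.1 i) +
        ∑ i, b₃ i y (d.2.2 i + d'.2.2 i) = _
      simp only [map_add, Finset.sum_add_distrib]
      abel
  let β : B → (D ⧸ Φ.range →+ ZMod p) := fun y =>
    QuotientAddGroup.lift Φ.range (Ψ y) (by rintro _ ⟨a, rfl⟩; exact horth y a)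
  have hβ : ∀ y y', β y = β y' → y - y' ∈ Z := fun y y' he => by
    have hD : ∀ d, Ψ y d = Ψ y' d := fun d => DFunLike.congr_fun he (QuotientAddGroup.mk d)
    refine hB y y' (fun i => AddMonoidHom.ext fun x => ?_) (fun i => AddMonoidHom.ext fun x => ?_)
      (fun i => AddMonoidHom.ext fun x => ?_)
    · have := hD (Pi.single i x, 0, 0)
      simpa [Ψ, sum_apply_single] using this
    · have := hD (0, Pi.single i x, 0)
      simpa [Ψ, sum_apply_single] using this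
    · have := hD (0, 0, Pi.single i x)
      simpa [Ψ, sum_apply_single] using this
  have hp3 : ∀ d : D, p • d = 0 := fun d => Prod.ext (funext fun i => h₁ i _)
    (Prod.ext (funext fun i => h₂ i _) (funext fun i => h₃ i _))
  let π : D →+ D ⧸ Φ.range := QuotientAddGroup.mk' Φ.range
  have e0 : ∀ d, π d = 0 → ∃ a, Φ a = d := fun d hd => (QuotientAddGroup.eq_zero_iff d).1 hd
  have e1 := vcard_shortExact p (C := D ⧸ Φ.range) Φ π
  have e2 := e1 hΦ (QuotientAddGroup.mk'_surjective _)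
    (fun a => (QuotientAddGroup.eq_zero_iff _).2 ⟨a, rfl⟩) e0
  have hpq : ∀ d : D ⧸ Φ.range, p • d = 0 := fun d => by
    obtain ⟨x, rfl⟩ := QuotientAddGroup.mk_surjective d
    rw [← QuotientAddGroup.mk_nsmul, hp3, QuotientAddGroup.mk_zero]
  have := finite_hom_zmod p (D ⧸ Φ.range)
  let π' : B →+ B ⧸ Z := QuotientAddGroup.mk' Z
  have hβ' : Function.Injective fun c : B ⧸ Z => β c.out := fun c c' he => by
    rw [← QuotientAddGroup.out_eq' c, ← QuotientAddGroup.out_eq' c', QuotientAddGroup.eq]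
    have h1 := Z.neg_mem (hβ _ _ he)
    rwa [neg_sub, sub_eq_neg_add] at h1
  have e5 : vcard p (B ⧸ Z) ≤ vcard p (D ⧸ Φ.range) := vcard_le_of_natCard_le
    (fun c => quot_nsmul hpB c) hpq
    ((Nat.card_le_card_of_injective _ hβ').trans_eq (natCard_hom_zmod p _ hpq))
  have h0 : ∀ a : Z, π' (Z.subtype a) = 0 := fun a => (QuotientAddGroup.eq_zero_iff _).2 a.2
  have h0' : ∀ b, π' b = 0 → ∃ a, Z.subtype a = b := fun b hb =>
    ⟨⟨b, (QuotientAddGroup.eq_zero_iff b).1 hb⟩, rfl⟩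
  have e6 := vcard_shortExact p (C := B ⧸ Z) Z.subtype π'
  have e3 := e6 Subtype.val_injective (QuotientAddGroup.mk'_surjective Z) h0 h0'
  have e4 : vcard p D =
      ∑ i, vcard p (D₁ i) + ∑ i, vcard p (D₂ i) + ∑ i, vcard p (D₃ i) := by
    rw [vcard_prod, vcard_prod, vcard_pi, vcard_pi, vcard_pi, add_assoc]
  linarith

end Orthogonal

/-- **The count.** -/
theorem count_le (hp2 : p ≠ 2) (I : GlobalInputs p S) {K : Subgroup GalQ} [K.Normal]
    (hbig : IsBigFor p S K) (hloc : IsLocalAction (S := S) X) (hX : IsSmooth (galLevelsS S) X)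
    (hfix : ∀ s ∈ K, ∀ x : X, s • x = x) (hpX : ∀ x : X, p • x = 0)
    (T Q : Finset ↥S) (hTQ : Disjoint T Q)
    (hunr : ∀ q : ↥S, q ∉ T → (q.1 : ℕ) ≠ p ∧ IsUnramModule (q.1 : ℕ) X)
    (φ : ∀ q : ↥S, GalLoc (q.1 : ℕ))
    (hφ : ∀ q ∈ Q, (padicPlace (q.1 : ℕ)).IsFrobeniusAt (locφ S q (φ q)) (q.1 : ℕ))
    (L : ∀ q : ↥S, AddSubgroup (LocH1 q (DualLoc p X q))) (hLfin : ∀ q ∈ T, Finite (L q))
    (B : AddSubgroup (H1 (galLevelsS S) (HomMod X (Mu p Qbar))))
    (hBT : ∀ y ∈ B, ∀ q ∈ T, locY hloc q y ∈ L q)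
    (hBunr : ∀ y ∈ B, ∀ q, q ∉ T → q ∉ Q → locY hloc q y ∈ unrCl (q.1 : ℕ) (DualLoc p X q))
    (hkerA : ∀ a : H1 (galLevelsS S) X,
      (∀ q ∈ T, ∀ l ∈ L q, locPair I hloc hX q l (locX hloc q a) = 0) →
      (∀ q ∈ Q, locX hloc q a = 0) →
      (∀ q, q ∉ T → q ∉ Q → locX hloc q a ∈ unrCl (q.1 : ℕ) X) → a = 0) :
    vcard p B + ∑ q ∈ T, locTerm p X q + dminus p complexConjugation X ≤
      ∑ q ∈ T, vcard p (L q) + ∑ q ∈ Q, vcard p (fixAt (φ q) X) +
        vcard p (Coh.inv GalQ (HomMod X (Mu p Qbar))) := by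
  classical
  have : NeZero p := ⟨(Fact.out : p.Prime).ne_zero⟩
  have : Finite (HomMod X (Mu p Qbar)) := Finite.of_injective _ DFunLike.coe_injective
  have := finite_H1_galLevelsS (A := HomMod X (Mu p Qbar)) (HomMod.isSmooth hX I.smooth)
  let T' := {q : ↥S // q ∈ T}
  let Q' := {q : ↥S // q ∈ Q}
  let E' := {q : ↥S // q ∉ T ∧ q ∉ Q}
  have : ∀ q : T', Finite (L q.1) := fun q => hLfin q.1 q.2
  have : ∀ q : T', Finite (L q.1 →+ ZMod p) := fun q => finite_hom_zmod p (L q.1)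
  have hQb := fun q : Q' => vcard_H1_le hpX (hunr q.1 (Finset.disjoint_right.1 hTQ q.2)).1
    (hφ q.1 q.2) (hunr q.1 (Finset.disjoint_right.1 hTQ q.2)).2
  have hEb := fun q : E' => vcard_quot_unrCl_le hpX (hunr q.1 q.2.1).1 (hunr q.1 q.2.1).2
  have : ∀ q : Q', Finite (LocH1 q.1 X) := fun q => (hQb q).1
  have : ∀ q : E', Finite (LocH1 q.1 X ⧸ unrCl (q.1.1 : ℕ) X) := fun q => (hEb q).1
  have horth : ∀ (y : B) (q : E'), unrCl (q.1.1 : ℕ) X ≤
      (locPair I hloc hX q.1 (locY hloc q.1 y.1)).ker := by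
    exact fun y q => unrCl_le_ker I hloc hX (hunr q.1 q.2.1).1 (hunr q.1 q.2.1).2
      (hBunr y.1 y.2 q.1 q.2.1 q.2.2)
  have hev : ∀ (q : T') (y : B), ∀ f f' : L q.1 →+ ZMod p,
      (f + f') ⟨locY hloc q.1 y.1, hBT y.1 y.2 q.1 q.2⟩ =
        f ⟨locY hloc q.1 y.1, hBT y.1 y.2 q.1 q.2⟩ + f' ⟨locY hloc q.1 y.1, hBT y.1 y.2 q.1 q.2⟩ :=
    fun _ _ _ _ => rfl
  let A := H1 (galLevelsS S) X
  let a₁ : ∀ q : T', A →+ (L q.1 →+ ZMod p) := fun q =>
    (AddMonoidHom.compHom.flip (L q.1).subtype).comp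
      ((locPair I hloc hX q.1).flip.comp (locX hloc q.1))
  let a₂ : ∀ q : Q', A →+ LocH1 q.1 X := fun q => locX hloc q.1
  let a₃ : ∀ q : E', A →+ LocH1 q.1 X ⧸ unrCl (q.1.1 : ℕ) X := fun q =>
    (QuotientAddGroup.mk' (unrCl (q.1.1 : ℕ) X)).comp (locX hloc q.1)
  let b₁ : ∀ q : T', B → (L q.1 →+ ZMod p) →+ ZMod p := fun q y =>
    AddMonoidHom.mk' (fun f => f ⟨locY hloc q.1 y.1, hBT y.1 y.2 q.1 q.2⟩) (hev q y)
  let b₂ : ∀ q : Q', B → LocH1 q.1 X →+ ZMod p := fun q y =>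
    locPair I hloc hX q.1 (locY hloc q.1 y.1)
  let b₃ : ∀ q : E', B → LocH1 q.1 X ⧸ unrCl (q.1.1 : ℕ) X →+ ZMod p := fun q y =>
    QuotientAddGroup.lift (unrCl (q.1.1 : ℕ) X) (locPair I hloc hX q.1 (locY hloc q.1 y.1))
      (horth y q)
  have hpB : ∀ y : B, p • y = 0 := fun y =>
    Subtype.ext (H1.torsion (HomMod.torsion torsion_Mu) y.1)
  have hp1 : ∀ (q : T') (f : L q.1 →+ ZMod p), p • f = 0 := fun q f =>
    AddMonoidHom.ext fun l => ZModModule.char_nsmul_eq_zero p _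
  have hq2 : ∀ (q : Q') (x : LocH1 q.1 X), p • x = 0 := fun q x => H1.torsion hpX x
  have hp3 : ∀ (q : E') (x : LocH1 q.1 X ⧸ unrCl (q.1.1 : ℕ) X), p • x = 0 := fun q x =>
    quot_nsmul (fun v : LocH1 q.1 X => H1.torsion hpX v) x
  have hA : ∀ a : A, (∀ q, a₁ q a = 0) → (∀ q, a₂ q a = 0) → (∀ q, a₃ q a = 0) → a = 0 :=
    fun a h1 h2 h3 => hkerA a (fun q hq l hl => DFunLike.congr_fun (h1 ⟨q, hq⟩) ⟨l, hl⟩)
      (fun q hq => h2 ⟨q, hq⟩)
      fun q hq hq' => (QuotientAddGroup.eq_zero_iff _).1 (h3 ⟨q, hq, hq'⟩)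
  let Z : AddSubgroup B :=
    { carrier := {y | ∀ q, locY hloc q y.1 = 0}
      zero_mem' := fun q => map_zero _
      add_mem' := fun {y y'} hy hy' q => by rw [AddSubgroup.coe_add, map_add, hy q, hy' q, add_zero]
      neg_mem' := fun {y} hy q => by rw [AddSubgroup.coe_neg, map_neg, hy q, neg_zero] }
  have hZ : ∀ y : B, y ∈ Z ↔ ∀ q, locY hloc q y.1 = 0 := fun y => Iff.rfl
  have hB : ∀ y y', (∀ q, b₁ q y = b₁ q y') → (∀ q, b₂ q y = b₂ q y') →
      (∀ q, b₃ q y = b₃ q y') → y - y' ∈ Z := fun y y' h1 h2 h3 => by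
    rw [hZ]
    intro q
    rw [AddSubgroup.coe_sub, map_sub]
    by_cases hT : q ∈ T
    · by_contra hne
      obtain ⟨f, hf⟩ := exists_hom_ne_zero (p := p) (V := L q)
        (fun v => Subtype.ext (H1.torsion (HomMod.torsion torsion_Mu) v.1))
        (v := ⟨locY hloc q y.1, hBT y.1 y.2 q hT⟩ - ⟨locY hloc q y'.1, hBT y'.1 y'.2 q hT⟩)
        (fun h => hne (congrArg Subtype.val h))
      refine hf ?_
      rw [map_sub, sub_eq_zero]
      exact DFunLike.congr_fun (h1 ⟨q, hT⟩) f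
    refine eq_zero_of_locPair I hloc hX hpX q fun c => ?_
    rw [map_sub, AddMonoidHom.sub_apply, sub_eq_zero]
    by_cases hQ : q ∈ Q
    · exact DFunLike.congr_fun (h2 ⟨q, hQ⟩) c
    · exact DFunLike.congr_fun (h3 ⟨q, hT, hQ⟩) (QuotientAddGroup.mk c)
  have hsum : ∀ y a, ∑ q, b₁ q y (a₁ q a) + ∑ q, b₂ q y (a₂ q a) + ∑ q, b₃ q y (a₃ q a) = 0 :=
    fun y a => sum_split_eq_zero T Q hTQ
      (fun q => locPair I hloc hX q (locY hloc q y.1) (locX hloc q a))
      (sum_locPair I hloc hX y.1 a)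
  have h := vcard_add_le_of_orth (p := p) (D₃ := fun q : E' => LocH1 q.1 X ⧸ unrCl (q.1.1 : ℕ) X)
    hpB hp1 hq2 hp3 a₁ a₂ a₃ b₁ b₂ b₃ hA Z hB hsum
  have hT3 : ∀ q : T', vcard p (L q.1 →+ ZMod p) = vcard p (L q.1) := fun q =>
    vcard_hom_zmod (fun l : L q.1 => Subtype.ext (H1.torsion (HomMod.torsion torsion_Mu) l.1))
  have hQ3 := Finset.sum_le_sum (s := Finset.univ) fun q (_ : q ∈ (Finset.univ : Finset Q')) =>
    (hQb q).2
  have hE3 := Finset.sum_le_sum (s := Finset.univ) fun q (_ : q ∈ (Finset.univ : Finset E')) =>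
    (hEb q).2
  rw [Finset.sum_add_distrib] at hQ3
  have h3 := le_vcard_H1 hp2 I hbig hloc hX hfix hpX (Z.map B.subtype)
    (by rintro _ ⟨y, hy, rfl⟩ q; exact hy q)
  have hZc : vcard p (Z.map B.subtype) = vcard p Z :=
    vcard_congr p (Z.equivMapOfInjective B.subtype Subtype.val_injective).toEquiv.symm
  rw [← Finset.sum_add_sum_compl (T ∪ Q) (locTerm p X), Finset.sum_union hTQ] at h3
  have hE4 : ∑ q : E', locTerm p X q.1 = ∑ q ∈ (T ∪ Q)ᶜ, locTerm p X q :=
    (Finset.sum_subtype _ (fun q => by simp) _).symm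
  have hT4 : ∑ q : T', vcard p (L q.1 →+ ZMod p) = ∑ q ∈ T, vcard p (L q) := by
    rw [Finset.sum_congr rfl fun q _ => hT3 q, Finset.sum_coe_sort T fun q => vcard p (L q)]
  have hQ4 := Finset.sum_coe_sort Q fun q => vcard p (fixAt (φ q) X)
  have hQ5 := Finset.sum_coe_sort Q (locTerm p X)
  simp only [locTerm] at hE4 hQ5 h3 ⊢
  linarith

end Fermat.Agent.SelmerTW

end
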