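import Fermat.Agent.SelmerTW.Image

/-!
# Detection of classes at regular elements fixing `μ_{pⁿ}`

`IsTWImage` collects the properties of the image used in the choice of Taylor–Wiles primes.  Under
them a non-zero class of `ad⁰ ρ ⊗ det ρ` is detected at an element fixing `μ_{pⁿ}` whose image has
distinct eigenvalues.
-/

set_option autoImplicit false

noncomputable section

open Matrix

namespace Fermat.Agent.SelmerTW

open Duality

variable (p : ℕ) [Fact p.Prime] {k : Type} [Field k]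

/-- The properties of the image used in the choice of Taylor–Wiles primes. -/
structure IsTWImage (ρ : GalQ →* GL (Fin 2) k) : Prop where
  odd : p ≠ 2
  finite : GaloisFactorsThroughFiniteLevel ρ
  cycloDet : IsCycloDet ρ p
  fixed : ∀ M : Mat2 k, M.trace = 0 → (∀ σ ∈ cycKer p, conjAct ρ σ M = M) → M = 0
  sep : ∀ U : AddSubgroup (Mat2 k), (∀ M ∈ U, M.trace = 0) →
    (∀ σ ∈ cycKer p, ∀ M ∈ U, conjAct ρ σ M ∈ U) → U ≠ ⊥ →
    ∃ M ∈ U, ∃ σ ∈ cycKer p, (ρ σ).val.trace ^ 2 ≠ 4 ∧ (M * (ρ σ).val).trace ≠ 0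
  h1 : ∀ z : GalQ → AdTw ρ, (∀ g h, z (g * h) = g • z h + z g) →
    (∀ κ, ρ κ = 1 → z κ = 0) → ∃ a, ∀ g, z g = g • a - a

variable {p}

theorem natCast_eq_of_pow_eq {m : ℕ} [NeZero m] {ζ : Qbar} (hζ : IsPrimitiveRoot ζ m) {a b : ℕ}
    (h : ζ ^ a = ζ ^ b) : (a : ZMod m) = b := by
  rw [ZMod.natCast_eq_natCast_iff]
  refine hζ.pow_inj (Nat.mod_lt _ (NeZero.pos m)) (Nat.mod_lt _ (NeZero.pos m)) ?_
  rw [← pow_eq_pow_mod a hζ.pow_eq_one, ← pow_eq_pow_mod b hζ.pow_eq_one, h]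

theorem cycloExp_eq_one {σ : GalQ} (hσ : σ ∈ cycKer p) :
    (ExtCitation.cycloExp p σ : ZMod p) = 1 := by
  have : NeZero p := ⟨(Fact.out : p.Prime).ne_zero⟩
  obtain ⟨ζ, hζ⟩ := HasEnoughRootsOfUnity.exists_primitiveRoot Qbar p
  have h1 : σ ζ = ζ ^ ExtCitation.cycloExp p σ :=
    modularCyclotomicCharacter.spec _ (ExtCitation.card_rootsOfUnity_eq_self p)
      (σ : Qbar ≃+* Qbar) (t := Units.ofPowEqOne ζ p hζ.pow_eq_one (NeZero.ne p))
      ((mem_rootsOfUnity p _).mpr (Units.pow_ofPowEqOne hζ.pow_eq_one (NeZero.ne p)))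
  rw [hσ ζ hζ.pow_eq_one] at h1
  rw [← Nat.cast_one]
  exact natCast_eq_of_pow_eq hζ (h1.symm.trans (pow_one ζ).symm)

/-- Powers lift the fixing of `μ_p` to the fixing of `μ_{pⁿ}`. -/
theorem pow_mem_cycKer {σ : GalQ} (hσ : σ ∈ cycKer p) (n : ℕ) :
    σ ^ p ^ n ∈ cycKer (p ^ (n + 1)) := by
  have hp : p.Prime := Fact.out
  set m := p ^ (n + 1)
  have : NeZero m := ⟨pow_ne_zero _ hp.ne_zero⟩
  obtain ⟨ζ, hζ⟩ := HasEnoughRootsOfUnity.exists_primitiveRoot Qbar m
  obtain ⟨a, -, ha⟩ := hζ.eq_pow_of_pow_eq_one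
    (show σ ζ ^ m = 1 by rw [← map_pow, hζ.pow_eq_one, map_one])
  have hη : (ζ ^ p ^ n) ^ p = 1 := by rw [← pow_mul, ← pow_succ, hζ.pow_eq_one]
  have hηp : IsPrimitiveRoot (ζ ^ p ^ n) p :=
    hζ.pow (pow_pos hp.pos _) (pow_succ p n)
  have ha1 : (a : ZMod p) = 1 := by
    have h1 := hσ _ hη
    rw [map_pow, ← ha, ← pow_mul, mul_comm, pow_mul] at h1
    have : NeZero p := ⟨hp.ne_zero⟩
    rw [← Nat.cast_one]
    exact natCast_eq_of_pow_eq hηp (h1.trans (pow_one _).symm)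
  have hdvd : ((m : ℕ) : ℤ) ∣ (a : ℤ) ^ p ^ n - 1 := by
    have h0 : (p : ℤ) ∣ (a : ℤ) - 1 := (ZMod.intCast_zmod_eq_zero_iff_dvd _ p).1 (by
      push_cast
      rw [ha1, sub_self])
    have := dvd_sub_pow_of_dvd_sub h0 n
    rw [one_pow] at this
    exact_mod_cast this
  have hpow : ∀ j : ℕ, (σ ^ j) ζ = ζ ^ a ^ j := by
    intro j
    induction j with
    | zero => rw [pow_zero, AlgEquiv.one_apply, pow_zero, pow_one]
    | succ j ih => rw [pow_succ', AlgEquiv.mul_apply, ih, map_pow, ← ha, ← pow_mul, pow_succ']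
  intro μ hμ
  obtain ⟨i, -, rfl⟩ := hζ.eq_pow_of_pow_eq_one hμ
  rw [map_pow, hpow]
  refine congrArg (· ^ i) ?_
  conv_rhs => rw [← pow_one ζ]
  have hmod : a ^ p ^ n ≡ 1 [MOD m] := (Nat.modEq_iff_dvd.2 (by exact_mod_cast hdvd)).symm
  rw [pow_eq_pow_mod (a ^ p ^ n) hζ.pow_eq_one, hmod, ← pow_eq_pow_mod 1 hζ.pow_eq_one]

section Lift

variable [Finite k] [CharP k p] {ρ : GalQ →* GL (Fin 2) k}

/-- A regular element can be replaced by one fixing `μ_{pⁿ}` with the same image. -/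
theorem exists_lift (hodd : p ≠ 2) {σ : GalQ} (hσ : σ ∈ cycKer p) (hdet : (ρ σ).val.det = 1)
    (htr : (ρ σ).val.trace ^ 2 ≠ 4) (n : ℕ) :
    ∃ σ' ∈ cycKer (p ^ (n + 1)), ρ σ' = ρ σ := by
  have hp : p.Prime := Fact.out
  have h2 := two_ne_zero_of_odd (k := k) p hodd
  have : Fintype k := Fintype.ofFinite k
  obtain ⟨f, -, hf⟩ := FiniteField.card k p
  set q := Fintype.card k
  set x := (ρ σ).val
  set D := x - (x.trace / 2) • (1 : Mat2 k) with hD
  set δ := x.trace ^ 2 / 4 - x.det with hδ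
  have h4 : (4 : k) ≠ 0 := by
    rw [show (4 : k) = 2 * 2 by norm_num]
    exact mul_ne_zero h2 h2
  have hδ0 : δ ≠ 0 := by
    rw [hδ, hdet, sub_ne_zero, Ne, div_eq_one_iff_eq h4]
    exact htr
  have hDD : D * D = δ • (1 : Mat2 k) := sub_half_trace_sq h2 x
  have hqodd : q % 2 = 1 := by
    rw [hf, Nat.pow_mod, (hp.eq_two_or_odd).resolve_left hodd, one_pow, Nat.one_mod]
  set c := δ ^ (q / 2) with hc
  have hDq : D ^ q = c • D := by
    conv_lhs => rw [← Nat.div_add_mod q 2, hqodd, pow_succ, pow_mul, sq, hDD, smul_pow, one_pow,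
      Matrix.smul_mul, Matrix.one_mul]
  have hcc : c * c = 1 := by
    rw [hc, ← pow_add, show q / 2 + q / 2 = q - 1 by omega]
    exact FiniteField.pow_card_sub_one_eq_one δ hδ0
  have hfix : x ^ (q * q) = x := by
    have h1 : x = (x.trace / 2) • (1 : Mat2 k) + D := by rw [hD]; abel
    have hqq : q * q = p ^ ((f : ℕ) + (f : ℕ)) := by rw [pow_add, ← hf]
    conv_lhs => rw [h1, hqq, add_pow_char_pow_of_commute _ _ ((Commute.one_left D).smul_left _),
      ← hqq, smul_pow, one_pow, pow_mul, pow_mul, FiniteField.pow_card, FiniteField.pow_card, hDq,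
      smul_pow, hDq, smul_smul, FiniteField.pow_card, hcc, one_smul]
    exact h1.symm
  have hord : ρ σ ^ (q * q - 1) = 1 := by
    refine mul_right_cancel (b := ρ σ) (Units.ext ?_)
    have h1 : 1 ≤ q * q := Nat.mul_pos Fintype.card_pos Fintype.card_pos
    rw [← pow_succ, Nat.sub_add_cancel h1, one_mul, Units.val_pow_eq_pow_val]
    exact hfix
  have hcop : (p ^ n).Coprime (q * q - 1) := by
    refine Nat.Coprime.pow_left n (hp.coprime_iff_not_dvd.2 fun hd => hp.not_dvd_one ?_)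
    have h1 : 1 ≤ q * q := Nat.mul_pos Fintype.card_pos Fintype.card_pos
    have h2 : p ∣ q * q := dvd_mul_of_dvd_left (hf ▸ dvd_pow_self p f.pos.ne') q
    have := Nat.dvd_sub h2 hd
    rwa [show q * q - (q * q - 1) = 1 by omega] at this
  obtain ⟨j, -, hj⟩ := Nat.exists_mul_mod_eq_one_of_coprime hcop (by
    have := Fintype.one_lt_card (α := k)
    have : 4 ≤ q * q := Nat.mul_le_mul this this
    omega)
  refine ⟨(σ ^ p ^ n) ^ j, pow_mem (pow_mem_cycKer hσ n) j, ?_⟩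
  rw [map_pow, map_pow, ← pow_mul, pow_eq_pow_mod _ hord, hj, pow_one]

end Lift

variable {ρ : GalQ →* GL (Fin 2) k} (h : IsTWImage p ρ)

include h

theorem IsTWImage.det_eq_one [CharP k p] {σ : GalQ} (hσ : σ ∈ cycKer p) :
    (ρ σ).val.det = 1 := by
  rw [h.cycloDet σ, ← ZMod.cast_natCast' (R := k), cycloExp_eq_one hσ, ZMod.cast_one']

omit [Fact p.Prime] h in
theorem smul_eq_self_of_map_eq_one {σ : GalQ} (hσ : ρ σ = 1) (x : AdTw ρ) : σ • x = x :=
  AdTw.ext' (by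
    have h1 : (ρ σ).val = 1 := by rw [hσ, Units.val_one]
    rw [mat_smul, h1, det_one, one_smul, conjAct_eq_self_iff, h1, Matrix.one_mul, Matrix.mul_one])

variable [CharP k p]

theorem IsTWImage.smul_mat_of_mem {σ : GalQ} (hσ : σ ∈ cycKer p) (x : AdTw ρ) :
    (σ • x).mat = conjAct ρ σ x.mat := by
  rw [mat_smul, h.det_eq_one hσ, one_smul]

variable [Finite k]

/-- **A non-zero class is detected at a regular element fixing `μ_{pⁿ}`.** -/
theorem IsTWImage.exists_tw_element {z : GalQ → AdTw ρ}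
    (hz : ∀ g g', z (g * g') = g • z g' + z g) (hne : ∀ a, ∃ g, z g ≠ g • a - a) (n : ℕ) :
    ∃ σ ∈ cycKer (p ^ (n + 1)), (ρ σ).val.trace ^ 2 ≠ 4 ∧ ∀ a, z σ ≠ σ • a - a := by
  classical
  have hp : p.Prime := Fact.out
  have hle : cycKer (p ^ (n + 1)) ≤ cycKer p := cycKer_le (dvd_pow_self p n.succ_ne_zero)
  have hconj : ∀ τ, ρ τ = 1 → ∀ g, z (g * τ * g⁻¹) = g • z τ := fun τ hτ g => by
    have h1 : g • z g⁻¹ + z g = 0 := by rw [← hz, mul_inv_cancel, cocycle_one hz]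
    rw [mul_assoc, hz, hz, smul_eq_self_of_map_eq_one hτ, smul_add, add_right_comm, h1, zero_add]
  by_cases hK : ∀ τ ∈ cycKer (p ^ (n + 1)), ρ τ = 1 → z τ = 0
  · exfalso
    obtain ⟨B, hB⟩ := h.h1 z hz fun κ hκ => AdTw.ext' (by
      refine h.fixed _ (z κ).trace_mat fun g hg => ?_
      rw [← h.smul_mat_of_mem hg]
      refine congrArg AdTw.mat ?_
      rw [← hconj κ hκ g]
      have hc : ρ (g * κ * g⁻¹ * κ⁻¹) = 1 := by simp [hκ]
      have := hz (g * κ * g⁻¹ * κ⁻¹) κ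
      rwa [inv_mul_cancel_right,
        hK _ (commutator_mem_cycKer (pow_ne_zero _ hp.ne_zero) g κ) hc, add_zero,
        smul_eq_self_of_map_eq_one hc] at this)
    obtain ⟨g, hg⟩ := hne B
    exact hg (hB g)
  push Not at hK
  obtain ⟨τ₁, hτ₁, hτ₁ρ, hzτ₁⟩ := hK
  let U : AddSubgroup (Mat2 k) :=
    { carrier := {A | ∃ τ ∈ cycKer (p ^ (n + 1)), ρ τ = 1 ∧ (z τ).mat = A}
      zero_mem' := ⟨1, one_mem _, map_one ρ, by rw [cocycle_one hz, AdTw.mat_zero]⟩
      add_mem' := fun {A B} ⟨τ, hτ, hτρ, hA⟩ ⟨τ', hτ', hτ'ρ, hB⟩ =>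
        ⟨τ * τ', mul_mem hτ hτ', by rw [map_mul, hτρ, hτ'ρ, one_mul],
          by rw [hz, smul_eq_self_of_map_eq_one hτρ, AdTw.mat_add, hA, hB, add_comm]⟩
      neg_mem' := fun {A} ⟨τ, hτ, hτρ, hA⟩ =>
        ⟨τ⁻¹, inv_mem hτ, by rw [map_inv, hτρ, inv_one], by
          have h1 := hz τ τ⁻¹
          rw [mul_inv_cancel, cocycle_one hz, smul_eq_self_of_map_eq_one hτρ] at h1
          rw [eq_neg_of_add_eq_zero_left h1.symm, AdTw.mat_neg, hA]⟩ }
  obtain ⟨M, hMU, σ₁, hσ₁, htr₁, hM⟩ := h.sep U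
    (fun A ⟨τ, _, _, hA⟩ => hA ▸ (z τ).trace_mat)
    (fun g hg A ⟨τ, hτ, hτρ, hA⟩ => ⟨g * τ * g⁻¹, (cycKer_normal _).conj_mem τ hτ g,
      by simp [hτρ], by rw [hconj τ hτρ, h.smul_mat_of_mem hg, hA]⟩)
    fun hU => by
      have h1 : (z τ₁).mat ∈ U := ⟨τ₁, hτ₁, hτ₁ρ, rfl⟩
      rw [hU, AddSubgroup.mem_bot] at h1
      exact hzτ₁ (AdTw.ext' h1)
  obtain ⟨σ₀, hσ₀, hρ₀⟩ := exists_lift h.odd hσ₁ (h.det_eq_one hσ₁) htr₁ n
  obtain ⟨τ, hτ, hτρ, rfl⟩ := hMU
  have htr : (ρ σ₀).val.trace ^ 2 ≠ 4 := by rw [hρ₀]; exact htr₁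
  set D := (ρ σ₀).val - ((ρ σ₀).val.trace / 2) • (1 : Mat2 k) with hD
  have hDz : (D * (z τ).mat).trace ≠ 0 := by
    rw [hD, Matrix.sub_mul, trace_sub, Matrix.smul_mul, Matrix.one_mul, trace_smul,
      (z τ).trace_mat, smul_zero, sub_zero, trace_mul_comm, hρ₀]
    exact hM
  have hDfix : conjAct ρ σ₀ D = D := (conjAct_eq_self_iff ρ σ₀ D).2 (by
    rw [hD, Matrix.mul_sub, Matrix.sub_mul, Matrix.mul_smul, Matrix.smul_mul, Matrix.mul_one,
      Matrix.one_mul])
  have hperp : ∀ a : AdTw ρ, (D * (σ₀ • a - a).mat).trace = 0 := fun a => by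
    rw [AdTw.mat_sub, h.smul_mat_of_mem (hle hσ₀), Matrix.mul_sub, trace_sub]
    conv_lhs => arg 1; rw [← hDfix]
    rw [trace_conjAct_mul, sub_self]
  by_cases h0 : (D * (z σ₀).mat).trace = 0
  · have hρ : ρ (τ * σ₀) = ρ σ₀ := by rw [map_mul, hτρ, one_mul]
    refine ⟨τ * σ₀, mul_mem hτ hσ₀, by rw [hρ]; exact htr, fun a ha => hDz ?_⟩
    have h1 := congrArg (fun A : AdTw ρ => (D * A.mat).trace) ha
    simp only [mul_smul, smul_eq_self_of_map_eq_one hτρ, hperp, hz, AdTw.mat_add, Matrix.mul_add,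
      trace_add, h0, zero_add] at h1
    exact h1
  · exact ⟨σ₀, hσ₀, htr, fun a ha => h0 (by rw [ha]; exact hperp a)⟩

omit h

omit [Finite k] in
/-- A representation over `F_p` with irreducible adjoint satisfies the hypotheses. -/
theorem IsTWRep.toImage [Finite k] {ρ₀ : GalQ →* GL (Fin 2) (ZMod p)} {ι : ZMod p →+* k}
    (h₀ : IsTWRep ρ₀ ι ρ) : IsTWImage p ρ where
  odd := h₀.odd
  finite := by
    obtain ⟨L, hL, h1⟩ := h₀.finite
    exact ⟨L, hL, fun σ hσ => h₀.map_eq_one (h1 σ hσ)⟩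
  cycloDet := h₀.cycloDet
  fixed := fun M hM hfix => h₀.eq_zero_of_fixed 0 hM fun σ hσ => hfix σ (by rwa [pow_one] at hσ)
  sep := fun U hU0 hU hne => by
    obtain ⟨σ, hσ, htr⟩ := h₀.exists_regular 0
    rw [pow_one] at hσ
    have h2 := h₀.two_ne
    set D := (ρ σ).val - ((ρ σ).val.trace / 2) • (1 : Mat2 k) with hD
    by_contra hcon
    push Not at hcon
    have hDU : ∀ A ∈ Submodule.span k (U : Set (Mat2 k)), (A * D).trace = 0 := fun A hA => by
      induction hA using Submodule.span_induction with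
      | mem A hA =>
        rw [hD, Matrix.mul_sub, trace_sub, Matrix.mul_smul, Matrix.mul_one, trace_smul, hU0 A hA,
          smul_zero, sub_zero, hcon A hA σ hσ htr]
      | zero => rw [Matrix.zero_mul, trace_zero]
      | add A B _ _ hA hB => rw [Matrix.add_mul, trace_add, hA, hB, add_zero]
      | smul c A _ hA => rw [Matrix.smul_mul, trace_smul, hA, smul_zero]
    rcases h₀.adj (Submodule.span k (U : Set (Mat2 k)))
      (fun A hA => by
        induction hA using Submodule.span_induction with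
        | mem A hA => exact hU0 A hA
        | zero => exact trace_zero _ _
        | add A B _ _ hA hB => rw [trace_add, hA, hB, add_zero]
        | smul c A _ hA => rw [trace_smul, hA, smul_zero])
      (fun g hg A hA => by
        induction hA using Submodule.span_induction with
        | mem A hA => exact Submodule.subset_span (hU g hg A hA)
        | zero => rw [conjAct_zero]; exact zero_mem _
        | add A B _ _ hA hB => rw [conjAct_add]; exact add_mem hA hB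
        | smul c A _ hA => rw [conjAct_smul]; exact Submodule.smul_mem _ c hA) with hW | hW
    · refine hne ((AddSubgroup.eq_bot_iff_forall _).2 fun A hA => ?_)
      have h1 : A ∈ Submodule.span k (U : Set (Mat2 k)) := Submodule.subset_span hA
      rwa [hW, Submodule.mem_bot] at h1
    · have := hDU D (hW D (trace_sub_half h2 _))
      rw [hD, sub_half_trace_sq h2, h₀.det_eq_one hσ, trace_smul, trace_one, Fintype.card_fin,
        smul_eq_mul, Nat.cast_ofNat, mul_eq_zero, or_iff_left h2, sub_eq_zero,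
        div_eq_one_iff_eq (by rw [show (4 : k) = 2 * 2 by norm_num]; exact mul_ne_zero h2 h2)]
        at this
      exact htr this
  h1 := fun z hz hker => by
    have hker₀ : ∀ κ, ρ₀ κ = 1 → z κ = 0 := fun κ hκ => hker κ (h₀.map_eq_one hκ)
    have : Finite (GL (Fin 2) (ZMod p)) := inferInstance
    exact coboundary_of_order_p (not_sq_dvd_card_GL p) ρ₀ (adTw_torsion ρ p) hz hker₀
      (fun κ hκ x => h₀.smul_eq_self hκ x) fun s hs => h₀.exists_at_order_p hz hker₀ hs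

end Fermat.Agent.SelmerTW

end
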