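import Fermat.Agent.SelmerTW.AdModule
import Fermat.Agent.Root.ClassField.CycloChar
import Fermat.Prelude.Def_GaloisRep_Residual

/-!
# Elements of the image of a representation with irreducible adjoint restricted to `ℚ(μ_p)`

The group theoretic input of the choice of Taylor–Wiles primes for a representation over `F_p`.
-/

set_option autoImplicit false

noncomputable section

open Matrix

namespace Fermat.Agent.SelmerTW

open Duality

section Cyclotomic

/-- The automorphisms fixing the `m`-th roots of unity. -/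
def cycKer (m : ℕ) : Subgroup GalQ where
  carrier := {σ | ∀ μ : Qbar, μ ^ m = 1 → σ μ = μ}
  one_mem' _ _ := rfl
  mul_mem' {σ τ} hσ hτ μ hμ := by rw [AlgEquiv.mul_apply, hτ μ hμ, hσ μ hμ]
  inv_mem' {σ} hσ μ hμ := by
    rw [AlgEquiv.aut_inv, AlgEquiv.symm_apply_eq, hσ μ hμ]

theorem cycKer_le {m m' : ℕ} (h : m ∣ m') : cycKer m' ≤ cycKer m := fun σ hσ μ hμ => by
  obtain ⟨c, rfl⟩ := h
  exact hσ μ (by rw [pow_mul, hμ, one_pow])

instance cycKer_normal (m : ℕ) : (cycKer m).Normal :=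
  ⟨fun σ hσ g μ hμ => by
    rw [AlgEquiv.mul_apply, AlgEquiv.mul_apply, hσ _ (by rw [← map_pow, hμ, map_one]),
      AlgEquiv.aut_inv, AlgEquiv.apply_symm_apply]⟩

theorem commutator_mem_cycKer {m : ℕ} (hm : m ≠ 0) (g h : GalQ) :
    g * h * g⁻¹ * h⁻¹ ∈ cycKer m := by
  have : NeZero m := ⟨hm⟩
  obtain ⟨ζ, hζ⟩ := HasEnoughRootsOfUnity.exists_primitiveRoot Qbar m
  intro μ hμ
  have hex : ∀ f : GalQ, ∃ a : ℕ, ∀ x : Qbar, x ^ m = 1 → f x = x ^ a := fun f => by
    obtain ⟨a, -, ha⟩ := hζ.eq_pow_of_pow_eq_one (show f ζ ^ m = 1 by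
      rw [← map_pow, hζ.pow_eq_one, map_one])
    refine ⟨a, fun x hx => ?_⟩
    obtain ⟨i, -, rfl⟩ := hζ.eq_pow_of_pow_eq_one hx
    rw [map_pow, ← ha, ← pow_mul, ← pow_mul, mul_comm]
  obtain ⟨a, ha⟩ := hex g
  obtain ⟨b, hb⟩ := hex h
  have hc : ∀ x : Qbar, x ^ m = 1 → g (h x) = h (g x) := fun x hx => by
    rw [hb x hx, map_pow, ha x hx, map_pow, hb x hx, ← pow_mul, ← pow_mul, mul_comm]
  have hx : (g⁻¹ * h⁻¹) μ ^ m = 1 := by rw [← map_pow, hμ, map_one]
  show g (h ((g⁻¹ * h⁻¹) μ)) = μ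
  rw [hc _ hx, AlgEquiv.mul_apply, AlgEquiv.aut_inv, AlgEquiv.apply_symm_apply, AlgEquiv.aut_inv,
    AlgEquiv.apply_symm_apply]

end Cyclotomic

section Coboundary

variable {G : Type} [Group G] {M : Type} [AddCommGroup M] [DistribMulAction G M] {p : ℕ}
  [Fact p.Prime]

omit [Fact p.Prime] in
theorem cocycle_one {z : G → M} (hz : ∀ g h, z (g * h) = g • z h + z g) : z 1 = 0 := by
  have h := hz 1 1
  rwa [mul_one, one_smul, left_eq_add] at h

/-- A cocycle vanishing on a subgroup of index prime to `p` is a coboundary. -/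
theorem coboundary_of_subgroup (hpM : ∀ x : M, p • x = 0) {z : G → M}
    (hz : ∀ g h, z (g * h) = g • z h + z g) (P : Subgroup G) [P.FiniteIndex]
    (hidx : ¬ p ∣ P.index) (hP : ∀ u ∈ P, z u = 0) : ∃ B : M, ∀ g, z g = g • B - B := by
  classical
  have : Finite (G ⧸ P) := inferInstance
  let : Fintype (G ⧸ P) := Fintype.ofFinite _
  have hout : ∀ g : G, z (g : G ⧸ P).out = z g := fun g => by
    obtain ⟨u, hu⟩ := QuotientGroup.mk_out_eq_mul P g
    rw [hu, hz, hP u u.2, smul_zero, zero_add]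
  set B := ∑ x : G ⧸ P, z x.out with hB
  have key : ∀ g, g • B - B = -(P.index • z g) := fun g => by
    have h1 : ∑ x : G ⧸ P, z (g • x).out = B :=
      Equiv.sum_comp (MulAction.toPerm g) fun x : G ⧸ P => z x.out
    have h2 : ∀ x : G ⧸ P, z (g • x).out = g • z x.out + z g := fun x => by
      conv_lhs => rw [← QuotientGroup.out_eq' x]
      rw [MulAction.Quotient.smul_mk, smul_eq_mul, hout, hz]
    rw [Finset.sum_congr rfl fun x _ => h2 x, Finset.sum_add_distrib, Finset.sum_const,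
      Finset.card_univ, ← Finset.smul_sum, ← Nat.card_eq_fintype_card,
      ← Subgroup.index_eq_card] at h1
    rw [← hB] at h1
    conv_lhs => enter [2]; rw [← h1]
    abel
  obtain ⟨a, ha⟩ : ∃ a : ℕ, (a * P.index : ℕ) ≡ 1 [MOD p] := by
    have hne : (P.index : ZMod p) ≠ 0 := fun h => hidx ((ZMod.natCast_eq_zero_iff _ _).1 h)
    refine ⟨((P.index : ZMod p)⁻¹).val, (ZMod.natCast_eq_natCast_iff _ _ _).1 ?_⟩
    push_cast
    rw [ZMod.natCast_zmod_val, inv_mul_cancel₀ hne]
  refine ⟨-(a • B), fun g => ?_⟩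
  have h1 : g • (-(a • B)) - -(a • B) = (a * P.index) • z g := by
    rw [smul_neg, smul_comm g a B, mul_nsmul', ← neg_neg (P.index • z g), ← key g, smul_neg,
      nsmul_sub]
    abel
  rw [h1]
  conv_lhs => rw [← one_nsmul (z g)]
  have hmod : ∀ n : ℕ, n • z g = (n % p) • z g := fun n => by
    conv_lhs => rw [← Nat.mod_add_div n p, add_nsmul, mul_nsmul, hpM, smul_zero, add_zero]
  rw [hmod 1, hmod (a * P.index), ha]

/-- **A cocycle trivial on the kernel is a coboundary** when its values at the elements of order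
`p` are, and `p²` does not divide the order of the image group. -/
theorem coboundary_of_order_p {H : Type} [Group H] [Finite H] (hcard : ¬ p ^ 2 ∣ Nat.card H)
    (f : G →* H) (hpM : ∀ x : M, p • x = 0) {z : G → M}
    (hz : ∀ g h, z (g * h) = g • z h + z g) (hker : ∀ κ, f κ = 1 → z κ = 0)
    (htriv : ∀ κ, f κ = 1 → ∀ x : M, κ • x = x)
    (hs : ∀ s, orderOf (f s) = p → ∃ a, z s = s • a - a) : ∃ B : M, ∀ g, z g = g • B - B := by
  classical
  have : Finite f.range := inferInstance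
  let P : Sylow p f.range := default
  set P' : Subgroup G := (P : Subgroup f.range).comap f.rangeRestrict
  have hidx' : P'.index = (P : Subgroup f.range).index :=
    Subgroup.index_comap_of_surjective _ f.rangeRestrict_surjective
  have : P'.FiniteIndex := ⟨by rw [hidx']; exact Subgroup.FiniteIndex.index_ne_zero⟩
  have hidx : ¬ p ∣ P'.index := hidx' ▸ P.not_dvd_index
  obtain ⟨a, ha⟩ := IsPGroup.iff_card.1 P.isPGroup'
  have ha1 : a ≤ 1 := by
    by_contra hlt
    refine hcard ((pow_dvd_pow p (Nat.lt_of_not_le hlt)).trans (ha ▸ ?_))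
    exact (Subgroup.card_subgroup_dvd_card _).trans (Subgroup.card_subgroup_dvd_card _)
  have hmemP : ∀ u ∈ P', ∃ v : (P : Subgroup f.range), f u = ((v : f.range) : H) := fun u hu =>
    ⟨⟨f.rangeRestrict u, hu⟩, rfl⟩
  interval_cases a
  · refine coboundary_of_subgroup hpM hz P' hidx fun u hu => hker u ?_
    have : Subsingleton (P : Subgroup f.range) :=
      (Nat.card_eq_one_iff_unique.1 (by rw [ha, pow_zero])).1
    obtain ⟨v, hv⟩ := hmemP u hu
    rw [hv, Subsingleton.elim v 1]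
    rfl
  · have : Nontrivial (P : Subgroup f.range) :=
      Finite.one_lt_card_iff_nontrivial.1 (by rw [ha, pow_one]; exact (Fact.out : p.Prime).one_lt)
    obtain ⟨⟨v, hvP⟩, hv⟩ := exists_ne (1 : (P : Subgroup f.range))
    have hv' : orderOf (⟨v, hvP⟩ : (P : Subgroup f.range)) = p :=
      orderOf_eq_prime (by
        have h1 := pow_card_eq_one' (x := (⟨v, hvP⟩ : (P : Subgroup f.range)))
        rwa [ha, pow_one] at h1) hv
    obtain ⟨s, hs'⟩ := f.rangeRestrict_surjective v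
    have hfs : f s = (v : H) := congrArg Subtype.val hs'
    obtain ⟨b, hb⟩ := hs s (by
      rw [hfs, Subgroup.orderOf_coe, ← hv']
      exact (Subgroup.orderOf_mk v hvP).symm)
    let w : G → M := fun g => z g - (g • b - b)
    have hw : ∀ g h, w (g * h) = g • w h + w g := fun g h => by
      simp only [w, hz g h, mul_smul, smul_sub]
      abel
    have hw0 : ∀ κ, f κ = 1 → w κ = 0 := fun κ hκ => by
      simp only [w, hker κ hκ, htriv κ hκ, sub_self]
    have hws : ∀ i : ℕ, w (s ^ i) = 0 := by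
      intro i
      induction i with
      | zero => rw [pow_zero, cocycle_one hw]
      | succ i ih => rw [pow_succ, hw, ih, show w s = 0 from by simp [w, hb], smul_zero, zero_add]
    obtain ⟨B, hB⟩ := coboundary_of_subgroup hpM hw P' hidx fun u hu => by
      obtain ⟨x, hx⟩ := hmemP u hu
      have hmem : x ∈ Subgroup.zpowers (⟨v, hvP⟩ : (P : Subgroup f.range)) :=
        mem_zpowers_of_prime_card (by rw [ha, pow_one]) hv
      obtain ⟨i, hi⟩ := mem_powers_iff_mem_zpowers.2 hmem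
      have hui : f ((s ^ i)⁻¹ * u) = 1 := by
        rw [map_mul, map_inv, map_pow, hfs, hx, ← hi]
        exact inv_mul_cancel _
      have := hw (s ^ i) ((s ^ i)⁻¹ * u)
      rwa [mul_inv_cancel_left, hw0 _ hui, smul_zero, zero_add, hws] at this
    exact ⟨B + b, fun g => by rw [show z g = w g + (g • b - b) by simp [w], hB, smul_add]; abel⟩

theorem not_sq_dvd_card_GL (p : ℕ) [Fact p.Prime] :
    ¬ p ^ 2 ∣ Nat.card (GL (Fin 2) (ZMod p)) := by
  have hp : p.Prime := Fact.out
  rw [Matrix.card_GL_field, Fin.prod_univ_two, ZMod.card]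
  simp only [Fin.val_zero, Fin.val_one, pow_zero, pow_one]
  intro h
  have h1 : p ^ 2 - p = p * (p - 1) := by rw [sq, Nat.mul_sub, mul_one]
  rw [h1, show (p ^ 2 - 1) * (p * (p - 1)) = p * ((p ^ 2 - 1) * (p - 1)) by ring, sq,
    Nat.mul_dvd_mul_iff_left hp.pos] at h
  have h3 : 1 ≤ p * p := Nat.mul_pos hp.pos hp.pos
  rcases hp.dvd_mul.1 h with h | h
  · have h2 := Nat.dvd_sub (dvd_mul_right p p) h
    rw [show p * p - (p * p - 1) = 1 by omega] at h2
    exact hp.not_dvd_one h2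
  · have := hp.two_le
    have := Nat.le_of_dvd (by omega) h
    omega

end Coboundary

section Matrices

variable {k : Type} [Field k]

theorem sub_half_trace_sq (h2 : (2 : k) ≠ 0) (M : Mat2 k) :
    (M - (M.trace / 2) • (1 : Mat2 k)) * (M - (M.trace / 2) • (1 : Mat2 k)) =
      (M.trace ^ 2 / 4 - M.det) • (1 : Mat2 k) := by
  have h4 : (4 : k) ≠ 0 := by
    rw [show (4 : k) = 2 * 2 by norm_num]
    exact mul_ne_zero h2 h2
  ext i j
  fin_cases i <;> fin_cases j <;>
    simp [Matrix.mul_apply, Fin.sum_univ_two, trace_fin_two, det_fin_two] <;> field_simp <;> ring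

theorem trace_sub_half (h2 : (2 : k) ≠ 0) (M : Mat2 k) :
    (M - (M.trace / 2) • (1 : Mat2 k)).trace = 0 := by
  rw [trace_sub, trace_smul, trace_one, Fintype.card_fin, smul_eq_mul, Nat.cast_ofNat,
    div_mul_cancel₀ _ h2, sub_self]

theorem mul_self_eq_zero_of_isNilpotent {M : Mat2 k} (h : IsNilpotent M) :
    M * M = 0 ∧ M.trace = 0 := by
  have ht : M.trace = 0 := (Matrix.isNilpotent_trace_of_isNilpotent h).eq_zero
  have hd : M.det = 0 := by
    obtain ⟨i, hi⟩ := h
    have := congrArg Matrix.det hi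
    rw [det_pow, det_zero] at this
    exact pow_eq_zero_iff'.1 this |>.1
  rw [det_fin_two] at hd
  rw [trace_fin_two] at ht
  refine ⟨?_, by rw [trace_fin_two, ht]⟩
  ext i j
  fin_cases i <;> fin_cases j <;> simp [Matrix.mul_apply, Fin.sum_univ_two]
  · linear_combination (M 0 0) * ht - hd
  · linear_combination (M 0 1) * ht
  · linear_combination (M 1 0) * ht
  · linear_combination (M 1 1) * ht - hd

/-- The conjugation by `1 + N` hits every trace zero matrix orthogonal to `N`. -/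
theorem exists_unipotent_sub_eq (h2 : (2 : k) ≠ 0) {N W : Mat2 k} (hN : N ≠ 0) (hN2 : N * N = 0)
    (htN : N.trace = 0) (hW : W.trace = 0) (hNW : (N * W).trace = 0) :
    ∃ A : Mat2 k, A.trace = 0 ∧ (1 + N) * A * (1 - N) - A = W := by
  have e := congrFun (congrFun hN2 0) 0
  simp only [Matrix.mul_apply, Fin.sum_univ_two, Matrix.zero_apply] at e
  rw [trace_fin_two] at htN hW
  simp only [trace_fin_two, Matrix.mul_apply, Fin.sum_univ_two] at hNW
  have hN11 : N 1 1 = -N 0 0 := by linear_combination htN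
  have hW11 : W 1 1 = -W 0 0 := by linear_combination hW
  rw [hN11, hW11] at hNW
  by_cases hb : N 0 1 = 0
  · have ha : N 0 0 = 0 := by
      rw [hb, zero_mul, add_zero] at e
      exact mul_self_eq_zero.1 e
    have hc : N 1 0 ≠ 0 := fun hc => hN (by
      ext i j
      fin_cases i <;> fin_cases j <;> simp [ha, hb, hc, hN11])
    have hW01 : W 0 1 = 0 := by
      rw [ha, hb] at hNW
      have : N 1 0 * W 0 1 = 0 := by linear_combination hNW
      exact (mul_eq_zero.1 this).resolve_left hc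
    set y := -W 0 0 / N 1 0 with hy
    set x := (W 1 0 + N 1 0 * N 1 0 * y) / (2 * N 1 0) with hx
    refine ⟨!![x, y; 0, -x], by simp [trace_fin_two], ?_⟩
    ext i j
    fin_cases i <;> fin_cases j <;>
      simp [Matrix.mul_apply, Fin.sum_univ_two, Matrix.sub_apply, Matrix.add_apply, ha, hb, hN11,
        hW11, hW01] <;>
      (try simp only [hx]) <;> (try simp only [hy]) <;> field_simp
    ring
  · set a := N 0 0 with ha
    set b := N 0 1 with hbdef
    set s := W 0 0 - a * W 0 1 / b with hs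
    set x := (-W 0 1 / b - s) / 2 with hx
    set z := (s - 2 * a * x) / b with hz
    refine ⟨!![x, 0; z, -x], by simp [trace_fin_two], ?_⟩
    have hc : N 1 0 = -(a * a) / b := by
      rw [eq_div_iff hb]
      linear_combination e
    have hW10 : W 1 0 = -(2 * a * W 0 0 + N 1 0 * W 0 1) / b := by
      rw [eq_div_iff hb]
      linear_combination hNW
    ext i j
    fin_cases i <;> fin_cases j <;>
      simp [Matrix.mul_apply, Fin.sum_univ_two, Matrix.sub_apply, Matrix.add_apply, ← ha, ← hbdef,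
        hN11, hW11] <;>
      (try simp only [hz]) <;> (try simp only [hx]) <;> (try simp only [hs]) <;> (try rw [hW10]) <;>
        (try rw [hc]) <;> field_simp <;> ring

end Matrices

variable {p : ℕ} [Fact p.Prime] {k : Type} [Field k]

/-- The hypotheses on the representation. -/
structure IsTWRep (ρ₀ : GalQ →* GL (Fin 2) (ZMod p)) (ι : ZMod p →+* k)
    (ρ : GalQ →* GL (Fin 2) k) : Prop where
  odd : p ≠ 2
  map_eq : ∀ σ, (ρ σ).val = (ρ₀ σ).val.map ι
  finite : GaloisFactorsThroughFiniteLevel ρ₀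
  det_eq : ∀ (σ : GalQ) (a : ℕ), (∀ μ : Qbar, μ ^ p = 1 → σ μ = μ ^ a) →
    ((ρ₀ σ).val).det = (a : ZMod p)
  adj : ∀ U : Submodule k (Mat2 k), (∀ M ∈ U, M.trace = 0) →
    (∀ σ : GalQ, (∀ μ : Qbar, μ ^ p = 1 → σ μ = μ) → ∀ M ∈ U, conjAct ρ σ M ∈ U) →
    U = ⊥ ∨ ∀ M : Mat2 k, M.trace = 0 → M ∈ U

variable {ρ₀ : GalQ →* GL (Fin 2) (ZMod p)} {ι : ZMod p →+* k} {ρ : GalQ →* GL (Fin 2) k}
  (h : IsTWRep ρ₀ ι ρ)

include h

theorem IsTWRep.det_map (σ : GalQ) : (ρ σ).val.det = ι (ρ₀ σ).val.det := by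
  rw [h.map_eq, RingHom.map_det]
  rfl

theorem IsTWRep.cycloDet : IsCycloDet ρ p := fun σ => by
  rw [h.det_map, h.det_eq σ (ExtCitation.cycloExp p σ) fun μ hμ => ?_, map_natCast]
  have : NeZero p := ⟨(Fact.out : p.Prime).ne_zero⟩
  exact modularCyclotomicCharacter.spec _ (ExtCitation.card_rootsOfUnity_eq_self p)
    (σ : Qbar ≃+* Qbar) (t := Units.ofPowEqOne μ p hμ (NeZero.ne p))
    ((mem_rootsOfUnity p _).mpr (Units.pow_ofPowEqOne hμ (NeZero.ne p)))

theorem IsTWRep.det_eq_one {σ : GalQ} (hσ : σ ∈ cycKer p) : (ρ σ).val.det = 1 := by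
  rw [h.det_map, h.det_eq σ 1 fun μ hμ => by rw [pow_one]; exact hσ μ hμ, Nat.cast_one, map_one]

theorem IsTWRep.map_eq_one {σ : GalQ} (hσ : ρ₀ σ = 1) : ρ σ = 1 := Units.ext (by
  rw [h.map_eq, hσ, Units.val_one, Units.val_one, Matrix.map_one ι (map_zero ι) (map_one ι)])

theorem IsTWRep.smul_eq_self {σ : GalQ} (hσ : ρ₀ σ = 1) (x : AdTw ρ) : σ • x = x :=
  AdTw.ext' (by
    have h1 : (ρ σ).val = 1 := by rw [h.map_eq_one hσ, Units.val_one]
    rw [mat_smul, h1, det_one, one_smul, conjAct_eq_self_iff, h1, Matrix.one_mul, Matrix.mul_one])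

variable [CharP k p]

theorem IsTWRep.two_ne : (2 : k) ≠ 0 := two_ne_zero_of_odd p h.odd

/-- **(I1)** No non-zero trace zero matrix is fixed by an open normal cyclotomic subgroup. -/
theorem IsTWRep.eq_zero_of_fixed (n : ℕ) {M : Mat2 k} (hM : M.trace = 0)
    (hfix : ∀ σ ∈ cycKer (p ^ (n + 1)), conjAct ρ σ M = M) : M = 0 := by
  classical
  have h2 := h.two_ne
  let U : Submodule k (Mat2 k) :=
    { carrier := {A | A.trace = 0 ∧ ∀ σ ∈ cycKer (p ^ (n + 1)), conjAct ρ σ A = A}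
      add_mem' := fun {A B} hA hB => ⟨by rw [trace_add, hA.1, hB.1, add_zero],
        fun σ hσ => by rw [conjAct_add, hA.2 σ hσ, hB.2 σ hσ]⟩
      zero_mem' := ⟨trace_zero _ _, fun σ _ => conjAct_zero ρ σ⟩
      smul_mem' := fun c A hA => ⟨by rw [trace_smul, hA.1, smul_zero],
        fun σ hσ => by rw [conjAct_smul, hA.2 σ hσ]⟩ }
  rcases h.adj U (fun A hA => hA.1) (fun g _ A hA => ⟨by rw [trace_conjAct]; exact hA.1,
    fun σ hσ => by
      rw [← conjAct_mul, show σ * g = g * (g⁻¹ * σ * g⁻¹⁻¹) by group, conjAct_mul,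
        hA.2 _ ((cycKer_normal _).conj_mem σ hσ g⁻¹)]⟩) with hU | hU
  · have h1 : M ∈ U := ⟨hM, hfix⟩
    rwa [hU, Submodule.mem_bot] at h1
  exfalso
  -- the adjoint image of `cycKer p` is commutative
  have hcomm : ∀ g ∈ cycKer p, ∀ g' ∈ cycKer p, ∀ A : Mat2 k, A.trace = 0 →
      conjAct ρ g (conjAct ρ g' A) = conjAct ρ g' (conjAct ρ g A) := fun g _ g' _ A hA => by
    have h1 := (hU (conjAct ρ g' (conjAct ρ g A))
      (by rw [trace_conjAct, trace_conjAct, hA])).2 _
      (commutator_mem_cycKer (pow_ne_zero _ (Fact.out : p.Prime).ne_zero) g g')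
    rw [← conjAct_mul, ← conjAct_mul, show g * g' * g⁻¹ * g'⁻¹ * g' * g = g * g' by group,
      conjAct_mul] at h1
    exact h1
  obtain ⟨g, hg, A, hA, hgA⟩ : ∃ g ∈ cycKer p, ∃ A : Mat2 k, A.trace = 0 ∧ conjAct ρ g A ≠ A := by
    by_contra hcon
    push Not at hcon
    rcases h.adj (k ∙ (!![0, 1; 0, 0] : Mat2 k))
      (fun A hA => by
        obtain ⟨c, rfl⟩ := Submodule.mem_span_singleton.1 hA
        simp [trace_fin_two])
      (fun σ hσ A hA => by
        obtain ⟨c, rfl⟩ := Submodule.mem_span_singleton.1 hA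
        rw [hcon σ hσ _ (by simp [trace_fin_two])]
        exact hA) with h0 | h0
    · have h1 := (Submodule.span_singleton_eq_bot.1 h0)
      have := congrFun (congrFun h1 0) 1
      simp at this
    · obtain ⟨c, hc⟩ := Submodule.mem_span_singleton.1
        (h0 !![1, 0; 0, -1] (by simp [trace_fin_two]))
      have := congrFun (congrFun hc 0) 0
      simp at this
  set N := (ρ g).val - ((ρ g).val.trace / 2) • (1 : Mat2 k) with hN
  let V : Submodule k (Mat2 k) :=
    { carrier := {B | B.trace = 0 ∧ conjAct ρ g B = B}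
      add_mem' := fun {B C} hB hC => ⟨by rw [trace_add, hB.1, hC.1, add_zero],
        by rw [conjAct_add, hB.2, hC.2]⟩
      zero_mem' := ⟨trace_zero _ _, conjAct_zero ρ g⟩
      smul_mem' := fun c B hB => ⟨by rw [trace_smul, hB.1, smul_zero],
        by rw [conjAct_smul, hB.2]⟩ }
  rcases h.adj V (fun B hB => hB.1) (fun σ hσ B hB => ⟨by rw [trace_conjAct]; exact hB.1,
    by rw [hcomm g hg σ hσ B hB.1, hB.2]⟩) with hV | hV
  · have hNV : N ∈ V := by
      refine ⟨trace_sub_half h2 _, (conjAct_eq_self_iff ρ g N).2 ?_⟩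
      rw [hN, Matrix.mul_sub, Matrix.sub_mul, Matrix.mul_smul, Matrix.smul_mul, Matrix.mul_one,
        Matrix.one_mul]
    rw [hV, Submodule.mem_bot, hN, sub_eq_zero] at hNV
    refine hgA ((conjAct_eq_self_iff ρ g A).2 ?_)
    rw [hNV, Matrix.smul_mul, Matrix.mul_smul, Matrix.one_mul, Matrix.mul_one]
  · exact hgA (hV A hA).2

variable [Finite k]

/-- **(I2)** Some element fixing `μ_{pⁿ}` has distinct eigenvalues. -/
theorem IsTWRep.exists_regular (n : ℕ) :
    ∃ σ ∈ cycKer (p ^ (n + 1)), (ρ σ).val.trace ^ 2 ≠ 4 := by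
  classical
  by_contra hcon
  push Not at hcon
  have h2 := h.two_ne
  have hp : p.Prime := Fact.out
  have hle : cycKer (p ^ (n + 1)) ≤ cycKer p := cycKer_le (dvd_pow_self p n.succ_ne_zero)
  have hpow : ∀ σ ∈ cycKer (p ^ (n + 1)), ∀ A : Mat2 k, conjAct ρ (σ ^ p) A = A := by
    intro σ hσ A
    set N := (ρ σ).val - ((ρ σ).val.trace / 2) • (1 : Mat2 k) with hN
    have hN2 : N * N = 0 := by
      rw [hN, sub_half_trace_sq h2, hcon σ hσ, h.det_eq_one (hle hσ),
        div_self (by rw [show (4 : k) = 2 * 2 by norm_num]; exact mul_ne_zero h2 h2), sub_self,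
        zero_smul]
    have hNp : N ^ p = 0 := by
      obtain ⟨e, he⟩ := Nat.exists_eq_add_of_le hp.two_le
      rw [he, pow_add, pow_two, hN2, Matrix.zero_mul]
    have e1 : (ρ (σ ^ p)).val = (((ρ σ).val.trace / 2) ^ p) • (1 : Mat2 k) := by
      rw [map_pow, Units.val_pow_eq_pow_val,
        show (ρ σ).val = ((ρ σ).val.trace / 2) • (1 : Mat2 k) + N by rw [hN]; abel,
        add_pow_char_of_commute _ ((Commute.one_left N).smul_left _), smul_pow, one_pow, hNp,
        add_zero]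
      simp [hN]
    refine (conjAct_eq_self_iff ρ _ A).2 ?_
    rw [e1, Matrix.smul_mul, Matrix.mul_smul, Matrix.one_mul, Matrix.mul_one]
  let toPerm : cycKer (p ^ (n + 1)) →* Equiv.Perm (sl0 k) :=
    { toFun := fun σ =>
        { toFun := fun A => ⟨conjAct ρ σ A.1, mem_sl0.2 (by rw [trace_conjAct]; exact A.2)⟩
          invFun := fun A =>
            ⟨conjAct ρ (σ : GalQ)⁻¹ A.1, mem_sl0.2 (by rw [trace_conjAct]; exact A.2)⟩
          left_inv := fun A => Subtype.ext (by
            show conjAct ρ (σ : GalQ)⁻¹ (conjAct ρ σ A.1) = A.1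
            rw [← conjAct_mul, inv_mul_cancel, conjAct_one])
          right_inv := fun A => Subtype.ext (by
            show conjAct ρ σ (conjAct ρ (σ : GalQ)⁻¹ A.1) = A.1
            rw [← conjAct_mul, mul_inv_cancel, conjAct_one]) }
      map_one' := Equiv.ext fun A => Subtype.ext (conjAct_one ρ A.1)
      map_mul' := fun σ τ => Equiv.ext fun A => Subtype.ext (conjAct_mul ρ σ τ A.1) }
  have hP : IsPGroup p toPerm.range := by
    rintro ⟨_, σ, rfl⟩
    refine ⟨1, Subtype.ext ?_⟩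
    rw [pow_one, SubmonoidClass.coe_pow, ← map_pow]
    exact Equiv.ext fun A => Subtype.ext (hpow σ σ.2 A.1)
  have hdvd : p ∣ Nat.card (sl0 k) := by
    have hne : (⟨!![0, 1; 0, 0], by simp [mem_sl0, trace_fin_two]⟩ : sl0 k) ≠ 0 := fun e => by
      have := congrFun (congrFun (congrArg Subtype.val e) 0) 1
      simp at this
    rw [← addOrderOf_eq_prime (p := p) (Subtype.ext (show p • (!![0, 1; 0, 0] : Mat2 k) = 0 by
      rw [← Nat.cast_smul_eq_nsmul k, CharP.cast_eq_zero, zero_smul])) hne]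
    exact addOrderOf_dvd_natCard _
  have h0 : (0 : sl0 k) ∈ MulAction.fixedPoints toPerm.range (sl0 k) := by
    rintro ⟨_, σ, rfl⟩
    exact Subtype.ext (conjAct_zero ρ σ)
  obtain ⟨b, hb, hb0⟩ := hP.exists_fixed_point_of_prime_dvd_card_of_fixed_point (sl0 k) hdvd h0
  exact hb0.symm (Subtype.ext (h.eq_zero_of_fixed n b.2 fun σ hσ =>
    congrArg Subtype.val (hb ⟨toPerm ⟨σ, hσ⟩, ⟨σ, hσ⟩, rfl⟩)))

omit [Finite k] [CharP k p] in
/-- An element normalising a subgroup of order `p` with non-square determinant. -/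
theorem IsTWRep.exists_normalising {u : GL (Fin 2) (ZMod p)} {s : GalQ} (hs : ρ₀ s = u)
    (hu : orderOf u = p) : ∃ (g : GalQ) (j : ℕ), ρ₀ g * u * (ρ₀ g)⁻¹ = u ^ j ∧
      ¬ IsSquare ((ρ₀ g).val.det) := by
  classical
  have hp : p.Prime := Fact.out
  have : Finite (GL (Fin 2) (ZMod p)) := inferInstance
  let δ : ρ₀.range →* (ZMod p)ˣ := Matrix.GeneralLinearGroup.det.comp ρ₀.range.subtype
  have hδ : ∀ a : (ZMod p)ˣ, ∃ x, δ x = a := fun a => by
    obtain ⟨σ, hσ⟩ := Root.ClassField.cycloChar_surjective p a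
    refine ⟨⟨ρ₀ σ, σ, rfl⟩, Units.ext ?_⟩
    show (ρ₀ σ).val.det = (a : ZMod p)
    rw [← ZMod.natCast_zmod_val (a : ZMod p)]
    refine h.det_eq σ _ fun μ hμ => ?_
    have : NeZero p := ⟨hp.ne_zero⟩
    obtain ⟨i, -, rfl⟩ := (Root.ClassField.rootQ_spec p).eq_pow_of_pow_eq_one hμ
    rw [map_pow, ← Root.ClassField.cycloChar_spec p σ, hσ, ← pow_mul, ← pow_mul, mul_comm]
  let N : Subgroup ρ₀.range := (powMonoidHom 2 : (ZMod p)ˣ →* (ZMod p)ˣ).range.comap δ
  have : N.Normal := Subgroup.Normal.comap inferInstance δ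
  let v : ρ₀.range := ⟨u, s, hs⟩
  have hv : orderOf v = p := (Subgroup.orderOf_coe v).symm.trans hu
  obtain ⟨P, hP⟩ := (IsPGroup.of_card (p := p) (n := 1) (G := Subgroup.zpowers v)
    (by rw [Nat.card_zpowers, hv, pow_one])).exists_le_sylow
  obtain ⟨a, ha⟩ := IsPGroup.iff_card.1 P.isPGroup'
  have hPv : (P : Subgroup ρ₀.range) = Subgroup.zpowers v := by
    refine (Subgroup.eq_of_le_of_card_ge hP ?_).symm
    have ha1 : a ≤ 1 := by
      by_contra hlt
      refine not_sq_dvd_card_GL p ((pow_dvd_pow p (Nat.lt_of_not_le hlt)).trans (ha ▸ ?_))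
      exact (Subgroup.card_subgroup_dvd_card _).trans (Subgroup.card_subgroup_dvd_card _)
    rw [ha, Nat.card_zpowers, hv]
    exact (Nat.pow_le_pow_right hp.pos ha1).trans_eq (pow_one p)
  have hPN : (P : Subgroup ρ₀.range) ≤ N := by
    rw [hPv, Subgroup.zpowers_le]
    have h1 : δ v ^ p = 1 := by
      have e := pow_orderOf_eq_one v
      rw [hv] at e
      rw [← map_pow, e, map_one]
    have h2 : δ v = 1 := Units.ext (by
      rw [← ZMod.pow_card (δ v : ZMod p), ← Units.val_pow_eq_pow_val, h1])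
    show δ v ∈ (powMonoidHom 2 : (ZMod p)ˣ →* (ZMod p)ˣ).range
    rw [h2]
    exact one_mem _
  obtain ⟨a', ha'⟩ : ∃ a' : (ZMod p)ˣ, a' ∉ (powMonoidHom 2 : (ZMod p)ˣ →* (ZMod p)ˣ).range := by
    obtain ⟨c, hc⟩ := FiniteField.exists_nonsquare (F := ZMod p) (by
      rw [ringChar.eq_iff.2 (ZMod.charP p)]; exact h.odd)
    have hc0 : c ≠ 0 := fun e => hc (e ▸ IsSquare.zero)
    refine ⟨Units.mk0 c hc0, ?_⟩
    rintro ⟨b, hb⟩
    exact hc ⟨(b : ZMod p), by rw [← Units.val_mk0 hc0, ← hb, powMonoidHom_apply, sq,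
      Units.val_mul]⟩
  obtain ⟨x, hx⟩ := hδ a'
  obtain ⟨g', hg', hg'N⟩ : ∃ g' ∈ Subgroup.normalizer (P : Subgroup ρ₀.range), g' ∉ N := by
    by_contra hcon
    push Not at hcon
    have h1 := Sylow.normalizer_sup_eq_top' P hPN
    have h2 : x ∈ N := by
      have : Subgroup.normalizer (P : Subgroup ρ₀.range) ⊔ N ≤ N := sup_le hcon le_rfl
      exact this (h1 ▸ Subgroup.mem_top x)
    exact ha' (hx ▸ h2)
  obtain ⟨g, hg⟩ := g'.2
  have hconj : g' * v * g'⁻¹ ∈ (P : Subgroup ρ₀.range) :=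
    (Subgroup.mem_normalizer_iff.1 hg' v).1 (hPv ▸ Subgroup.mem_zpowers v)
  rw [hPv] at hconj
  obtain ⟨j, hj⟩ := mem_powers_iff_mem_zpowers.2 hconj
  refine ⟨g, j, ?_, ?_⟩
  · rw [hg]
    exact (congrArg Subtype.val hj).symm
  · rintro ⟨b, hb⟩
    refine hg'N ?_
    have hb0 : b ≠ 0 := fun e => by
      rw [e, mul_zero] at hb
      exact (δ g').ne_zero (by rw [← hb, hg]; rfl)
    refine ⟨Units.mk0 b hb0, Units.ext ?_⟩
    show ((Units.mk0 b hb0 ^ 2 : (ZMod p)ˣ) : ZMod p) = (g' : GL (Fin 2) (ZMod p)).val.det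
    rw [Units.val_pow_eq_pow_val, Units.val_mk0, sq, ← hb, hg]

variable {z : GalQ → AdTw ρ} (hz : ∀ g g', z (g * g') = g • z g' + z g)

include hz

omit [Finite k] in
/-- At an element of order `p` a class killed on the kernel takes a coboundary value. -/
theorem IsTWRep.exists_at_order_p (hker : ∀ κ, ρ₀ κ = 1 → z κ = 0) {s : GalQ}
    (hs : orderOf (ρ₀ s) = p) : ∃ a, z s = s • a - a := by
  classical
  have hp : p.Prime := Fact.out
  have h2 := h.two_ne
  obtain ⟨g, j, hgj, hsq⟩ := h.exists_normalising rfl hs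
  set u := ρ₀ s
  set N₀ : Mat2 (ZMod p) := u.val - 1 with hN₀
  have hnil : IsNilpotent N₀ := ⟨p, by
    have e := pow_orderOf_eq_one u
    rw [hs] at e
    rw [hN₀, sub_pow_char_of_commute _ (Commute.one_right u.val), one_pow,
      ← Units.val_pow_eq_pow_val, e, Units.val_one, sub_self]⟩
  obtain ⟨hN₀2, hN₀t⟩ := mul_self_eq_zero_of_isNilpotent hnil
  have hN₀ne : N₀ ≠ 0 := fun e => hp.ne_one (by
    rw [← hs, orderOf_eq_one_iff]
    exact Units.ext (sub_eq_zero.1 e))
  have hupow : ∀ i : ℕ, (u ^ i).val = 1 + (i : ZMod p) • N₀ := by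
    intro i
    induction i with
    | zero => simp
    | succ i ih =>
      rw [pow_succ, Units.val_mul, ih, show u.val = 1 + N₀ by rw [hN₀]; abel, Matrix.add_mul,
        Matrix.one_mul, Matrix.smul_mul, Matrix.mul_add, Matrix.mul_one, hN₀2, add_zero,
        Nat.cast_succ, add_smul, one_smul]
      abel
  set N : Mat2 k := N₀.map ι with hN
  have hNne : N ≠ 0 := fun e => hN₀ne (by
    ext a b
    exact ι.injective ((congrFun (congrFun e a) b).trans (map_zero ι).symm))
  have hN2 : N * N = 0 := by rw [hN, ← Matrix.map_mul, hN₀2, Matrix.map_zero ι (map_zero ι)]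
  have hNt : N.trace = 0 := by
    rw [hN, trace_fin_two, map_apply, map_apply, ← map_add, ← trace_fin_two, hN₀t, map_zero]
  have hρs : ∀ x : GalQ, ∀ i : ℕ, ρ₀ x = u ^ i → (ρ x).val = 1 + (i : k) • N := fun x i hx => by
    rw [h.map_eq, hx, hupow, Matrix.map_add ι (map_add ι),
      Matrix.map_one ι (map_zero ι) (map_one ι)]
    congr 1
    ext a b
    simp [hN]
  have hs1 : (ρ s).val = 1 + N := by
    have := hρs s 1 (pow_one u).symm
    rwa [Nat.cast_one, one_smul] at this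
  have hdet1 : ∀ x : GalQ, ∀ i : ℕ, ρ₀ x = u ^ i → (ρ x).val.det = 1 := fun x i hx => by
    rw [hρs x i hx, det_fin_two]
    have ht := hNt
    rw [trace_fin_two] at ht
    have hd := congrFun (congrFun hN2 0) 0
    simp only [Matrix.mul_apply, Fin.sum_univ_two, Matrix.zero_apply] at hd
    simp
    linear_combination (i : k) * ht + (i : k) * (i : k) * (N 0 0 * ht - hd)
  have hcommN : ∀ x : GalQ, ∀ i : ℕ, ρ₀ x = u ^ i → conjAct ρ x N = N := fun x i hx => by
    rw [conjAct_eq_self_iff, hρs x i hx, Matrix.add_mul, Matrix.mul_add, Matrix.one_mul,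
      Matrix.mul_one, Matrix.smul_mul, Matrix.mul_smul]
  set ℓ : AdTw ρ → k := fun A => (N * A.mat).trace with hℓ
  have hℓadd : ∀ A B, ℓ (A + B) = ℓ A + ℓ B := fun A B => by
    simp [hℓ, Matrix.mul_add, trace_add]
  have hℓinv : ∀ x : GalQ, ∀ i : ℕ, ρ₀ x = u ^ i → ∀ A, ℓ (x • A) = ℓ A := fun x i hx A => by
    show (N * (x • A).mat).trace = (N * A.mat).trace
    rw [mat_smul, hdet1 x i hx, one_smul]
    conv_lhs => rw [← hcommN x i hx]
    exact trace_conjAct_mul ρ x N A.mat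
  have hℓpow : ∀ i : ℕ, ℓ (z (s ^ i)) = (i : k) * ℓ (z s) := by
    intro i
    induction i with
    | zero => simp [hℓ, cocycle_one hz]
    | succ i ih =>
      rw [pow_succ, hz, hℓadd, hℓinv (s ^ i) i (by rw [map_pow]), ih, Nat.cast_succ]
      ring
  have hρj : ρ₀ (g * s * g⁻¹) = u ^ j := by rw [map_mul, map_mul, map_inv, hgj]
  have hsame : z (g * s * g⁻¹) = z (s ^ j) := by
    have hk : ρ₀ ((s ^ j)⁻¹ * (g * s * g⁻¹)) = 1 := by
      rw [map_mul, hρj, map_inv, map_pow, inv_mul_cancel]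
    have := hz (s ^ j) ((s ^ j)⁻¹ * (g * s * g⁻¹))
    rwa [mul_inv_cancel_left, hker _ hk, smul_zero, zero_add] at this
  have h1 : g • z g⁻¹ + z g = 0 := by rw [← hz, mul_inv_cancel, cocycle_one hz]
  have hexp : z (g * s * g⁻¹) + (g * s * g⁻¹) • z g = g • z s + z g := by
    conv_lhs => arg 2; rw [show g * s * g⁻¹ = g * (s * g⁻¹) from mul_assoc _ _ _]
    rw [show z (g * s * g⁻¹) = g • (s • z g⁻¹ + z s) + z g by rw [mul_assoc, hz, hz],
      mul_smul, mul_smul, show z g = -(g • z g⁻¹) from eq_neg_of_add_eq_zero_right h1]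
    rw [smul_neg, inv_smul_smul, smul_neg, smul_neg, smul_add]
    abel
  have hℓg : ℓ (g • z s) = (j : k) * ℓ (z s) := by
    have := congrArg ℓ hexp
    rw [hℓadd, hℓadd, hℓinv _ j hρj, hsame, hℓpow] at this
    exact (add_right_cancel this).symm
  -- the conjugate of `N`
  have hgN : conjAct ρ g N = (j : k) • N := by
    have e := hρs (g * s * g⁻¹) j hρj
    rw [map_mul, map_mul, Units.val_mul, Units.val_mul, hs1] at e
    rw [conjAct]
    rw [Matrix.mul_add, Matrix.mul_one, Matrix.add_mul, val_mul_val_inv] at e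
    exact add_left_cancel e
  have hzero : ℓ (z s) = 0 := by
    have e : (j : k) * ℓ (g • z s) = (ρ g).val.det * ℓ (z s) := by
      show (j : k) * (N * (g • z s).mat).trace = _ * (N * (z s).mat).trace
      rw [← trace_conjAct_mul ρ g N (z s).mat, hgN, mat_smul, Matrix.mul_smul, Matrix.smul_mul,
        trace_smul, trace_smul, smul_eq_mul, smul_eq_mul]
      ring
    rw [hℓg] at e
    have hne : (ρ g).val.det - (j : k) * (j : k) ≠ 0 := by
      intro e'
      refine hsq ⟨(j : ZMod p), ι.injective ?_⟩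
      rw [← h.det_map, map_mul, map_natCast]
      exact sub_eq_zero.1 e'
    have : ((ρ g).val.det - (j : k) * (j : k)) * ℓ (z s) = 0 := by linear_combination -e
    exact (mul_eq_zero.1 this).resolve_left hne
  obtain ⟨A, hA, hAW⟩ := exists_unipotent_sub_eq h2 hNne hN2 hNt (z s).trace_mat hzero
  refine ⟨AdTw.mk A hA, AdTw.ext' ?_⟩
  rw [AdTw.mat_sub, mat_smul, hdet1 s 1 (pow_one u).symm, one_smul, AdTw.mat_mk, conjAct,
    show (ρ s⁻¹).val = 1 - N from ?_, hs1, hAW]
  calc (ρ s⁻¹).val = (ρ s⁻¹).val * ((1 + N) * (1 - N)) := by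
        rw [show (1 + N) * (1 - N) = 1 by
          rw [Matrix.add_mul, Matrix.one_mul, Matrix.mul_sub, Matrix.mul_one, hN2]; abel,
          Matrix.mul_one]
    _ = _ := by rw [← Matrix.mul_assoc, ← hs1, val_inv_mul_val, Matrix.one_mul]

end Fermat.Agent.SelmerTW

end
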