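import Fermat.Agent.Duality.Places.LocZero
import Fermat.Agent.Duality.PlaceSum
import Fermat.Agent.EulerChar.Lattice
import Fermat.Agent.Gal.Tame
import Fermat.Agent.Gal.Decomposition
import Fermat.Agent.EulerChar.Formula

/-!
# Local classes at a prime different from `p` where the module is unramified

Classes are determined by the values at a tame generator and at a Frobenius element; this bounds
the local cohomology and its quotient by the unramified classes.
-/

set_option autoImplicit false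

noncomputable section

open NumberField IsDedekindDomain IntermediateField
open scoped Pointwise

namespace Fermat.Agent.SelmerTW

open Duality

/-- Two classes agreeing on a finite normal extension. -/
theorem inv_mul_mem_fixingSubgroup {L : IntermediateField ℚ Qbar} {a b : GalQ}
    (h : ∀ x ∈ L, a x = b x) : b⁻¹ * a ∈ L.fixingSubgroup :=
  (IntermediateField.mem_fixingSubgroup_iff L _).2 fun x hx => by
    rw [AlgEquiv.mul_apply, h x hx, AlgEquiv.aut_inv, AlgEquiv.symm_apply_apply]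

variable (q : ℕ) [Fact q.Prime] (X : Type) [AddCommGroup X] [DistribMulAction (GalLoc q) X]

/-- A local module on which inertia acts trivially. -/
structure IsUnramModule : Prop where
  smooth : Coh.IsSmooth (galLevels ℚ_[q] (PadicAlgCl q)) X
  inertia : ∀ d : GalLoc q, d ∈ inertiaLoc q → ∀ x : X, d • x = x

/-- Local classes vanishing on inertia. -/
def unrCl : AddSubgroup (Coh.H1 (galLevels ℚ_[q] (PadicAlgCl q)) X) :=
  AddSubgroup.map Coh.H1.mk
    { carrier := {z | ∀ d : GalLoc q, d ∈ inertiaLoc q → (z : GalLoc q → X) d = 0}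
      zero_mem' := fun _ _ => rfl
      add_mem' := fun {z w} hz hw d hd => by
        show (z : GalLoc q → X) d + (w : GalLoc q → X) d = 0
        rw [hz d hd, hw d hd, add_zero]
      neg_mem' := fun {z} hz d hd => by
        show -(z : GalLoc q → X) d = 0
        rw [hz d hd, neg_zero] }

variable {q X}

theorem IsUnramModule.smul_of_mem_inertiaLoc (hX : IsUnramModule q X) {d : GalLoc q}
    (hd : d ∈ inertiaLoc q) (x : X) : d • x = x :=
  hX.inertia d hd x

/-- Unramified classes vanish on inertia in every representative. -/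
theorem mk_mem_unrCl_iff (hX : IsUnramModule q X)
    (z : Coh.Z1 (galLevels ℚ_[q] (PadicAlgCl q)) X) :
    Coh.H1.mk z ∈ unrCl q X ↔ ∀ d : GalLoc q, d ∈ inertiaLoc q → (z : GalLoc q → X) d = 0 := by
  refine ⟨?_, fun h => ⟨z, h, rfl⟩⟩
  rintro ⟨w, hw, hwz⟩ d hd
  obtain ⟨a, ha⟩ := Coh.H1.mk_eq_mk.mp hwz
  have h1 := ha d
  rw [hX.smul_of_mem_inertiaLoc hd, sub_self] at h1
  have hw' : (w : GalLoc q → X) d = 0 := hw d hd
  rw [hw'] at h1
  simpa using h1.symm

/-- A local cochain is constant on the cosets of the elements fixing some number field. -/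
theorem exists_globalLevel {Z : Type} {f : GalLoc q → Z}
    (hf : Coh.IsConst₁ (galLevels ℚ_[q] (PadicAlgCl q)) f) :
    ∃ L : IntermediateField ℚ Qbar, FiniteDimensional ℚ L ∧ Normal ℚ L ∧
      ∀ d s : GalLoc q, localGaloisToGlobal q s ∈ L.fixingSubgroup → f (d * s) = f d := by
  obtain ⟨U, ⟨E, hE, hEU⟩, hfU⟩ := hf
  have := hE
  obtain ⟨F, hF, hFE⟩ := Places.exists_localField_eq q E
  have := hF
  refine ⟨IntermediateField.normalClosure ℚ F Qbar, inferInstance, normalClosure.normal ℚ F Qbar,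
    fun d s hs => hfU d s (hEU ?_)⟩
  rw [← hFE, Places.fixingSubgroup_localField]
  exact IntermediateField.fixingSubgroup_antitone F.le_normalClosure hs

/-- A finite family of locally constant cochains is jointly locally constant. -/
theorem isConst₁_pi {G : Type} [Group G] {𝓛 : Coh.Levels G} {ι : Type} [Finite ι] {Z : Type}
    {f : ι → G → Z} (hf : ∀ i, Coh.IsConst₁ 𝓛 (f i)) : Coh.IsConst₁ 𝓛 fun g i => f i g := by
  classical
  cases nonempty_fintype ι
  suffices h : ∀ s : Finset ι, ∃ U, 𝓛.ok U ∧ ∀ i ∈ s, ∀ g, ∀ u ∈ U, f i (g * u) = f i g by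
    obtain ⟨U, hU, h⟩ := h Finset.univ
    exact ⟨U, hU, fun g u hu => funext fun i => h i (Finset.mem_univ i) g u hu⟩
  intro s
  induction s using Finset.induction_on with
  | empty => exact ⟨⊤, 𝓛.top_ok, by simp⟩
  | insert i s _ ih =>
    obtain ⟨U, hU, h⟩ := ih
    obtain ⟨V, hV, h'⟩ := hf i
    refine ⟨U ⊓ V, 𝓛.inf_ok hU hV, fun j hj g u hu => ?_⟩
    rcases Finset.mem_insert.mp hj with rfl | hj
    · exact h' g u hu.2
    · exact h j hj g u hu.1

variable {p : ℕ} [Fact p.Prime] [Finite X] (hpX : ∀ x : X, p • x = 0) (hqp : q ≠ p)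

omit [Fact p.Prime] [Finite X] in
theorem coe_pow_smul (d : GalLoc q) (z : Coh.Z1 (galLevels ℚ_[q] (PadicAlgCl q)) X)
    (hd : ∀ x : X, d • x = x) (m : ℕ) :
    (z : GalLoc q → X) (d ^ m) = m • (z : GalLoc q → X) d := by
  have hz := (Coh.mem_Z1.mp z.2).2
  induction m with
  | zero =>
    have h := hz 1 1
    rw [mul_one, one_smul, left_eq_add] at h
    rw [pow_zero, zero_smul, h]
  | succ m ih => rw [pow_succ', hz, hd, ih, succ_nsmul]

include hpX hqp in
omit [Finite X] in
/-- A class vanishes on the kernel of the tame character of a field containing its level. -/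
theorem value_eq_zero_of_theta (hX : IsUnramModule q X)
    (z : Coh.Z1 (galLevels ℚ_[q] (PadicAlgCl q)) X) {L : IntermediateField ℚ Qbar}
    [FiniteDimensional ℚ L] [Normal ℚ L]
    (hLz : ∀ d s : GalLoc q, localGaloisToGlobal q s ∈ L.fixingSubgroup →
      (z : GalLoc q → X) (d * s) = (z : GalLoc q → X) d)
    (π : Qbarˣ) (hπ : (π : Qbar) ∈ L)
    (hdec : ∀ x : Qbarˣ, (x : Qbar) ∈ L → ∃ k : ℤ, x / π ^ k ∈ (padicPlace q).unitGroup)
    {d : GalLoc q} (hd : d ∈ inertiaLoc q)
    (hθ : Gal.Tame.theta (padicPlace q) L π hπ ⟨localGaloisToGlobal q d, hd⟩ = 1) :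
    (z : GalLoc q → X) d = 0 := by
  classical
  have hq : q.Prime := Fact.out
  have hA := Places.liesOverPrime_padicPlace q
  set A := padicPlace q
  have hz := (Coh.mem_Z1.mp z.2).2
  have hz1 : (z : GalLoc q → X) 1 = 0 := by
    have h := hz 1 1
    rwa [mul_one, one_smul, left_eq_add] at h
  let θ := Gal.Tame.theta A L π hπ
  have hprin : ∀ σ : A.inertiaSubgroupIn ℚ, θ σ = 1 → ∀ x : Qbarˣ, (x : Qbar) ∈ L →
      Gal.Tame.twist (σ : GalQ) x ∈ A.principalUnitGroup := by
    intro σ hσ x hx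
    obtain ⟨k, hk⟩ := hdec x hx
    have h1 := Gal.Tame.twist_mem_principal σ.2 hk
    have h2 := zpow_mem ((Gal.Tame.theta_eq_one_iff A L π hπ σ).1 hσ) k
    have h3 := mul_mem h1 h2
    rwa [← map_zpow, ← map_mul, div_mul_cancel] at h3
  have hstep : ∀ a : ℕ, ∀ σ : A.inertiaSubgroupIn ℚ, θ σ = 1 →
      (∀ x ∈ L, ((σ : GalQ) ^ p ^ a) x = x) → ∀ x ∈ L, (σ : GalQ) x = x := by
    intro a
    induction a with
    | zero => intro σ _ h; simpa using h
    | succ a ih =>
      intro σ hσ h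
      have h1 : ∀ x ∈ L, ((σ ^ p : A.inertiaSubgroupIn ℚ) : GalQ) x = x :=
        ih (σ ^ p) (by rw [map_pow, hσ, one_pow]) fun x hx => by
          rw [Subgroup.coe_pow, ← pow_mul, ← pow_succ']
          exact h x hx
      refine Gal.Tame.fixes_of_pow_fixes hq hA L (r := p) (fun hd => hqp
        ((Nat.prime_dvd_prime_iff_eq hq Fact.out).1 hd)) (fun i x hx => ?_) fun x hx => ?_
      · rw [← Subgroup.coe_pow]
        exact hprin _ (by rw [map_pow, hσ, one_pow]) x hx
      · rw [← Subgroup.coe_pow]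
        exact h1 x hx
  obtain ⟨a, m, hm, hn⟩ := Nat.exists_eq_pow_mul_and_not_dvd
    (Nat.card_pos : 0 < Nat.card (L ≃ₐ[ℚ] L)).ne' p (Fact.out : p.Prime).ne_one
  have hfix := hstep a ((⟨localGaloisToGlobal q d, hd⟩ : A.inertiaSubgroupIn ℚ) ^ m)
    (by rw [map_pow, hθ, one_pow]) fun x hx => by
    rw [Subgroup.coe_pow, ← pow_mul, mul_comm, ← hn]
    exact Gal.Tame.pow_card_apply L _ hx
  have h1 : m • (z : GalLoc q → X) d = 0 := by
    rw [← coe_pow_smul d z (hX.smul_of_mem_inertiaLoc hd), ← hz1,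
      show d ^ m = 1 * d ^ m from (one_mul _).symm, hLz 1 (d ^ m) ?_]
    rw [map_pow, IntermediateField.mem_fixingSubgroup_iff]
    intro x hx
    have := hfix x hx
    rwa [Subgroup.coe_pow] at this
  have hord := Nat.dvd_gcd (addOrderOf_dvd_of_nsmul_eq_zero h1)
    (addOrderOf_dvd_of_nsmul_eq_zero (hpX ((z : GalLoc q → X) d)))
  rwa [((Fact.out : p.Prime).coprime_iff_not_dvd.mpr hm).symm.gcd_eq_one, Nat.dvd_one,
    AddMonoid.addOrderOf_eq_one_iff] at hord

include hpX hqp in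
omit [Finite X] in
/-- **A tame generator for finitely many cocycles.** -/
theorem exists_tame_element (hX : IsUnramModule q X)
    {ι : Type} [Finite ι] (z : ι → Coh.Z1 (galLevels ℚ_[q] (PadicAlgCl q)) X) :
    ∃ t : GalLoc q, t ∈ inertiaLoc q ∧ ∀ d : GalLoc q, d ∈ inertiaLoc q →
      ∃ k : ℤ, ∀ i, (z i : GalLoc q → X) d = k • (z i : GalLoc q → X) t := by
  classical
  have hq : q.Prime := Fact.out
  have hA := Places.liesOverPrime_padicPlace q
  set A := padicPlace q
  obtain ⟨L, hL, hLn, hLz⟩ := exists_globalLevel (f := fun d i => (z i : GalLoc q → X) d)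
    (isConst₁_pi fun i => (z i).2.1)
  have := hL
  have := hLn
  have : NumberField L := ⟨⟩
  obtain ⟨π, hπ, hdec⟩ := Gal.Tame.exists_uniformiser hq hA L
  let θ := Gal.Tame.theta A L π hπ
  have hmem : ∀ σ : A.inertiaSubgroupIn ℚ, ∃ d : GalLoc q, localGaloisToGlobal q d = σ :=
    fun σ => by
    have h : (σ : GalQ) ∈ A.decompositionSubgroup ℚ := ((Gal.mem_inertia_iff A (σ : GalQ)).1 σ.2).1
    rw [← Places.range_localGaloisToGlobal] at h
    exact h
  choose lift hlift using hmem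
  have hliftI : ∀ σ, lift σ ∈ inertiaLoc q := fun σ => by
    show localGaloisToGlobal q (lift σ) ∈ A.inertiaSubgroupIn ℚ
    rw [hlift]
    exact σ.2
  have := Gal.Tame.isCyclic_range_theta A L π hπ
  obtain ⟨⟨g, τ, rfl⟩, hg⟩ := IsCyclic.exists_generator (α := θ.range)
  refine ⟨lift τ, hliftI τ, fun d hd => ?_⟩
  obtain ⟨k, hk⟩ := Subgroup.mem_zpowers_iff.1
    (hg ⟨θ ⟨localGaloisToGlobal q d, hd⟩, ⟨_, hd⟩, rfl⟩)
  have hk' : θ τ ^ k = θ ⟨localGaloisToGlobal q d, hd⟩ := congrArg Subtype.val hk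
  refine ⟨k, fun i => ?_⟩
  have hz := (Coh.mem_Z1.mp (z i).2).2
  have hz1 : (z i : GalLoc q → X) 1 = 0 := by
    have h := hz 1 1
    rwa [mul_one, one_smul, left_eq_add] at h
  have hfixlift : ∀ x : X, lift τ • x = x := hX.smul_of_mem_inertiaLoc (hliftI τ)
  have hzpow : ∀ j : ℤ, (z i : GalLoc q → X) (lift τ ^ j) = j • (z i : GalLoc q → X) (lift τ) := by
    intro j
    induction j using Int.induction_on with
    | zero => rw [zpow_zero, zero_smul, hz1]
    | succ n ih => rw [zpow_add, zpow_one, hz,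
        hX.smul_of_mem_inertiaLoc (zpow_mem (hliftI τ) _), ih,
        add_smul, one_smul, add_comm]
    | pred n ih =>
      have hi : (z i : GalLoc q → X) (lift τ)⁻¹ = -(z i : GalLoc q → X) (lift τ) := by
        have h := hz (lift τ) (lift τ)⁻¹
        rw [mul_inv_cancel, hz1, hfixlift] at h
        exact eq_neg_of_add_eq_zero_left h.symm
      rw [sub_eq_add_neg, zpow_add, zpow_neg_one, hz,
        hX.smul_of_mem_inertiaLoc (zpow_mem (hliftI τ) _), ih, hi, add_smul, neg_smul (1 : ℤ),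
        one_smul, add_comm]
  have hd' : d * (lift τ ^ k)⁻¹ ∈ inertiaLoc q := mul_mem hd (inv_mem (zpow_mem (hliftI τ) k))
  have h := value_eq_zero_of_theta hpX hqp hX (z i)
    (fun d s hs => congrFun (hLz d s hs) i) π hπ hdec hd' (by
    rw [show (⟨localGaloisToGlobal q (d * (lift τ ^ k)⁻¹), hd'⟩ : A.inertiaSubgroupIn ℚ) =
        ⟨localGaloisToGlobal q d, hd⟩ * (τ ^ k)⁻¹ from Subtype.ext (by
          simp [map_mul, map_inv, map_zpow, hlift]), map_mul, map_inv, map_zpow, hk',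
      mul_inv_cancel])
  have h2 := hz (d * (lift τ ^ k)⁻¹) (lift τ ^ k)
  rw [inv_mul_cancel_right, hX.smul_of_mem_inertiaLoc hd', h, add_zero, hzpow] at h2
  exact h2

variable (p) in
/-- The elements on which `φ` acts by a power. -/
def eigSub {G : Type} [Group G] (Y : Type) [AddCommGroup Y] [DistribMulAction G Y] (φ : G) (m : ℕ) :
    AddSubgroup Y :=
  (DistribSMul.toAddMonoidHom Y φ - nsmulAddMonoidHom (α := Y) m).ker

omit [Fact q.Prime] [Finite X] in
theorem mem_eigSub {G : Type} [Group G] {Y : Type} [AddCommGroup Y] [DistribMulAction G Y] {φ : G}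
    {m : ℕ} {y : Y} : y ∈ eigSub Y φ m ↔ φ • y = m • y := sub_eq_zero

variable {φ : GalLoc q} (hφ : (padicPlace q).IsFrobeniusAt (localGaloisToGlobal q φ) q)

include hφ hpX hqp in
omit [Finite X] in
/-- The value at a tame element. -/
theorem value_mem_eigSub (hX : IsUnramModule q X)
    (z : Coh.Z1 (galLevels ℚ_[q] (PadicAlgCl q)) X) {t : GalLoc q} (ht : t ∈ inertiaLoc q) :
    (z : GalLoc q → X) t ∈ eigSub X φ q := by
  classical
  have hq : q.Prime := Fact.out
  have hA := Places.liesOverPrime_padicPlace q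
  have hz := (Coh.mem_Z1.mp z.2).2
  obtain ⟨L, hL, hLn, hLz⟩ := exists_globalLevel z.2.1
  have := hL
  have := hLn
  have : NumberField L := ⟨⟩
  obtain ⟨π, hπ, hdec⟩ := Gal.Tame.exists_uniformiser hq hA L
  have hφI := (Gal.isFrobeniusAt_iff _ _ q).1 hφ
  set A := padicPlace q
  set φ' := localGaloisToGlobal q φ with hφ'
  set τ := localGaloisToGlobal q t with hτ'
  have hτ : τ ∈ A.inertiaSubgroupIn ℚ := ht
  have hc' : φ' * τ * φ'⁻¹ ∈ A.inertiaSubgroupIn ℚ := by
    have := Gal.conj_mem_inertia hτ φ'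
    rwa [hφI.1] at this
  have hc : φ * t * φ⁻¹ ∈ inertiaLoc q := by
    show localGaloisToGlobal q (φ * t * φ⁻¹) ∈ A.inertiaSubgroupIn ℚ
    rwa [map_mul, map_mul, map_inv]
  let θ := Gal.Tame.theta A L π hπ
  have hθ : θ ⟨_, hc'⟩ = θ ⟨τ, hτ⟩ ^ q := by
    let y : Qbarˣ := Gal.Tame.twist φ'⁻¹ π * π
    have hy : ((y : Qbarˣ) : Qbar) = φ'⁻¹ (π : Qbar) := by
      simp only [y, Units.val_mul, Gal.Tame.coe_twist]
      exact div_mul_cancel₀ _ π.ne_zero
    have hu := Gal.Tame.twist_mem_unitGroup (inv_smul_eq_iff.2 hφI.1.symm) L hπ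
    have hwA := Gal.Tame.twist_mem_unitGroup ((Gal.mem_inertia_iff A τ).1 hτ).1 L hπ
    have hy1 : Gal.Tame.twist τ y ∈ A.unitGroup := by
      rw [map_mul]
      exact mul_mem (A.principal_units_le_units (Gal.Tame.twist_mem_principal hτ hu)) hwA
    have e2 : A.unitGroupToResidueFieldUnits ⟨Gal.Tame.twist τ y, hy1⟩ = θ ⟨τ, hτ⟩ := by
      refine Gal.Tame.residue_eq_of_sub_mem ?_
      change ((Gal.Tame.twist τ y : Qbarˣ) : Qbar) - ((Gal.Tame.twist τ π : Qbarˣ) : Qbar) ∈
        A.nonunits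
      rw [map_mul, Units.val_mul, ← sub_one_mul]
      exact Gal.mul_mem_nonunits_left A
        (Gal.Tame.mem_principal_iff.1 (Gal.Tame.twist_mem_principal hτ hu)) (Gal.Tame.val_mem hwA)
    rw [← e2, ← map_pow, Gal.Tame.theta_apply]
    refine Gal.Tame.residue_eq_of_sub_mem ?_
    change ((Gal.Tame.twist (φ' * τ * φ'⁻¹) π : Qbarˣ) : Qbar) -
      ((Gal.Tame.twist τ y ^ q : Qbarˣ) : Qbar) ∈ A.nonunits
    have h1 : ((Gal.Tame.twist (φ' * τ * φ'⁻¹) π : Qbarˣ) : Qbar) =
        φ' ((Gal.Tame.twist τ y : Qbarˣ) : Qbar) := by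
      rw [Gal.Tame.coe_twist, Gal.Tame.coe_twist, hy, map_div₀, AlgEquiv.mul_apply,
        AlgEquiv.mul_apply]
      congr 1
      exact (φ'.apply_symm_apply _).symm
    rw [h1, Units.val_pow_eq_pow_val]
    exact hφI.2 _ (Gal.Tame.val_mem hy1)
  have hd : φ * t * φ⁻¹ * (t ^ q)⁻¹ ∈ inertiaLoc q := mul_mem hc (inv_mem (pow_mem ht q))
  have h0 := value_eq_zero_of_theta hpX hqp hX z hLz π hπ hdec hd (by
    rw [show (⟨localGaloisToGlobal q (φ * t * φ⁻¹ * (t ^ q)⁻¹), hd⟩ : A.inertiaSubgroupIn ℚ) =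
        ⟨_, hc'⟩ * ((⟨τ, hτ⟩ : A.inertiaSubgroupIn ℚ) ^ q)⁻¹ from Subtype.ext (by
          simp [map_mul, map_inv, map_pow, hφ', hτ']), map_mul, map_inv, map_pow, hθ,
      mul_inv_cancel])
  have h1 : (z : GalLoc q → X) (φ * t * φ⁻¹) = q • (z : GalLoc q → X) t := by
    have h2 := hz (φ * t * φ⁻¹ * (t ^ q)⁻¹) (t ^ q)
    rwa [inv_mul_cancel_right, hX.smul_of_mem_inertiaLoc hd, h0, add_zero,
      coe_pow_smul t z (hX.smul_of_mem_inertiaLoc ht)] at h2
  rw [mem_eigSub]
  have h3 := hz (φ * t * φ⁻¹) φ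
  rw [inv_mul_cancel_right, hz φ t, hX.smul_of_mem_inertiaLoc hc, h1,
    add_comm _ ((z : GalLoc q → X) φ)] at h3
  exact add_left_cancel h3

include hφ in
/-- Every element agrees on a level with a power of Frobenius times inertia. -/
theorem exists_eq_frobenius_pow_mul (L : IntermediateField ℚ Qbar) [FiniteDimensional ℚ L]
    [Normal ℚ L] (d : GalLoc q) : ∃ (j : ℕ) (σ s : GalLoc q), σ ∈ inertiaLoc q ∧
      localGaloisToGlobal q s ∈ L.fixingSubgroup ∧ d = φ ^ j * σ * s := by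
  obtain ⟨j, σ, hσ, h⟩ := Gal.exists_pow_mul_inertia_eqOn (Fact.out : q.Prime) L
    (Places.liesOverPrime_padicPlace q) hφ
    (localGaloisToGlobal_mem_decompositionSubgroup q d)
  obtain ⟨σ', hσ'⟩ : ∃ d' : GalLoc q, localGaloisToGlobal q d' = σ := by
    have h' : σ ∈ (padicPlace q).decompositionSubgroup ℚ := ((Gal.mem_inertia_iff _ σ).1 hσ).1
    rw [← Places.range_localGaloisToGlobal] at h'
    exact h'
  refine ⟨j, σ', (φ ^ j * σ')⁻¹ * d, ?_, ?_, (mul_inv_cancel_left _ _).symm⟩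
  · show localGaloisToGlobal q σ' ∈ (padicPlace q).inertiaSubgroupIn ℚ
    rwa [hσ']
  · rw [map_mul, map_inv, map_mul, map_pow, hσ']
    exact inv_mul_mem_fixingSubgroup h

omit [Finite X] in
/-- There is a local Frobenius element. -/
theorem exists_local_frobenius (q : ℕ) [Fact q.Prime] :
    ∃ φ : GalLoc q, (padicPlace q).IsFrobeniusAt (localGaloisToGlobal q φ) q := by
  obtain ⟨F, hF⟩ := Gal.exists_isFrobeniusAt (Fact.out : q.Prime)
    (Places.liesOverPrime_padicPlace q)
  have h : F ∈ (padicPlace q).decompositionSubgroup ℚ := ((Gal.isFrobeniusAt_iff _ F q).1 hF).1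
  rw [← Places.range_localGaloisToGlobal] at h
  obtain ⟨φ, hφ⟩ := h
  exact ⟨φ, by rwa [hφ]⟩

include hφ in
omit [Finite X] in
/-- The invariants are cut out by inertia and Frobenius. -/
theorem mem_inv_of_frobenius (hX : IsUnramModule q X) {x : X} (hx : φ • x = x) :
    x ∈ Coh.inv (GalLoc q) X := fun d => by
  obtain ⟨L, hL, hLn, hLx⟩ := exists_globalLevel (hX.smooth.isConst₁_smul x)
  have := hL
  have := hLn
  obtain ⟨j, σ, s, hσ, hs, rfl⟩ := exists_eq_frobenius_pow_mul hφ L d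
  rw [hLx _ s hs, mul_smul, hX.inertia σ hσ]
  exact MulAction.mem_stabilizer_iff.1
    (pow_mem (show φ ∈ MulAction.stabilizer (GalLoc q) x from MulAction.mem_stabilizer_iff.2 hx) j)

include hφ in
omit [Finite X] in
/-- A cocycle is determined by inertia and Frobenius. -/
theorem value_eq_zero_of_frobenius
    (z : Coh.Z1 (galLevels ℚ_[q] (PadicAlgCl q)) X)
    (hI : ∀ d : GalLoc q, d ∈ inertiaLoc q → (z : GalLoc q → X) d = 0)
    (hz : (z : GalLoc q → X) φ = 0) (d : GalLoc q) : (z : GalLoc q → X) d = 0 := by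
  obtain ⟨L, hL, hLn, hLz⟩ := exists_globalLevel z.2.1
  have := hL
  have := hLn
  have hc := (Coh.mem_Z1.mp z.2).2
  obtain ⟨j, σ, s, hσ, hs, rfl⟩ := exists_eq_frobenius_pow_mul hφ L d
  have hj : ∀ j : ℕ, (z : GalLoc q → X) (φ ^ j) = 0 := by
    intro j
    induction j with
    | zero =>
      have h := hc 1 1
      rw [mul_one, one_smul, left_eq_add] at h
      rw [pow_zero, h]
    | succ j ih => rw [pow_succ, hc, ih, hz, smul_zero, add_zero]
  rw [hLz _ s hs, hc, hj, hI σ hσ, smul_zero, add_zero]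

omit [Fact p.Prime] [Finite X] in
/-- A bound on all finite subsets bounds the cardinality. -/
theorem finite_and_natCard_le {α : Type} {N : ℕ} (h : ∀ s : Finset α, s.card ≤ N) :
    Finite α ∧ Nat.card α ≤ N := by
  have : Finite α := by
    by_contra hc
    have := not_finite_iff_infinite.1 hc
    obtain ⟨s, hs⟩ := Infinite.exists_subset_card_eq α (N + 1)
    have := h s
    omega
  have : Fintype α := Fintype.ofFinite α
  exact ⟨inferInstance, by rw [Nat.card_eq_fintype_card]; exact h Finset.univ⟩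

include hφ hpX hqp in
/-- **Ramified classes are bounded by an eigenspace of Frobenius.** -/
theorem natCard_quot_unrCl_le (hX : IsUnramModule q X) :
    Finite (Coh.H1 (galLevels ℚ_[q] (PadicAlgCl q)) X ⧸ unrCl q X) ∧
      Nat.card (Coh.H1 (galLevels ℚ_[q] (PadicAlgCl q)) X ⧸ unrCl q X) ≤
        Nat.card (eigSub X φ q) := by
  refine finite_and_natCard_le fun s => ?_
  have hlift : ∀ c : {c // c ∈ s}, ∃ z : Coh.Z1 (galLevels ℚ_[q] (PadicAlgCl q)) X,
      QuotientAddGroup.mk' (unrCl q X) (Coh.H1.mk z) = c.1 := fun c => by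
    obtain ⟨y, hy⟩ := QuotientAddGroup.mk'_surjective (unrCl q X) c.1
    obtain ⟨z, rfl⟩ := Coh.H1.mk_surjective y
    exact ⟨z, hy⟩
  choose z hz using hlift
  obtain ⟨t, ht, hgen⟩ := exists_tame_element hpX hqp hX z
  let g : {c // c ∈ s} → eigSub X φ q := fun c =>
    ⟨(z c : GalLoc q → X) t, value_mem_eigSub hpX hqp hφ hX (z c) ht⟩
  have hg : Function.Injective g := fun c c' h => Subtype.ext (by
    rw [← hz c, ← hz c']
    refine QuotientAddGroup.eq.mpr ?_
    rw [← map_neg, ← map_add, mk_mem_unrCl_iff hX]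
    intro d hd
    obtain ⟨k, hk⟩ := hgen d hd
    show -(z c : GalLoc q → X) d + (z c' : GalLoc q → X) d = 0
    rw [hk c, hk c', show (z c : GalLoc q → X) t = (z c' : GalLoc q → X) t from
        congrArg Subtype.val h,
      neg_add_cancel])
  have := Nat.card_le_card_of_injective g hg
  rwa [Nat.card_eq_finsetCard] at this

/-- The range of `φ - 1`. -/
def coinvRange (φ : GalLoc q) (X : Type) [AddCommGroup X] [DistribMulAction (GalLoc q) X] :
    AddSubgroup X :=
  (DistribSMul.toAddMonoidHom X φ - AddMonoidHom.id X).range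

include hφ in
/-- **Unramified classes are bounded by the coinvariants of Frobenius.** -/
theorem natCard_unrCl_le (hX : IsUnramModule q X) :
    Finite (unrCl q X) ∧ Nat.card (unrCl q X) ≤ Nat.card (X ⧸ coinvRange φ X) := by
  have hlift : ∀ c : unrCl q X, ∃ z : Coh.Z1 (galLevels ℚ_[q] (PadicAlgCl q)) X,
      (∀ d : GalLoc q, d ∈ inertiaLoc q → (z : GalLoc q → X) d = 0) ∧ Coh.H1.mk z = c.1 :=
    fun c => c.2
  choose z hzI hz using hlift
  let g : unrCl q X → X ⧸ coinvRange φ X := fun c =>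
    QuotientAddGroup.mk' _ ((z c : GalLoc q → X) φ)
  have hg : Function.Injective g := fun c c' h => Subtype.ext (by
    obtain ⟨a, ha⟩ := QuotientAddGroup.eq.mp h
    have ha' : φ • a - a = -(z c : GalLoc q → X) φ + (z c' : GalLoc q → X) φ := ha
    rw [← hz c, ← hz c', Coh.H1.mk_eq_mk]
    refine ⟨-a, fun d => ?_⟩
    let w : Coh.Z1 (galLevels ℚ_[q] (PadicAlgCl q)) X :=
      z c' - z c - ⟨Coh.d₀ (GalLoc q) X a, Coh.d₀_mem_Z1 hX.smooth a⟩
    have hw : ∀ e : GalLoc q, (w : GalLoc q → X) e =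
        (z c' : GalLoc q → X) e - (z c : GalLoc q → X) e - (e • a - a) := fun e => rfl
    have h0 := value_eq_zero_of_frobenius hφ w (fun e he => by
      rw [hw, hzI c' e he, hzI c e he, hX.inertia e he, sub_self, sub_self, sub_self]) (by
      rw [hw, ha']; abel) d
    rw [hw, sub_eq_zero] at h0
    rw [smul_neg, show -(d • a) - -a = -(d • a - a) by abel, ← h0]
    abel)
  exact ⟨Finite.of_injective g hg, Nat.card_le_card_of_injective g hg⟩

omit [Fact p.Prime] in
/-- An endomorphism of a finite group has a kernel as large as its cokernel. -/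
theorem natCard_ker_eq_quot {Y : Type} [AddCommGroup Y] [Finite Y] (f : Y →+ Y) :
    Nat.card f.ker = Nat.card (Y ⧸ f.range) := by
  have h1 := AddSubgroup.card_eq_card_quotient_mul_card_addSubgroup f.ker
  rw [Nat.card_congr (QuotientAddGroup.quotientKerEquivRange f).toEquiv] at h1
  have h2 := AddSubgroup.card_eq_card_quotient_mul_card_addSubgroup f.range
  rw [mul_comm] at h2
  exact Nat.eq_of_mul_eq_mul_left (Nat.card_pos (α := f.range)) (h1.symm.trans h2)

include hpX in
/-- Comparison of exponents. -/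
theorem vcard_le_of_natCard_le {Y : Type} [AddCommGroup Y] [Finite Y] (hpY : ∀ y : Y, p • y = 0)
    (h : Nat.card X ≤ Nat.card Y) : EulerChar.vcard p X ≤ EulerChar.vcard p Y := by
  have hp : p.Prime := Fact.out
  have hpow : ∀ (Z : Type) [AddCommGroup Z] [Finite Z], (∀ z : Z, p • z = 0) →
      ∃ a : ℕ, Nat.card Z = p ^ a := fun Z _ _ hZ => by
    let : Module (ZMod p) Z := AddCommGroup.zmodModule hZ
    exact ⟨_, by rw [Module.natCard_eq_pow_finrank (K := ZMod p), Nat.card_zmod]⟩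
  obtain ⟨a, ha⟩ := hpow X hpX
  obtain ⟨b, hb⟩ := hpow Y hpY
  rw [ha, hb] at h
  rw [EulerChar.vcard, EulerChar.vcard, ha, hb, padicValNat.prime_pow, padicValNat.prime_pow]
  exact_mod_cast (Nat.pow_le_pow_iff_right hp.one_lt).1 h

section LocalTerm

include hqp in
omit [Finite X] in
/-- Inertia fixes the roots of unity. -/
theorem isUnramModule_Mu : IsUnramModule q (Mu p (PadicAlgCl q)) := by
  have : NeZero p := ⟨(Fact.out : p.Prime).ne_zero⟩
  refine ⟨isSmooth_Mu, fun d hd z => ?_⟩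
  obtain ⟨w, rfl⟩ := (muEmb_bijective (p := p) q).2 z
  rw [← isEquivariant_muEmb q d w]
  refine congrArg (muEmb q) (muVal_injective (Additive.toMul.injective (Units.ext ?_)))
  show (localGaloisToGlobal q d) (((muVal w).toMul : Qbarˣ) : Qbar) = _
  refine Gal.Tame.apply_eq_of_pow_eq_one (Fact.out : q.Prime) (Places.liesOverPrime_padicPlace q) hd
    (l := p) (fun h => hqp ((Nat.prime_dvd_prime_iff_eq Fact.out Fact.out).1 h)) ?_
  rw [← Units.val_pow_eq_pow_val, ← toMul_nsmul, nsmul_muVal, toMul_zero, Units.val_one]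

include hqp hφ in
omit [Finite X] in
/-- Frobenius acts on the roots of unity by the `q`-th power. -/
theorem frobenius_smul_Mu (z : Mu p (PadicAlgCl q)) : φ • z = q • z := by
  have : NeZero p := ⟨(Fact.out : p.Prime).ne_zero⟩
  obtain ⟨w, rfl⟩ := (muEmb_bijective (p := p) q).2 z
  rw [← isEquivariant_muEmb q φ w, ← map_nsmul]
  refine congrArg (muEmb q) (muVal_injective (Additive.toMul.injective (Units.ext ?_)))
  rw [map_nsmul, toMul_nsmul, Units.val_pow_eq_pow_val]
  show (localGaloisToGlobal q φ) (((muVal w).toMul : Qbarˣ) : Qbar) = _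
  refine Gal.apply_rootOfUnity_of_isFrobeniusAt hφ Fact.out (Places.liesOverPrime_padicPlace q)
    (m := p) (fun h => hqp ((Nat.prime_dvd_prime_iff_eq Fact.out Fact.out).1 h)) ?_
  rw [← Units.val_pow_eq_pow_val, ← toMul_nsmul, nsmul_muVal, toMul_zero, Units.val_one]

omit [Finite X] in
/-- Homomorphisms into an unramified module. -/
theorem IsUnramModule.hom {C : Type} [AddCommGroup C] [DistribMulAction (GalLoc q) C] [Finite X]
    (hX : IsUnramModule q X) (hC : IsUnramModule q C) : IsUnramModule q (Coh.HomMod X C) :=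
  ⟨Coh.HomMod.isSmooth hX.smooth hC.smooth, fun d hd f => Coh.HomMod.ext fun x => by
    rw [Coh.HomMod.smul_apply, hX.inertia _ (inv_mem hd), hC.inertia _ hd]⟩

include hpX hqp hφ in
/-- The eigenspace is bounded by the local term of the Euler characteristic. -/
theorem natCard_eigSub_le (hX : IsUnramModule q X) :
    Nat.card (eigSub X φ q) ≤
      Nat.card (Coh.inv (GalLoc q) (Coh.HomMod X (Mu p (PadicAlgCl q)))) := by
  have : NeZero p := ⟨(Fact.out : p.Prime).ne_zero⟩
  set f := DistribSMul.toAddMonoidHom X φ - nsmulAddMonoidHom (α := X) q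
  have hW : ∀ y : X ⧸ f.range, p • y = 0 := fun y => by
    obtain ⟨x, rfl⟩ := QuotientAddGroup.mk_surjective y
    rw [← QuotientAddGroup.mk_nsmul, hpX, QuotientAddGroup.mk_zero]
  rw [show Nat.card (eigSub X φ q) = Nat.card f.ker from rfl, natCard_ker_eq_quot,
    ← EulerChar.natCard_hom_zmod p _ hW]
  let e : ZMod p ≃+ Mu p (PadicAlgCl q) := EulerChar.muZMod.symm.trans (muEquiv q)
  have : Finite (Mu p (PadicAlgCl q)) := Finite.of_equiv _ e.toEquiv
  have hY := hX.hom (isUnramModule_Mu (p := p) hqp)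
  let g : (X ⧸ f.range →+ ZMod p) → Coh.inv (GalLoc q) (Coh.HomMod X (Mu p (PadicAlgCl q))) :=
    fun χ => ⟨Coh.HomMod.of (e.toAddMonoidHom.comp (χ.comp (QuotientAddGroup.mk' f.range))),
      mem_inv_of_frobenius hφ hY (Coh.HomMod.ext fun x => by
        rw [Coh.HomMod.smul_apply]
        show φ • e (χ (QuotientAddGroup.mk' f.range (φ⁻¹ • x))) = e (χ (QuotientAddGroup.mk' _ x))
        rw [frobenius_smul_Mu hqp hφ, ← map_nsmul, ← map_nsmul, ← map_nsmul]
        refine congrArg e (congrArg χ (QuotientAddGroup.eq.mpr ⟨φ⁻¹ • x, ?_⟩))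
        show φ • φ⁻¹ • x - q • φ⁻¹ • x = _
        rw [smul_inv_smul]
        abel)⟩
  have : Finite (Coh.HomMod X (Mu p (PadicAlgCl q))) :=
    Finite.of_injective _ DFunLike.coe_injective
  refine Nat.card_le_card_of_injective g fun χ χ' h => AddMonoidHom.ext fun y => ?_
  obtain ⟨x, rfl⟩ := QuotientAddGroup.mk_surjective y
  exact e.injective (DFunLike.congr_fun (congrArg Subtype.val h) x :)

include hpX hqp in
/-- **Ramified classes are bounded by the local term of the Euler characteristic.** -/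
theorem vcard_quot_unrCl_le (hX : IsUnramModule q X) :
    Finite (Coh.H1 (galLevels ℚ_[q] (PadicAlgCl q)) X ⧸ unrCl q X) ∧
      EulerChar.vcard p (Coh.H1 (galLevels ℚ_[q] (PadicAlgCl q)) X ⧸ unrCl q X) ≤
        EulerChar.vcard p (Coh.inv (GalLoc q) (Coh.HomMod X (Mu p (PadicAlgCl q)))) := by
  obtain ⟨φ, hφ⟩ := exists_local_frobenius q
  obtain ⟨hfin, hle⟩ := natCard_quot_unrCl_le hpX hqp hφ hX
  have := hfin
  have : NeZero p := ⟨(Fact.out : p.Prime).ne_zero⟩
  have : Finite (Mu p (PadicAlgCl q)) :=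
    Finite.of_equiv _ (EulerChar.muZMod.symm.trans (muEquiv q)).toEquiv
  have : Finite (Coh.HomMod X (Mu p (PadicAlgCl q))) :=
    Finite.of_injective _ DFunLike.coe_injective
  refine ⟨hfin, vcard_le_of_natCard_le (fun y => ?_)
    (fun f => Subtype.ext (Coh.HomMod.torsion torsion_Mu f.1))
    (hle.trans (natCard_eigSub_le hpX hqp hφ hX))⟩
  obtain ⟨x, rfl⟩ := QuotientAddGroup.mk_surjective y
  rw [← QuotientAddGroup.mk_nsmul, Coh.H1.torsion hpX, QuotientAddGroup.mk_zero]

include hpX hqp hφ in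
/-- **All classes at a prime of good reduction.** -/
theorem vcard_H1_le (hX : IsUnramModule q X) :
    Finite (Coh.H1 (galLevels ℚ_[q] (PadicAlgCl q)) X) ∧
      EulerChar.vcard p (Coh.H1 (galLevels ℚ_[q] (PadicAlgCl q)) X) ≤
        EulerChar.vcard p (EulerChar.fixAt φ X) +
          EulerChar.vcard p (Coh.inv (GalLoc q) (Coh.HomMod X (Mu p (PadicAlgCl q)))) := by
  obtain ⟨hq1, hq2⟩ := vcard_quot_unrCl_le hpX hqp hX
  obtain ⟨hu1, hu2⟩ := natCard_unrCl_le hφ hX
  have := hq1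
  have := hu1
  have hfin : Finite (Coh.H1 (galLevels ℚ_[q] (PadicAlgCl q)) X) :=
    Finite.of_addSubgroup_quotient (unrCl q X)
  refine ⟨hfin, ?_⟩
  let π : Coh.H1 (galLevels ℚ_[q] (PadicAlgCl q)) X →+
      Coh.H1 (galLevels ℚ_[q] (PadicAlgCl q)) X ⧸ unrCl q X := QuotientAddGroup.mk' (unrCl q X)
  have h1 : ∀ a : unrCl q X, π ((unrCl q X).subtype a) = 0 := fun a =>
    (QuotientAddGroup.eq_zero_iff _).2 a.2
  have h2 : ∀ b, π b = 0 → ∃ a, (unrCl q X).subtype a = b := fun b hb =>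
    ⟨⟨b, (QuotientAddGroup.eq_zero_iff b).1 hb⟩, rfl⟩
  have h3 := EulerChar.vcard_shortExact p
    (C := Coh.H1 (galLevels ℚ_[q] (PadicAlgCl q)) X ⧸ unrCl q X)
    (unrCl q X).subtype π
  rw [h3 Subtype.val_injective (QuotientAddGroup.mk'_surjective (unrCl q X)) h1 h2]
  refine add_le_add ?_ hq2
  have : Finite (EulerChar.fixAt φ X) := inferInstance
  refine vcard_le_of_natCard_le (fun y => Subtype.ext (Coh.H1.torsion hpX _))
    (fun y => Subtype.ext (hpX _)) (hu2.trans_eq ?_)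
  rw [coinvRange, ← natCard_ker_eq_quot]
  refine Nat.card_congr (Equiv.subtypeEquivRight fun x => ?_)
  show φ • x - x = 0 ↔ φ • x = x
  exact sub_eq_zero

end LocalTerm

section Orth

variable {M₁ M₂ C : Type} [AddCommGroup M₁] [DistribMulAction (GalLoc q) M₁] [AddCommGroup M₂]
  [DistribMulAction (GalLoc q) M₂] [AddCommGroup C] [DistribMulAction (GalLoc q) C]

omit [Finite X] in
/-- **Unramified classes pair to zero.** -/
theorem cup_unr_eq_zero {P : M₁ →+ M₂ →+ C} (hP : Coh.IsPairing (G := GalLoc q) P) [Finite M₂]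
    [Finite C] (h₂ : IsUnramModule q M₂) (hC : IsUnramModule q C) (hpC : ∀ c : C, p • c = 0)
    (a : Coh.Z1 (galLevels ℚ_[q] (PadicAlgCl q)) M₁)
    (b : Coh.Z1 (galLevels ℚ_[q] (PadicAlgCl q)) M₂)
    (ha : ∀ d : GalLoc q, d ∈ inertiaLoc q → (a : GalLoc q → M₁) d = 0)
    (hb : ∀ d : GalLoc q, d ∈ inertiaLoc q → (b : GalLoc q → M₂) d = 0) :
    Coh.cup₁₁ hP h₂.smooth (Coh.H1.mk a) (Coh.H1.mk b) = 0 := by
  classical
  obtain ⟨φ, hφ⟩ := exists_local_frobenius q
  have hq : q.Prime := Fact.out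
  set loc := localGaloisToGlobal q
  obtain ⟨L, hL, hLn, hLf⟩ := exists_globalLevel
    (f := fun d : GalLoc q => ((a : GalLoc q → M₁) d, ((b : GalLoc q → M₂) d,
      ((fun m : M₂ => d • m), (fun c : C => d • c)))))
    (a.2.1.comp₂ (b.2.1.comp₂ ((isConst₁_pi fun m => h₂.smooth.isConst₁_smul m).comp₂
      (isConst₁_pi fun c => hC.smooth.isConst₁_smul c) Prod.mk) Prod.mk) Prod.mk)
  have := hL
  have := hLn
  set N := orderOf (AlgEquiv.restrictNormalHom L (loc φ))
  have hN : 0 < N := orderOf_pos _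
  set m := q ^ N - 1
  have hm1 : 1 ≤ q ^ N := Nat.one_le_pow _ _ hq.pos
  have hm0 : m ≠ 0 := by
    have : 1 < q ^ N := Nat.one_lt_pow hN.ne' hq.one_lt
    omega
  have hqm : ¬ q ∣ m := fun h => by
    have h2 := Nat.dvd_sub (dvd_pow_self q hN.ne') h
    rw [show q ^ N - m = 1 by omega] at h2
    exact hq.not_dvd_one h2
  have : NeZero m := ⟨hm0⟩
  obtain ⟨ζ, hζ⟩ := HasEnoughRootsOfUnity.exists_primitiveRoot Qbar m
  set S' : Finset Nat.Primes := m.primeFactors.attach.image
    fun r => ⟨r.1, Nat.prime_of_mem_primeFactors r.2⟩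
  have hqS' : (⟨q, Fact.out⟩ : Nat.Primes) ∉ S' := by
    intro h
    obtain ⟨r, -, hr⟩ := Finset.mem_image.1 h
    refine hqm ?_
    rw [← show r.1 = q from congrArg (fun u : Nat.Primes => (u : ℕ)) hr]
    exact Nat.dvd_of_mem_primeFactors r.2
  have hE : (ℚ⟮ζ⟯).IsUnramifiedOutside S' := Places.isUnramifiedOutside_adjoin_root hζ.pow_eq_one
    hm0 S' fun r hr => Finset.mem_image.2
      ⟨⟨r, Nat.mem_primeFactors.2 ⟨r.2, hr, hm0⟩⟩, Finset.mem_attach _ _, rfl⟩
  have : FiniteDimensional ℚ ℚ⟮ζ⟯ := hE.1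
  set M := IntermediateField.normalClosure ℚ (L ⊔ ℚ⟮ζ⟯ : IntermediateField ℚ Qbar) Qbar
  have : Normal ℚ M := normalClosure.normal ℚ _ Qbar
  have : FiniteDimensional ℚ M := normalClosure.is_finiteDimensional ℚ _ Qbar
  have hLM : L ≤ M := le_sup_left.trans (IntermediateField.le_normalClosure _)
  have hζM : ζ ∈ M := IntermediateField.le_normalClosure _
    ((le_sup_right : ℚ⟮ζ⟯ ≤ L ⊔ ℚ⟮ζ⟯) (mem_adjoin_simple_self ℚ ζ))
  -- an element fixing `ζ` acts trivially
  have htriv : ∀ s : GalLoc q, loc s ∈ (ℚ⟮ζ⟯).fixingSubgroup →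
      (a : GalLoc q → M₁) s = 0 ∧ (b : GalLoc q → M₂) s = 0 ∧ (∀ x : M₂, s • x = x) ∧
        ∀ c : C, s • c = c := by
    intro s hs
    obtain ⟨j, σ, s', hσ, hs', rfl⟩ := exists_eq_frobenius_pow_mul hφ M s
    obtain ⟨u, hu⟩ : N ∣ j := by
      have h1 := (IntermediateField.mem_fixingSubgroup_iff _ _).1 hs ζ
        (IntermediateField.mem_adjoin_simple_self ℚ ζ)
      rw [map_mul, map_mul, map_pow, AlgEquiv.mul_apply, AlgEquiv.mul_apply,
        (IntermediateField.mem_fixingSubgroup_iff _ _).1 hs' ζ hζM,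
        Gal.Tame.apply_eq_of_pow_eq_one hq (Places.liesOverPrime_padicPlace q) hσ hqm
          hζ.pow_eq_one,
        Places.apply_pow_rootOfUnity q hφ (Places.liesOverPrime_padicPlace q) hqm
          hζ.pow_eq_one] at h1
      have h2 : ζ ^ (q ^ j - 1) = 1 := mul_right_cancel₀ (hζ.ne_zero hm0) (by
        rw [← pow_succ, Nat.sub_add_cancel (Nat.one_le_pow j _ hq.pos), h1, one_mul])
      have h3 : m ∣ q ^ j - 1 := (hζ.pow_eq_one_iff_dvd _).1 h2
      have h4 := Nat.gcd_eq_left h3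
      rw [show m = q ^ N - 1 from rfl, Nat.pow_sub_one_gcd_pow_sub_one] at h4
      have h5 : N.gcd j = N := Nat.pow_right_injective hq.two_le (by
        have := Nat.one_le_pow (N.gcd j) q hq.pos
        show q ^ N.gcd j = q ^ N
        omega)
      rw [← h5]
      exact Nat.gcd_dvd_right N j
    subst hu
    have hφ1 : loc (φ ^ (N * u)) ∈ L.fixingSubgroup := by
      rw [map_pow, pow_mul]
      refine pow_mem ((IntermediateField.mem_fixingSubgroup_iff L _).2 fun x hx => ?_) u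
      have h := AlgEquiv.restrictNormal_commutes (loc φ ^ N) L ⟨x, hx⟩
      rw [show (loc φ ^ N).restrictNormal L = 1 from
        (map_pow (AlgEquiv.restrictNormalHom L) (loc φ) N).trans (pow_orderOf_eq_one _)] at h
      exact h.symm
    have key : ∀ d, ((a : GalLoc q → M₁) (d * σ * s'), ((b : GalLoc q → M₂) (d * σ * s'),
        ((fun x : M₂ => (d * σ * s') • x), (fun c : C => (d * σ * s') • c)))) =
        ((a : GalLoc q → M₁) (d * σ), ((b : GalLoc q → M₂) (d * σ),
        ((fun x : M₂ => (d * σ) • x), (fun c : C => (d * σ) • c)))) := fun d =>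
      hLf _ s' (IntermediateField.fixingSubgroup_antitone hLM hs')
    have key' := hLf 1 _ hφ1
    simp only [Prod.mk.injEq, one_mul, funext_iff] at key key'
    obtain ⟨ka, kb, k2, kc⟩ := key (φ ^ (N * u))
    obtain ⟨ka', kb', k2', kc'⟩ := key'
    have hca := (Coh.mem_Z1.mp a.2).2
    have hcb := (Coh.mem_Z1.mp b.2).2
    have h1a := hca 1 1
    have h1b := hcb 1 1
    rw [mul_one, one_smul, left_eq_add] at h1a h1b
    refine ⟨?_, ?_, fun x => ?_, fun c => ?_⟩
    · rw [ka, hca, ha σ hσ, smul_zero, zero_add, ka', h1a]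
    · rw [kb, hcb, hb σ hσ, smul_zero, zero_add, kb', h1b]
    · rw [k2, mul_smul, h₂.inertia σ hσ, k2', one_smul]
    · rw [kc, mul_smul, hC.inertia σ hσ, kc', one_smul]
  set z := Coh.Z1.cup hP h₂.smooth a b
  have hconst : ∀ x y s t : GalLoc q, loc s ∈ (ℚ⟮ζ⟯).fixingSubgroup →
      loc t ∈ (ℚ⟮ζ⟯).fixingSubgroup →
      (z : GalLoc q → GalLoc q → C) (x * s) (y * t) = (z : GalLoc q → GalLoc q → C) x y := by
    intro x y s t hs ht
    obtain ⟨s1, -, s3, -⟩ := htriv s hs
    obtain ⟨-, t2, -, -⟩ := htriv t ht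
    rw [Coh.Z1.cup_apply, Coh.Z1.cup_apply, (Coh.mem_Z1.mp a.2).2, s1,
      (Coh.mem_Z1.mp b.2).2 y t, t2, smul_zero, zero_add, smul_zero, zero_add, mul_smul, s3]
  let D : Subgroup (GalLoc q) := ⊤
  have hcompat : ((galLevels ℚ_[q] (PadicAlgCl q)).restrict D).Compat
      (galLevels ℚ_[q] (PadicAlgCl q)) D.subtype := Coh.Levels.compat_subtype _ D
  have hid : Coh.IsEquivariant D.subtype (AddMonoidHom.id C) := fun _ _ => rfl
  have h0 := Places.H2_mk_eq_zero_of_unramified q (D := D) hE hqS' le_top hpC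
    (fun s hs c => (htriv (s : GalLoc q) hs).2.2.2 c) (Coh.Z2.map hcompat hid z)
    fun x y s t hs ht => hconst x y s t hs ht
  obtain ⟨u, hu, hdu⟩ := Coh.H2.mk_eq_zero.1 h0
  rw [Coh.cup₁₁_mk, Coh.H2.mk_eq_zero]
  refine ⟨fun g => u ⟨g, trivial⟩, ?_, funext fun g => funext fun h =>
    congrFun (congrFun hdu ⟨g, trivial⟩) ⟨h, trivial⟩⟩
  obtain ⟨U, ⟨V, hV, hVU⟩, hU⟩ := hu
  exact ⟨V, hV, fun g v hv => hU ⟨g, trivial⟩ ⟨v, trivial⟩ (hVU hv)⟩

end Orth

end Fermat.Agent.SelmerTW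

end
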